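import Fermat.Agent.LT.TF.EllipticTerm
import Fermat.Agent.LT.TF.Height.Basic

/-!
The twisted classes whose norm is split regular: diagonal representatives, one for each norm up to
inversion, with the fixed torus as stabiliser.
-/

set_option autoImplicit false
set_option linter.style.haveILetI false
set_option linter.unusedSectionVars false
set_option synthInstance.maxHeartbeats 200000

noncomputable section

namespace FLTAgent.LT.HypTree

open NumberField IsDedekindDomain Matrix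
open FLTAgent.LT.Ell (nrm sc tmap tw)

variable {F : Type*} [Field F] [NumberField F]

local notation "M2F" => Matrix (Fin 2) (Fin 2) F

/-- `τ` has exact odd order `n`. -/
structure Cyc (τ : F →+* F) (n : ℕ) : Prop where
  odd : Odd n
  pow : ∀ x, (⇑τ)^[n] x = x
  ne : ∀ k, 0 < k → k < n → ∃ x, (⇑τ)^[k] x ≠ x

theorem Cyc.one : Cyc (RingHom.id F) 1 := ⟨odd_one, fun _ => rfl, fun _ _ _ => absurd ‹_ < 1› (by omega)⟩

/-- `diag (a, 1)`. -/
def diagU (a : Fˣ) : GL (Fin 2) F := Red.upperF a 0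

lemma coe_diagU (a : Fˣ) : (diagU a : M2F) = !![(a : F), 0; 0, 1] := rfl

lemma diagU_mul (a b : Fˣ) : diagU a * diagU b = diagU (a * b) := by
  rw [diagU, diagU, Red.upperF_mul]; simp [diagU]

lemma diagU_one : diagU (1 : Fˣ) = 1 := Units.ext (by rw [coe_diagU, Units.val_one]; ext i j; fin_cases i <;> fin_cases j <;> simp)

lemma tmap_diagU (τ : F →+* F) (a : Fˣ) : tmap τ (diagU a) = diagU (Units.map τ.toMonoidHom a) :=
  Units.ext (Matrix.ext fun i j => by fin_cases i <;> fin_cases j <;> simp [coe_diagU, tmap])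

lemma twNorm_diagU (τ : F →+* F) : ∀ (k : ℕ) (a : Fˣ), twNorm τ k (diagU a) = diagU (nrm τ k a)
  | 0, a => (diagU_one).symm
  | k + 1, a => by
    rw [twNorm, twNorm_diagU τ k a, nrm, ← diagU_mul]
    exact congrArg _ (tmap_diagU τ _)

lemma coe_nrm_succ' (τ : F →+* F) (a : Fˣ) : ∀ k : ℕ,
    (nrm τ (k + 1) a : F) = (nrm τ k a : F) * (⇑τ)^[k] (a : F)
  | 0 => by simp [nrm]
  | k + 1 => by
    have h := coe_nrm_succ' τ a k
    rw [show (nrm τ (k + 1 + 1) a : F) = (a : F) * τ (nrm τ (k + 1) a : F) from rfl, h, map_mul,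
      Function.iterate_succ_apply', ← mul_assoc,
      show (a : F) * τ (nrm τ k a : F) = _ from h]

variable {τ : F →+* F} {n : ℕ}

lemma Cyc.map_nrm (h : Cyc τ n) (a : Fˣ) : τ (nrm τ n a : F) = nrm τ n a := by
  have h1 := coe_nrm_succ' τ a n
  rw [h.pow, show (nrm τ (n + 1) a : F) = (a : F) * τ (nrm τ n a : F) from rfl, mul_comm] at h1
  exact mul_right_cancel₀ a.ne_zero h1

/-- Hilbert 90. -/
theorem Cyc.exists_h90 (h : Cyc τ n) {y : Fˣ} (hy : nrm τ n y = 1) :
    ∃ w : Fˣ, y * Units.map τ.toMonoidHom w = w := by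
  have hn : 0 < n := h.odd.pos
  let W : F → F := fun θ => ∑ k ∈ Finset.range n, (⇑τ)^[k] θ * (nrm τ k y : F)
  have hW : ∀ θ, (y : F) * τ (W θ) = W θ := by
    intro θ
    simp only [W, map_sum, map_mul, Finset.mul_sum, ← Function.iterate_succ_apply' (⇑τ)]
    have key := (Finset.sum_range_succ' (fun k => (⇑τ)^[k] θ * (nrm τ k y : F)) n).symm.trans
      (Finset.sum_range_succ (fun k => (⇑τ)^[k] θ * (nrm τ k y : F)) n)
    rw [h.pow, hy, show nrm τ 0 y = 1 from rfl] at key
    simp only [Function.iterate_zero_apply] at key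
    refine (Finset.sum_congr rfl fun k _ => ?_).trans (add_right_cancel key)
    rw [show (nrm τ (k + 1) y : F) = (y : F) * τ (nrm τ k y : F) from rfl]
    ring
  obtain ⟨θ, hθ⟩ : ∃ θ, W θ ≠ 0 := by
    by_contra hall
    push Not at hall
    let f : Fin n → (F →* F) := fun k => ((τ ^ (k : ℕ) : F →+* F)).toMonoidHom
    have hf : ∀ (k : Fin n) (x : F), f k x = (⇑τ)^[(k : ℕ)] x := fun k x => by
      simp [f, RingHom.coe_pow]
    have hinj : Function.Injective f := by
      intro a b hab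
      by_contra hne
      wlog hlt : (a : ℕ) < (b : ℕ) generalizing a b
      · exact this hab.symm (Ne.symm hne)
          (lt_of_le_of_ne (not_lt.1 hlt) fun e => hne (Fin.ext e.symm))
      obtain ⟨x, hx⟩ := h.ne ((b : ℕ) - a) (by omega) (by omega)
      refine hx (Function.Injective.iterate τ.injective a ?_)
      rw [← Function.iterate_add_apply, Nat.add_sub_cancel' hlt.le, ← hf, ← hf, hab]
    have hli := (linearIndependent_monoidHom F F).comp f hinj
    rw [Fintype.linearIndependent_iff] at hli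
    have h0 := hli (fun k => (nrm τ (k : ℕ) y : F)) (funext fun θ => by
      rw [Finset.sum_apply]
      simp only [Pi.smul_apply, Function.comp_apply, smul_eq_mul, hf, Pi.zero_apply]
      rw [Finset.sum_fin_eq_sum_range]
      refine Eq.trans (Finset.sum_congr rfl fun k hk => ?_) (hall θ)
      rw [dif_pos (Finset.mem_range.1 hk), mul_comm]) ⟨0, hn⟩
    exact Units.ne_zero _ h0
  exact ⟨Units.mk0 _ hθ, Units.ext (hW θ)⟩

lemma nrm_eq_one_of_div {a b : Fˣ} {k : ℕ} (h : nrm τ k a = nrm τ k b) :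
    nrm τ k (a * b⁻¹) = 1 := by
  rw [Ell.nrm_mul, Ell.nrm_inv, h, mul_inv_cancel]

lemma mk_eq_mk {γ γ' : GL (Fin 2) F} :
    (QuotientGroup.mk γ : PG F) = QuotientGroup.mk γ' ↔ ∃ e : Fˣ, γ' = γ * sc e := by
  rw [QuotientGroup.eq]
  refine ⟨fun h => ?_, ?_⟩
  · obtain ⟨e, he⟩ := (mem_center_iff_scalar _).1 h
    exact ⟨e, by show γ' = γ * GeneralLinearGroup.scalar (Fin 2) e; rw [he, mul_inv_cancel_left]⟩
  · rintro ⟨e, rfl⟩
    rw [inv_mul_cancel_left]
    exact (mem_center_iff_scalar _).2 ⟨e, rfl⟩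

/-! ### Split elements are twisted diagonal -/

lemma exists_eigenrow {M : M2F} {c : F} (hc : c ^ 2 - M.trace * c + M.det = 0) :
    ∃ r : Fin 2 → F, r ≠ 0 ∧ r ᵥ* M = c • r := by
  obtain ⟨r, hr, h⟩ := Matrix.exists_vecMul_eq_zero_iff.2 (show (M - c • (1 : M2F)).det = 0 by
    rw [Matrix.det_fin_two] at hc ⊢
    rw [Matrix.trace_fin_two] at hc
    simp
    linear_combination hc)
  refine ⟨r, hr, ?_⟩
  rwa [Matrix.vecMul_sub, Matrix.vecMul_smul, Matrix.vecMul_one, sub_eq_zero] at h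

lemma row_indep {M : M2F} {r r' : Fin 2 → F} {c c' : F} (hr : r ≠ 0) (hr' : r' ≠ 0) (hne : c ≠ c')
    (h : r ᵥ* M = c • r) (h' : r' ᵥ* M = c' • r') : r 0 * r' 1 - r 1 * r' 0 ≠ 0 := fun h0 => by
  obtain ⟨d, rfl⟩ := Ht.eq_smul_of_det_eq_zero hr h0
  rw [Matrix.smul_vecMul, h, smul_comm] at h'
  exact hne (smul_left_injective F hr' h')

lemma eigen_line {M : M2F} {r r' x : Fin 2 → F} {c c' : F} (hr : r ≠ 0) (hr' : r' ≠ 0)
    (hne : c ≠ c') (h : r ᵥ* M = c • r) (h' : r' ᵥ* M = c' • r') (hx : x ᵥ* M = c • x) :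
    ∃ μ : F, x = μ • r := by
  by_cases h0 : r 0 * x 1 - r 1 * x 0 = 0
  · exact Ht.eq_smul_of_det_eq_zero hr h0
  exfalso
  rcases eq_or_ne x 0 with rfl | hx0
  · simp at h0
  -- `r'` is a combination of `r` and `x`
  set d := r 0 * x 1 - r 1 * x 0
  have e : r' = ((r' 0 * x 1 - r' 1 * x 0) / d) • r + ((r 0 * r' 1 - r 1 * r' 0) / d) • x := by
    funext i
    fin_cases i <;> simp <;> field_simp <;> ring
  have h2 : r' ᵥ* M = c • r' := by
    rw [e, Matrix.add_vecMul, Matrix.smul_vecMul, Matrix.smul_vecMul, h, hx, smul_add, smul_smul, smul_smul,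
      smul_smul, smul_smul, mul_comm c, mul_comm c]
  rw [h2] at h'
  exact hne (smul_left_injective F hr' h')

/-- A class with split regular norm is twisted conjugate to a diagonal one. -/
theorem exists_diag (h : Cyc τ n) (γ : GL (Fin 2) F)
    (hd : (twNorm τ n γ : M2F).trace ^ 2 - 4 * (twNorm τ n γ : M2F).det ≠ 0)
    (hsq : IsSquare ((twNorm τ n γ : M2F).trace ^ 2 - 4 * (twNorm τ n γ : M2F).det)) :
    ∃ (g : PG F) (a : Fˣ), (QuotientGroup.mk γ : PG F) = tw τ g (QuotientGroup.mk (diagU a)) := by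
  set M := twNorm τ n γ with hMdef
  have hτM : tmap τ M = γ⁻¹ * M * γ := by
    have e := Ell.twNorm_succ' (τ := τ) n γ
    have hit : (tmap τ)^[n] γ = γ := Units.ext (Matrix.ext fun p q => by
      rw [Ell.iterate_tmap_apply, h.pow])
    rw [hit, Ell.twNorm_succ] at e
    rw [mul_assoc, hMdef, ← e, inv_mul_cancel_left]
  obtain ⟨d, hd'⟩ := hsq
  set tr := (M : M2F).trace
  have hd0 : d ≠ 0 := fun h0 => hd (by rw [hd', h0, mul_zero])
  set c : Fin 2 → F := ![(tr + d) / 2, (tr - d) / 2]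
  have hroot : ∀ i, c i ^ 2 - tr * c i + (M : M2F).det = 0 := fun i => by
    fin_cases i <;> simp [c] <;> linear_combination (-(1 : F) / 4) * hd'
  have hcne : c 0 ≠ c 1 := fun e => hd0 (by
    simp [c] at e
    linear_combination e / 2)
  have htr : τ tr = tr ∧ τ (M : M2F).det = (M : M2F).det := by
    refine ⟨?_, ?_⟩
    · rw [← Ell.trace_tmap, hτM]
      have := Ell.trace_conj' γ⁻¹ M
      rwa [inv_inv] at this
    · rw [← Ell.det_tmap, hτM]
      have := Ell.det_conj' γ⁻¹ M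
      rwa [inv_inv] at this
  have hfix : ∀ i, τ (c i) = c i := by
    have hmem : ∀ x : F, x ^ 2 - tr * x + (M : M2F).det = 0 → x = c 0 ∨ x = c 1 := fun x hx => by
      have : (x - c 0) * (x - c 1) = 0 := by
        show (x - (tr + d) / 2) * (x - (tr - d) / 2) = 0
        linear_combination hx + (1 / 4 : F) * hd'
      rcases mul_eq_zero.1 this with h1 | h1
      · exact Or.inl (sub_eq_zero.1 h1)
      · exact Or.inr (sub_eq_zero.1 h1)
    have himg : ∀ i, τ (c i) = c 0 ∨ τ (c i) = c 1 := fun i => hmem _ (by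
      have := congrArg τ (hroot i)
      rw [map_zero, map_add, map_sub, map_pow, map_mul, htr.1, htr.2] at this
      exact this)
    have hswap : τ (c 0) = c 0 := by
      rcases himg 0 with h0 | h0
      · exact h0
      rcases himg 1 with h1 | h1
      · -- an exchange, of odd order
        have key : ∀ k : ℕ, (⇑τ)^[2 * k] (c 0) = c 0 := fun k => by
          induction k with
          | zero => rfl
          | succ k ih =>
            rw [show 2 * (k + 1) = 2 + 2 * k by ring, Function.iterate_add_apply, ih]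
            show τ (τ (c 0)) = c 0
            rw [h0, h1]
        obtain ⟨m, hm⟩ := h.odd
        have := h.pow (c 0)
        rw [hm, add_comm, Function.iterate_add_apply, key, Function.iterate_one, h0] at this
        exact absurd this.symm hcne
      · exact absurd (τ.injective (h0.trans h1.symm)) hcne
    intro i
    fin_cases i
    · exact hswap
    · rcases himg 1 with h1 | h1
      · exact absurd (τ.injective (hswap.trans h1.symm)) hcne
      · exact h1
  choose r hr hrM using fun i => exists_eigenrow (M := (M : M2F)) (hroot i)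
  have hstep : ∀ i, ∃ μ : F, μ ≠ 0 ∧ r i ᵥ* (γ : M2F) = μ • fun j => τ (r i j) := fun i => by
    set x := (fun j => τ (r i j)) ᵥ* ((γ⁻¹ : GL (Fin 2) F) : M2F)
    have hx : x ᵥ* (M : M2F) = c i • x := by
      have e : ((γ⁻¹ : GL (Fin 2) F) : M2F) * (M : M2F) =
          (tmap τ M : M2F) * ((γ⁻¹ : GL (Fin 2) F) : M2F) := by
        rw [← Units.val_mul, ← Units.val_mul, hτM, mul_inv_cancel_right]
      have e2 : (fun j => τ (r i j)) ᵥ* (tmap τ M : M2F) = c i • fun j => τ (r i j) := by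
        funext j
        have := congrArg τ (congrFun (hrM i) j)
        simp [Matrix.vecMul, dotProduct, Fin.sum_univ_two, hfix] at this ⊢
        exact this
      rw [Matrix.vecMul_vecMul, e, ← Matrix.vecMul_vecMul, e2, Matrix.smul_vecMul]
    obtain ⟨j, hj⟩ : ∃ j, c j ≠ c i := by
      fin_cases i
      · exact ⟨1, hcne.symm⟩
      · exact ⟨0, hcne⟩
    obtain ⟨ν, hν⟩ := eigen_line (hr i) (hr j) hj.symm (hrM i) (hrM j) hx
    have hν0 : ν ≠ 0 := fun h0 => by
      rw [h0, zero_smul] at hν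
      exact Ht.vecMul_ne_zero (Ht.row_map_ne_zero τ (hr i)) γ⁻¹ hν
    refine ⟨ν⁻¹, inv_ne_zero hν0, ?_⟩
    have h2 := congrArg (fun y => y ᵥ* (γ : M2F)) hν
    simp only [x, Matrix.vecMul_vecMul, ← Units.val_mul, inv_mul_cancel, Units.val_one,
      Matrix.vecMul_one, Matrix.smul_vecMul] at h2
    rw [h2, smul_smul, inv_mul_cancel₀ hν0, one_smul]
  choose μ hμ hμγ using hstep
  have hG : (Matrix.of r).det ≠ 0 := by
    rw [Matrix.det_fin_two]
    simpa using row_indep (hr 0) (hr 1) hcne (hrM 0) (hrM 1)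
  set G := GeneralLinearGroup.mkOfDetNeZero (Matrix.of r) hG
  refine ⟨QuotientGroup.mk G⁻¹, Units.mk0 _ (hμ 0) * (Units.mk0 _ (hμ 1))⁻¹, ?_⟩
  rw [Ell.tw_mk, mk_eq_mk]
  refine ⟨(Units.mk0 _ (hμ 1))⁻¹, ?_⟩
  have key : G * γ = sc (Units.mk0 _ (hμ 1)) *
      diagU (Units.mk0 _ (hμ 0) * (Units.mk0 _ (hμ 1))⁻¹) * tmap τ G := Units.ext (Matrix.ext fun i j => by
    have e := congrFun (hμγ i) j
    rw [Units.val_mul, Units.val_mul, Units.val_mul, Ell.coe_sc, coe_diagU]
    simp only [Pi.smul_apply, smul_eq_mul] at e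
    show (r i ᵥ* (γ : M2F)) j = _
    rw [e]
    fin_cases i <;> fin_cases j <;>
      simp [G, Matrix.mul_apply, Fin.sum_univ_two] <;> left <;> field_simp [hμ 1])
  set m := Units.mk0 _ (hμ 1)
  set D := diagU (Units.mk0 _ (hμ 0) * m⁻¹)
  have hγ : γ = G⁻¹ * (sc m * D * tmap τ G) := by rw [← key, inv_mul_cancel_left]
  rw [map_inv, inv_inv, hγ, mul_assoc G⁻¹ (sc m * D * tmap τ G), mul_assoc (sc m) D,
    (Ell.sc_comm m (D * tmap τ G)).eq, mul_assoc (D * tmap τ G), ← Ell.sc_mul, mul_inv_cancel,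
    Ell.sc_one, mul_one, ← mul_assoc]

/-! ### Coincidences between diagonal classes -/

/-- Two diagonal classes meet only for equal or inverse norms. -/
theorem tw_diag_eq (h : Cyc τ n) {a a' : Fˣ} (ht : (nrm τ n a : F) ≠ 1) {g : GL (Fin 2) F}
    (he : tw τ (QuotientGroup.mk g) (QuotientGroup.mk (diagU a)) = QuotientGroup.mk (diagU a')) :
    (g 1 0 = 0 ∧ g 0 1 = 0 ∧ nrm τ n a' = nrm τ n a) ∨
      (g 0 0 = 0 ∧ g 1 1 = 0 ∧ nrm τ n a' = (nrm τ n a)⁻¹) := by
  rw [Ell.tw_mk] at he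
  obtain ⟨e, he⟩ := mk_eq_mk.1 he.symm
  have hN : g * diagU (nrm τ n a) * g⁻¹ = diagU (nrm τ n a') * sc (nrm τ n e) := by
    have := congrArg (twNorm τ n) he
    rwa [Ell.twNorm_twConj, Ell.twNorm_mul_sc, twNorm_diagU, twNorm_diagU,
      show (tmap τ)^[n] g = g from Units.ext (Matrix.ext fun p q => by
        rw [Ell.iterate_tmap_apply, h.pow])] at this
  set E := nrm τ n e
  set t := nrm τ n a
  set t' := nrm τ n a'
  have hm : g * diagU t = diagU t' * sc E * g := mul_inv_eq_iff_eq_mul.1 hN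
  have hent := fun i j => congrArg (fun X : GL (Fin 2) F => (X : M2F) i j) hm
  have e00 := hent 0 0
  have e01 := hent 0 1
  have e10 := hent 1 0
  have e11 := hent 1 1
  simp [coe_diagU, Matrix.mul_apply, Fin.sum_univ_two] at e00 e01 e10 e11
  have hdet : g 0 0 * g 1 1 - g 0 1 * g 1 0 ≠ 0 := by
    have := (GeneralLinearGroup.det g).ne_zero
    rwa [GeneralLinearGroup.val_det_apply, Matrix.det_fin_two] at this
  rcases eq_or_ne (g 1 1) 0 with h11 | h11
  · have h01 : g 0 1 ≠ 0 := fun h0 => hdet (by rw [h11, h0]; ring)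
    have h10 : g 1 0 ≠ 0 := fun h0 => hdet (by rw [h11, h0]; ring)
    have hE : (E : F) = t := mul_right_cancel₀ h10 (by linear_combination -e10)
    have htt : (t' : F) * t = 1 := by
      rw [← hE]
      exact mul_right_cancel₀ h01 (by linear_combination -e01)
    refine Or.inr ⟨?_, h11, eq_inv_of_mul_eq_one_left (Units.ext (by simpa using htt))⟩
    have : g 0 0 * ((t : F) - 1) = 0 := by linear_combination e00 + g 0 0 * (htt : (t' : F) * t = 1) + (t' : F) * g 0 0 * hE
    exact (mul_eq_zero.1 this).resolve_right (sub_ne_zero.2 ht)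
  · have hE : (E : F) = 1 := mul_right_cancel₀ h11 (by linear_combination -e11)
    have h10 : g 1 0 = 0 := by
      have : g 1 0 * ((t : F) - 1) = 0 := by linear_combination e10 + g 1 0 * hE
      exact (mul_eq_zero.1 this).resolve_right (sub_ne_zero.2 ht)
    have h00 : g 0 0 ≠ 0 := fun h0 => hdet (by rw [h10, h0]; ring)
    have htt : (t' : F) = t := mul_right_cancel₀ h00 (by linear_combination -e00 - (t' : F) * g 0 0 * hE)
    refine Or.inl ⟨h10, ?_, Units.ext htt⟩
    have : g 0 1 * ((t : F) - 1) = 0 := by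
      linear_combination (-1 : F) * e01 + (-(g 0 1) * (E : F)) * htt + (-(t : F) * g 0 1) * hE
    exact (mul_eq_zero.1 this).resolve_right (sub_ne_zero.2 ht)

variable (τ) in
/-- The fixed diagonal torus. -/
def torus0 : Subgroup (PG F) where
  carrier := {q | ∃ x : Fˣ, τ (x : F) = x ∧ (QuotientGroup.mk (diagU x) : PG F) = q}
  one_mem' := ⟨1, by simp, by rw [diagU_one]; rfl⟩
  mul_mem' := by
    rintro _ _ ⟨x, hx, rfl⟩ ⟨y, hy, rfl⟩
    exact ⟨x * y, by simp [hx, hy], by rw [← diagU_mul]; rfl⟩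
  inv_mem' := by
    rintro _ ⟨x, hx, rfl⟩
    exact ⟨x⁻¹, by simp [hx], by
      rw [← QuotientGroup.mk_inv]
      exact congrArg _ (eq_inv_of_mul_eq_one_left (by rw [diagU_mul, inv_mul_cancel, diagU_one]))⟩

lemma mem_torus0 {q : PG F} :
    q ∈ torus0 τ ↔ ∃ x : Fˣ, τ (x : F) = x ∧ (QuotientGroup.mk (diagU x) : PG F) = q := Iff.rfl

lemma tw_torus0 {q : PG F} (hq : q ∈ torus0 τ) (a : Fˣ) :
    tw τ q (QuotientGroup.mk (diagU a)) = QuotientGroup.mk (diagU a) := by
  obtain ⟨x, hx, rfl⟩ := hq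
  rw [Ell.tw_mk, tmap_diagU, show Units.map τ.toMonoidHom x = x from Units.ext hx,
    diagU_mul, mul_comm, ← diagU_mul, mul_inv_cancel_right]

/-- The stabiliser of a diagonal class is the fixed torus. -/
theorem stab_diag (h : Cyc τ n) {a : Fˣ} (ht : (nrm τ n a : F) ≠ 1) (ht' : (nrm τ n a : F) ≠ -1)
    {q : PG F} (hq : tw τ q (QuotientGroup.mk (diagU a)) = QuotientGroup.mk (diagU a)) :
    q ∈ torus0 τ := by
  obtain ⟨g, rfl⟩ := QuotientGroup.mk_surjective q
  rcases tw_diag_eq h ht hq with ⟨h10, h01, -⟩ | ⟨-, -, hinv⟩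
  · rw [Ell.tw_mk] at hq
    obtain ⟨e, he⟩ := mk_eq_mk.1 hq.symm
    rw [mul_inv_eq_iff_eq_mul] at he
    have hent := fun i j => congrArg (fun X : GL (Fin 2) F => (X : M2F) i j) he
    have e00 := hent 0 0
    have e11 := hent 1 1
    simp [coe_diagU, Matrix.mul_apply, Fin.sum_univ_two, h10, h01] at e00 e11
    have hdet := (GeneralLinearGroup.det g).ne_zero
    rw [GeneralLinearGroup.val_det_apply, Matrix.det_fin_two, h10, mul_zero, sub_zero] at hdet
    have h00 := left_ne_zero_of_mul hdet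
    have h11 := right_ne_zero_of_mul hdet
    refine ⟨Units.mk0 _ (div_ne_zero h00 h11), ?_, ?_⟩
    · show τ (g 0 0 / g 1 1) = g 0 0 / g 1 1
      have hτ11 : τ (g 1 1) ≠ 0 := (map_ne_zero τ).2 h11
      have he0 : (e : F) ≠ 0 := e.ne_zero
      have ha := a.ne_zero
      rw [map_div₀, div_eq_div_iff hτ11 h11]
      have : (a : F) * (e : F) * (τ (g 0 0) * g 1 1 - g 0 0 * τ (g 1 1)) = 0 := by
        linear_combination (-(e : F) * τ (g 1 1)) * e00 + ((a : F) * (e : F) * τ (g 0 0)) * e11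
      exact sub_eq_zero.1 ((mul_eq_zero.1 this).resolve_left (mul_ne_zero ha he0))
    · refine mk_eq_mk.2 ⟨Units.mk0 _ h11, Units.ext (Matrix.ext fun i j => ?_)⟩
      rw [Units.val_mul, coe_diagU, Ell.coe_sc]
      fin_cases i <;> fin_cases j <;> simp [h10, h01]
      field_simp
  · have h1 : (nrm τ n a : F) * (nrm τ n a : F) = 1 := by
      have h2 : nrm τ n a * nrm τ n a = 1 := eq_inv_iff_mul_eq_one.1 hinv
      have := congrArg Units.val h2
      rwa [Units.val_mul, Units.val_one] at this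
    rcases mul_self_eq_one_iff.1 h1 with h2 | h2
    · exact absurd h2 ht
    · exact absurd h2 ht'

/-- Equal norms give one class. -/
theorem exists_tw_of_nrm (h : Cyc τ n) {a a' : Fˣ} (he : nrm τ n a' = nrm τ n a) :
    ∃ g : PG F, (QuotientGroup.mk (diagU a') : PG F) = tw τ g (QuotientGroup.mk (diagU a)) := by
  obtain ⟨w, hw⟩ := h.exists_h90 (nrm_eq_one_of_div he)
  refine ⟨QuotientGroup.mk (diagU w), ?_⟩
  rw [Ell.tw_mk, tmap_diagU]
  refine congrArg _ ?_
  rw [eq_mul_inv_iff_mul_eq, diagU_mul, diagU_mul]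
  congr 1
  conv_rhs => rw [← hw, mul_right_comm (a' * a⁻¹), inv_mul_cancel_right]

/-- The flip inverts the parameter. -/
theorem exists_tw_inv (a : Fˣ) :
    ∃ g : PG F, (QuotientGroup.mk (diagU a⁻¹) : PG F) = tw τ g (QuotientGroup.mk (diagU a)) := by
  set w := GeneralLinearGroup.mkOfDetNeZero !![(0 : F), 1; 1, 0] (by simp [Matrix.det_fin_two])
  refine ⟨QuotientGroup.mk w, ?_⟩
  have hw : tmap τ w = w := Units.ext (Matrix.ext fun i j => by
    fin_cases i <;> fin_cases j <;> simp [w, tmap])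
  rw [Ell.tw_mk, hw, mk_eq_mk]
  refine ⟨a, mul_inv_eq_iff_eq_mul.2 (Units.ext (Matrix.ext fun i j => ?_))⟩
  rw [Units.val_mul, Units.val_mul, Units.val_mul, coe_diagU, coe_diagU, Ell.coe_sc]
  fin_cases i <;> fin_cases j <;> simp [w, Matrix.mul_apply, Fin.sum_univ_two]

/-! ### One representative for each norm up to inversion -/

variable (τ n) in
/-- The parameters `t + t⁻¹` of split regular norms with nonzero trace. -/
abbrev SplitIdx : Type _ :=
  {s : F // ∃ a : Fˣ, (nrm τ n a : F) ≠ 1 ∧ (nrm τ n a : F) ≠ -1 ∧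
    (nrm τ n a : F) + (nrm τ n a : F)⁻¹ = s}

/-- The chosen parameter. -/
def repA (s : SplitIdx τ n) : Fˣ := s.2.choose

lemma repA_spec (s : SplitIdx τ n) : (nrm τ n (repA s) : F) ≠ 1 ∧ (nrm τ n (repA s) : F) ≠ -1 ∧
    (nrm τ n (repA s) : F) + (nrm τ n (repA s) : F)⁻¹ = s.1 := s.2.choose_spec

instance countable_splitIdx : Countable (SplitIdx τ n) := by
  haveI : Countable F := (Module.finBasis ℚ F).equivFun.toEquiv.countable_iff.2 inferInstance
  infer_instance

/-- The classes indexed by a parameter and a coset of the fixed torus. -/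
def splitEmb (x : SplitIdx τ n × (PG F ⧸ torus0 τ)) : PG F :=
  tw τ x.2.out (QuotientGroup.mk (diagU (repA x.1)))

theorem splitEmb_injective (h : Cyc τ n) : Function.Injective (splitEmb (τ := τ) (n := n)) := by
  rintro ⟨s, q⟩ ⟨s', q'⟩ (he : tw τ q.out _ = tw τ q'.out _)
  have h1 : tw τ (q'.out⁻¹ * q.out) (QuotientGroup.mk (diagU (repA s))) =
      QuotientGroup.mk (diagU (repA s')) := by
    rw [Ell.tw_mul, he, ← Ell.tw_mul, inv_mul_cancel, Ell.tw_one]
  have hs : s = s' := by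
    refine Subtype.ext ?_
    rw [← (repA_spec s).2.2, ← (repA_spec s').2.2]
    obtain ⟨g, hg⟩ := QuotientGroup.mk_surjective (q'.out⁻¹ * q.out)
    rw [← hg] at h1
    rcases tw_diag_eq h (repA_spec s).1 h1 with ⟨-, -, e⟩ | ⟨-, -, e⟩
    · rw [e]
    · rw [e, Units.val_inv_eq_inv_val, inv_inv, add_comm]
  subst hs
  refine Prod.ext rfl ?_
  rw [← QuotientGroup.out_eq' q, ← QuotientGroup.out_eq' q', QuotientGroup.eq]
  have := stab_diag h (repA_spec s).1 (repA_spec s).2.1 h1
  simpa using inv_mem this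

/-- Every class twisted conjugate to a good diagonal one is indexed. -/
theorem mem_range_splitEmb (h : Cyc τ n) {a : Fˣ} (h1 : (nrm τ n a : F) ≠ 1)
    (h2 : (nrm τ n a : F) ≠ -1) (g : PG F) :
    tw τ g (QuotientGroup.mk (diagU a)) ∈ Set.range (splitEmb (τ := τ) (n := n)) := by
  set s : SplitIdx τ n := ⟨_, a, h1, h2, rfl⟩
  obtain ⟨k, hk⟩ : ∃ k : PG F, (QuotientGroup.mk (diagU a) : PG F) =
      tw τ k (QuotientGroup.mk (diagU (repA s))) := by
    have e := (repA_spec s).2.2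
    set t := (nrm τ n a : F)
    set t' := (nrm τ n (repA s) : F)
    have ht0 : t ≠ 0 := Units.ne_zero _
    have ht0' : t' ≠ 0 := Units.ne_zero _
    have hprod : (t' - t) * (t * t' - 1) = 0 := by
      simp only [s] at e
      field_simp at e
      linear_combination e
    rcases mul_eq_zero.1 hprod with hh | hh
    · exact exists_tw_of_nrm h (Units.ext (sub_eq_zero.1 hh).symm)
    · obtain ⟨k₁, hk₁⟩ := exists_tw_inv (τ := τ) (repA s)
      obtain ⟨k₂, hk₂⟩ := exists_tw_of_nrm h (a := (repA s)⁻¹) (a' := a) (by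
        rw [Ell.nrm_inv]
        exact eq_inv_of_mul_eq_one_left (Units.ext (by simpa using sub_eq_zero.1 hh)))
      exact ⟨k₂ * k₁, by rw [Ell.tw_mul, ← hk₁, hk₂]⟩
  refine ⟨(s, QuotientGroup.mk (g * k)), ?_⟩
  show tw τ (QuotientGroup.mk (g * k) : PG F ⧸ torus0 τ).out _ = _
  have hq : ((QuotientGroup.mk (g * k) : PG F ⧸ torus0 τ).out)⁻¹ * (g * k) ∈ torus0 τ :=
    QuotientGroup.eq.1 (QuotientGroup.out_eq' _)
  rw [hk, ← Ell.tw_mul]
  conv_rhs => rw [← mul_inv_cancel_left (QuotientGroup.mk (g * k) : PG F ⧸ torus0 τ).out (g * k),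
    Ell.tw_mul, tw_torus0 hq]

end FLTAgent.LT.HypTree
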