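import Fermat.Agent.LT.TF.Hyp.Local
import Fermat.Agent.LT.TF.Hyp.Classes
import Fermat.Agent.LT.TF.Height

/-!
Only finitely many split classes meet the damped tests, uniformly in the number of dampings: the
norm is bounded above and below away from the orbit of the place and at infinity, hence, by the
product formula, on the orbit as well.
-/

set_option autoImplicit false
set_option linter.style.haveILetI false
set_option linter.unusedSectionVars false
set_option linter.unusedVariables false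
set_option synthInstance.maxHeartbeats 200000

noncomputable section

namespace FLTAgent.LT.HypTree

open NumberField IsDedekindDomain Matrix
open FLTAgent.LT.Ht (vMax mMax detNorm locBound locHt)
open FLTAgent.LT.Ell (nrm)

variable {F : Type*} [Field F] [NumberField F]

local notation "HS" => HeightOneSpectrum (𝓞 F)
local notation "M2" => Matrix (Fin 2) (Fin 2) (Af F)

/-- The normalised absolute value at a prime. -/
def absAt (w : HS) (x : F) : ℝ := ‖(algebraMap F (Af F) x) w‖

lemma absAt_nonneg (w : HS) (x : F) : 0 ≤ absAt w x := norm_nonneg _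

lemma absAt_pos (w : HS) {x : F} (hx : x ≠ 0) : 0 < absAt w x := by
  rw [absAt, Ht.norm_algebraMap]; exact FinitePlace.pos_iff.2 hx

lemma absAt_one (w : HS) : absAt w (1 : F) = 1 := by
  rw [absAt, Ht.norm_algebraMap, map_one]

lemma absAt_mul (w : HS) (x y : F) : absAt w (x * y) = absAt w x * absAt w y := by
  rw [absAt, absAt, absAt, Ht.norm_algebraMap, Ht.norm_algebraMap, Ht.norm_algebraMap, map_mul]

lemma absAt_pow (w : HS) (x : F) (k : ℕ) : absAt w (x ^ k) = absAt w x ^ k := by
  rw [absAt, absAt, Ht.norm_algebraMap, Ht.norm_algebraMap, map_pow]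

lemma absAt_comp (τ : F →+* F) (w : HS) (x : F) : absAt w (τ x) = absAt (placeBelow τ w) x := by
  rw [absAt, ← afMap_algebraMap, norm_afMap]
  rfl

lemma absAt_natCast_le_one (w : HS) (m : ℕ) : absAt w (m : F) ≤ 1 := by
  rw [absAt, map_natCast]
  exact Ht.norm_le_one_iff_valued.2 (Red.intg_natCast m w)

lemma absAt_iterate_natCast (τ : F →+* F) (w : HS) (m k : ℕ) :
    absAt ((placeBelow τ)^[k] w) (m : F) = absAt w (m : F) := by
  induction k with
  | zero => rfl
  | succ k ih => rw [Function.iterate_succ_apply', ← absAt_comp, map_natCast, ih]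

lemma absAt_absNorm_lt_one (v : HS) : absAt v ((Ideal.absNorm v.asIdeal : ℕ) : F) < 1 := by
  rw [absAt, Ht.norm_algebraMap, FinitePlace.mk_apply]
  have h := (FinitePlace.norm_lt_one_iff_mem F v ((Ideal.absNorm v.asIdeal : ℕ) : 𝓞 F)).2
    (Ideal.absNorm_mem v.asIdeal)
  rwa [map_natCast] at h

/-! ### The orbit of a place -/

variable {τ : F →+* F} {n : ℕ}

lemma mem_iterate_placeBelow (w : HS) : ∀ (k : ℕ) (y : 𝓞 F),
    y ∈ ((placeBelow τ)^[k] w).asIdeal ↔ (⇑(RingOfIntegers.mapRingHom τ))^[k] y ∈ w.asIdeal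
  | 0, _ => Iff.rfl
  | k + 1, y => by
    rw [Function.iterate_succ_apply', Function.iterate_succ_apply]
    exact mem_iterate_placeBelow w k _

lemma Cyc.placeBelow_iterate (h : Cyc τ n) (w : HS) : (placeBelow τ)^[n] w = w := by
  refine HeightOneSpectrum.ext (Ideal.ext fun y => ?_)
  have hk : ∀ k : ℕ, (((⇑(RingOfIntegers.mapRingHom τ))^[k] y : 𝓞 F) : F) = (⇑τ)^[k] (y : F) :=
    fun k => by
      induction k with
      | zero => rfl
      | succ k ih => rw [Function.iterate_succ_apply', Function.iterate_succ_apply', ← ih]; rfl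
  rw [mem_iterate_placeBelow, show (⇑(RingOfIntegers.mapRingHom τ))^[n] y = y from
    RingOfIntegers.ext ((hk n).trans (h.pow _))]

lemma Cyc.comap_iterate (h : Cyc τ n) (w : InfinitePlace F) :
    (fun w : InfinitePlace F => w.comap τ)^[n] w = w := by
  refine InfinitePlace.ext _ _ fun y => ?_
  have hk : ∀ (k : ℕ) (y : F), ((fun w : InfinitePlace F => w.comap τ)^[k] w) y = w ((⇑τ)^[k] y) :=
    fun k => by
      induction k with
      | zero => exact fun _ => rfl
      | succ k ih =>
        intro y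
        rw [Function.iterate_succ_apply', InfinitePlace.comap_apply, ih,
          ← Function.iterate_succ_apply]
  rw [hk, h.pow]

/-- Chaining two sided comparisons along an orbit. -/
lemma orbit_bound {ι : Type*} (π : ι → ι) (val : ι → F → ℝ) (hval : ∀ i x, 0 ≤ val i x)
    (hone : ∀ i, val i 1 = 1) (hmul : ∀ i x y, val i (x * y) = val i x * val i y)
    (hτ : ∀ i x, val i (τ x) = val (π i) x) (a : Fˣ) (ρ C : ι → ℝ) (hC : ∀ i, 0 ≤ C i) :
    ∀ (k : ℕ) (i : ι),
      (∀ j < k, ρ (π^[j] i) ≤ C (π^[j] i) * (val (π^[j] i) a * ρ (π^[j + 1] i)) ∧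
        val (π^[j] i) a * ρ (π^[j + 1] i) ≤ C (π^[j] i) * ρ (π^[j] i)) →
      ρ i ≤ (∏ j ∈ Finset.range k, C (π^[j] i)) * (val i (nrm τ k a : F) * ρ (π^[k] i)) ∧
        val i (nrm τ k a : F) * ρ (π^[k] i) ≤ (∏ j ∈ Finset.range k, C (π^[j] i)) * ρ i
  | 0, i, _ => by simp [nrm, hone]
  | k + 1, i, hyp => by
    obtain ⟨h0, h0'⟩ := hyp 0 (Nat.succ_pos k)
    simp only [Function.iterate_zero_apply, zero_add, Function.iterate_one] at h0 h0'
    obtain ⟨ih, ih'⟩ := orbit_bound π val hval hone hmul hτ a ρ C hC k (π i) fun j hj => by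
      have := hyp (j + 1) (Nat.succ_lt_succ hj)
      rw [Function.iterate_succ_apply π j i, Function.iterate_succ_apply π (j + 1) i] at this
      exact this
    have e : val i (nrm τ (k + 1) a : F) = val i a * val (π i) (nrm τ k a : F) := by
      rw [← hτ, ← hmul]; rfl
    rw [Finset.prod_range_succ', Function.iterate_zero_apply, e]
    simp only [Function.iterate_succ_apply]
    set P := ∏ j ∈ Finset.range k, C (π^[j] (π i))
    have hP : 0 ≤ P := Finset.prod_nonneg fun j _ => hC _
    constructor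
    · calc ρ i ≤ C i * (val i a * ρ (π i)) := h0
        _ ≤ C i * (val i a * (P * (val (π i) (nrm τ k a : F) * ρ (π^[k] (π i))))) :=
          mul_le_mul_of_nonneg_left (mul_le_mul_of_nonneg_left ih (hval _ _)) (hC _)
        _ = _ := by ring
    · calc val i a * val (π i) (nrm τ k a : F) * ρ (π^[k] (π i))
          = val i a * (val (π i) (nrm τ k a : F) * ρ (π^[k] (π i))) := mul_assoc _ _ _
        _ ≤ val i a * (P * ρ (π i)) := mul_le_mul_of_nonneg_left ih' (hval _ _)
        _ = P * (val i a * ρ (π i)) := by ring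
        _ ≤ P * (C i * ρ i) := mul_le_mul_of_nonneg_left h0' hP
        _ = _ := by ring

/-! ### One step -/

/-- A denominator bounds the change of the local heights. -/
lemma locBound_le_den {d : ℕ} (hd : 0 < d) {g : GF F} (hg : Red.Den d g) (w : HS) :
    locBound w g ≤ (absAt w (d : F))⁻¹ ^ 4 := by
  have hd0 : 0 < absAt w (d : F) := absAt_pos w (Nat.cast_ne_zero.2 hd.ne')
  have hle : ∀ a : Af F, Red.Intg ((d : Af F) * a) → ‖a w‖ ≤ (absAt w (d : F))⁻¹ := fun a ha => by
    rw [← one_div, le_div_iff₀ hd0, absAt, map_natCast, ← norm_mul, mul_comm]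
    exact Ht.norm_le_one_iff_valued.2 (ha w)
  have hM : ∀ h : GF F, (∀ i j, Red.Intg ((d : Af F) * (h : M2) i j)) →
      mMax (Red.loc w (h : M2)) ≤ (absAt w (d : F))⁻¹ := fun h hh =>
    max_le (max_le (hle _ (hh 0 0)) (hle _ (hh 0 1))) (max_le (hle _ (hh 1 0)) (hle _ (hh 1 1)))
  have h1 := hM g fun i j => (hg i j).1
  have h2 := hM g⁻¹ fun i j => (hg i j).2
  have e : detNorm w g * detNorm w g⁻¹ = 1 := by
    rw [← Ht.detNorm_mul, mul_inv_cancel, detNorm, map_one, Units.val_one]
    exact norm_one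
  have h3 : detNorm w g⁻¹ ≤ (absAt w (d : F))⁻¹ ^ 2 := by
    rw [Ht.detNorm_eq_det]
    exact (norm_det_le_sq _).trans (pow_le_pow_left₀ (Ht.mMax_nonneg _) h2 2)
  rw [locBound, div_eq_mul_inv, show (detNorm w g)⁻¹ = detNorm w g⁻¹ from inv_eq_of_mul_eq_one_right e,
    show (absAt w (d : F))⁻¹ ^ 4 = (absAt w (d : F))⁻¹ ^ 2 * (absAt w (d : F))⁻¹ ^ 2 by ring]
  exact mul_le_mul (pow_le_pow_left₀ (Ht.mMax_nonneg _) h1 2) h3 (Ht.detNorm_pos _ _).le
    (sq_nonneg _)

lemma row_vecMul_diagU (a : Fˣ) :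
    ![(0 : F), 1] ᵥ* (diagU a : Matrix (Fin 2) (Fin 2) F) = ![(0 : F), 1] := by
  funext j
  fin_cases j <;> simp [coe_diagU, Matrix.vecMul, dotProduct, Fin.sum_univ_two]

/-- The local heights at a place and below it. -/
lemma locHt_step (τ : F →+* F) (w : HS) (a : Fˣ) {g y : GF F}
    (hy : g * y = toFin (diagU a) * gfMap τ g) :
    locHt w ![0, 1] g ≤ locBound w y * (absAt w a * locHt (placeBelow τ w) ![0, 1] g) ∧
      absAt w a * locHt (placeBelow τ w) ![0, 1] g ≤ locBound w y * locHt w ![0, 1] g := by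
  have hr : (![0, 1] : Fin 2 → F) ≠ 0 := fun h => one_ne_zero (congrFun h 1)
  have hτr : (fun i => τ ((![0, 1] : Fin 2 → F) i)) = ![0, 1] := by
    funext i; fin_cases i <;> simp
  have e : locHt w ![0, 1] (g * y) = absAt w a * locHt (placeBelow τ w) ![0, 1] g := by
    rw [hy, Ht.locHt_toFin_mul, row_vecMul_diagU]
    conv_lhs => arg 2; rw [← hτr, Ht.locHt_afMap]
    rw [absAt, show ((GeneralLinearGroup.det (diagU a) : Fˣ) : F) = a by
      rw [GeneralLinearGroup.val_det_apply, Matrix.det_fin_two]; simp [coe_diagU]]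
  rw [← e]
  refine ⟨Ht.locHt_le_mul w hr g y, ?_⟩
  have h := Ht.locHt_le_mul w hr (g * y) y⁻¹
  rwa [mul_inv_cancel_right, locBound_inv] at h

/-- The translation length at an infinite place. -/
lemma snd_act_diagU (a : Fˣ) (w : InfinitePlace F) (p : H3) :
    ((act (GeneralLinearGroup.map w.embedding (diagU a)) p).2 : ℝ) = w (a : F) * (p.2 : ℝ) := by
  have h := Ht.qf_act (GeneralLinearGroup.map w.embedding (diagU a)) ![0, 1] p
  have e : ![(0 : ℂ), 1] ᵥ* ((GeneralLinearGroup.map w.embedding (diagU a) : GL (Fin 2) ℂ) :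
      Matrix (Fin 2) (Fin 2) ℂ) = ![0, 1] := by
    funext j
    fin_cases j <;> simp [coe_diagU, Matrix.vecMul, dotProduct, Fin.sum_univ_two]
  have hd : ‖(GeneralLinearGroup.det (GeneralLinearGroup.map w.embedding (diagU a)) : ℂ)‖ =
      w (a : F) := by
    rw [GeneralLinearGroup.val_det_apply, Matrix.det_fin_two, ← InfinitePlace.norm_embedding_eq]
    simp [coe_diagU]
  rw [e, hd] at h
  simp only [Matrix.cons_val_zero, Matrix.cons_val_one, Ht.qf_zero_one] at h
  have h1 : (0 : ℝ) < (act (GeneralLinearGroup.map w.embedding (diagU a)) p).2 := Subtype.prop _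
  have h2 : (0 : ℝ) < p.2 := Subtype.prop _
  field_simp at h
  linarith

lemma snd_infMap (τ : F →+* F) (x : Xinf F) (w : InfinitePlace F) :
    ((infMap τ x w).2 : ℝ) = ((x (w.comap τ)).2 : ℝ) := by
  simp only [infMap]
  split_ifs <;> simp [conjH3]

/-! ### The product formula -/

/-- A bound at the remaining place. -/
lemma absAt_le_of_bounds {x : F} (hx : x ≠ 0) {d : ℕ} (hd : 0 < d) (v : HS)
    (hlow : ∀ w, w ≠ v → absAt w (d : F) ≤ absAt w x) {L : ℝ} (hL : 0 ≤ L)
    (hinf : ∀ w : InfinitePlace F, L ≤ w x) :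
    absAt v x * ((∏ w : InfinitePlace F, L ^ w.mult) *
      (∏ w : InfinitePlace F, w (d : F) ^ w.mult)⁻¹) ≤ 1 := by
  classical
  have hd0 : (d : F) ≠ 0 := Nat.cast_ne_zero.2 hd.ne'
  set g : HS → ℝ := fun w => absAt w (d : F) * if w = v then absAt v x else 1
  have hfd : (fun w : HS => absAt w (d : F)).HasFiniteMulSupport :=
    Filter.eventually_cofinite.1 (Ht.eventually_norm_eq_one hd0)
  have hfv : (fun w : HS => if w = v then absAt v x else 1).HasFiniteMulSupport :=
    (Set.finite_singleton v).subset fun w hw => by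
      by_contra h
      exact hw (if_neg h)
  have hle : ∀ w, g w ≤ absAt w x := fun w => by
    rcases eq_or_ne w v with rfl | h
    · simp only [g, if_true]
      exact mul_le_of_le_one_left (absAt_nonneg _ _) (absAt_natCast_le_one _ _)
    · simp only [g, if_neg h, mul_one]
      exact hlow w h
  have hfin := finprod_le_finprod (hfd.mul hfv) (fun w => mul_nonneg (absAt_nonneg _ _) (by
    show (0 : ℝ) ≤ if w = v then absAt v x else 1
    split_ifs
    · exact absAt_nonneg _ _
    · exact zero_le_one)) (Filter.eventually_cofinite.1 (Ht.eventually_norm_eq_one hx)) hle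
  simp only [Pi.mul_apply] at hfin
  rw [finprod_mul_distrib hfd hfv, finprod_eq_single (fun w => if w = v then absAt v x else 1) v
    (fun w h => if_neg h), if_pos rfl] at hfin
  change (∏ᶠ w : HS, ‖(algebraMap F (Af F) (d : F)) w‖) * _ ≤
    ∏ᶠ w : HS, ‖(algebraMap F (Af F) x) w‖ at hfin
  rw [Ht.finprod_norm_algebraMap hd0, Ht.finprod_norm_algebraMap hx, mul_comm] at hfin
  have hinf' : ∏ w : InfinitePlace F, L ^ w.mult ≤ ∏ w : InfinitePlace F, w x ^ w.mult :=
    Finset.prod_le_prod (fun w _ => pow_nonneg hL _) fun w _ => pow_le_pow_left₀ hL (hinf w) _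
  have hP : 0 < ∏ w : InfinitePlace F, w x ^ w.mult :=
    Finset.prod_pos fun w _ => pow_pos (InfinitePlace.pos_iff.2 hx) _
  calc absAt v x * ((∏ w : InfinitePlace F, L ^ w.mult) *
        (∏ w : InfinitePlace F, w (d : F) ^ w.mult)⁻¹)
      = absAt v x * (∏ w : InfinitePlace F, w (d : F) ^ w.mult)⁻¹ *
          ∏ w : InfinitePlace F, L ^ w.mult := by ring
    _ ≤ (∏ w : InfinitePlace F, w x ^ w.mult)⁻¹ * ∏ w : InfinitePlace F, w x ^ w.mult :=
        mul_le_mul hfin hinf' (Finset.prod_nonneg fun w _ => pow_nonneg hL _) (inv_pos.2 hP).le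
    _ = 1 := inv_mul_cancel₀ hP.ne'

/-- The split parameters met by some damping are finite in number. -/
theorem finite_splitIdx [IsTotallyComplex F] {τ : F →+* F} {n N : ℕ} (h : Cyc τ n) (hN : 0 < N)
    {v : HeightOneSpectrum (𝓞 F)} (hv : (N : 𝓞 F) ∉ v.asIdeal) {t : Test F} (ht : t.Ok N)
    (h1 : t.OneAt v) :
    {s : SplitIdx τ n |
      ∃ (J : ℕ) (p : Pt F N), term τ (t.dampPow v J) (diagU (repA s)) p ≠ 0}.Finite := by
  classical
  set S₁ : Set (Cos F N) := (QuotientGroup.mk : GF F → Cos F N) '' Function.support t.fin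
  obtain ⟨d, hd, hden⟩ := Red.exists_den (ht.finite.image Quotient.out : (Quotient.out '' S₁).Finite)
  obtain ⟨R, hR⟩ := Ht.exists_radius ht
  set K := Real.cosh R
  set c : ℕ := d ^ (4 * n)
  have hc : 0 < c := pow_pos hd _
  set L : ℝ := ((2 * K) ^ n)⁻¹
  have hK : 1 ≤ K := Real.one_le_cosh R
  have hL : 0 < L := by positivity
  set A : ℝ := (∏ w : InfinitePlace F, L ^ w.mult) *
    (∏ w : InfinitePlace F, w (c : F) ^ w.mult)⁻¹
  have hA : 0 < A := mul_pos (Finset.prod_pos fun w _ => pow_pos hL _)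
    (inv_pos.2 (Finset.prod_pos fun w _ =>
      pow_pos (InfinitePlace.pos_iff.2 (Nat.cast_ne_zero.2 hc.ne')) _))
  obtain ⟨M, hM⟩ := exists_pow_lt_of_lt_one hA (absAt_absNorm_lt_one v)
  set q := Ideal.absNorm v.asIdeal
  have hq : 0 < q := Nat.pos_of_ne_zero (Ideal.absNorm_eq_zero_iff.not.2 v.ne_bot)
  set X := {y : F | IsIntegral ℤ (((c * q ^ M : ℕ) : F) * y) ∧
    ∀ w : InfinitePlace F, w y ≤ (2 * K) ^ n}
  have hX : X.Finite := Red.finite_bounded (Nat.mul_pos hc (pow_pos hq M)) _
  refine ((hX.image fun x => x + x⁻¹).preimage Subtype.val_injective.injOn).subset ?_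
  rintro s ⟨J, p, hp⟩
  set a := repA s
  set x : F := ((nrm τ n a : Fˣ) : F) with hxdef
  have hx : x ≠ 0 := Units.ne_zero _
  refine ⟨x, ?_, (repA_spec s).2.2⟩
  obtain ⟨hfin, hinf⟩ := ne_zero_and_ne_zero_of_mul hp
  set g := p.2.out
  set y := g⁻¹ * toFin (diagU a) * gfMap τ g
  rw [dampPow_fin hv ht h1] at hfin
  obtain ⟨hfin, -⟩ := ne_zero_and_ne_zero_of_mul hfin
  rw [dampPow_inf] at hinf
  have hy : g * y = toFin (diagU a) * gfMap τ g := by
    simp only [y, mul_assoc, mul_inv_cancel_left]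
  -- away from the place
  have hb : ∀ w : HS, w ≠ v → locBound w y ≤ (absAt w (d : F))⁻¹ ^ 4 := fun w hw => by
    rw [locBound_congr w (loc_away_ne v y hw).symm]
    set s₁ : Cos F N := QuotientGroup.mk (away v y)
    obtain ⟨u, hu, e⟩ : ∃ u ∈ UZ F N, away v y = s₁.out * u :=
      ⟨_, QuotientGroup.eq.1 (QuotientGroup.out_eq' _), (mul_inv_cancel_left _ _).symm⟩
    rw [e]
    refine (locBound_mul_le w _ _).trans ?_
    rw [locBound_UZ w hu, mul_one]
    exact locBound_le_den hd (hden _ ⟨s₁, ⟨_, hfin, rfl⟩, rfl⟩) w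
  have horb : ∀ w : HS, (∀ j < n, (placeBelow τ)^[j] w ≠ v) →
      absAt w (c : F) ≤ absAt w x ∧ absAt w (c : F) * absAt w x ≤ 1 := fun w hw => by
    obtain ⟨b1, b2⟩ := orbit_bound (τ := τ) (placeBelow τ) absAt absAt_nonneg absAt_one absAt_mul
      (absAt_comp τ) a (fun w => locHt w ![0, 1] g) (fun w => (absAt w (d : F))⁻¹ ^ 4)
      (fun w => pow_nonneg (inv_nonneg.2 (absAt_nonneg _ _)) _) n w fun j hj => by
        have hs := locHt_step τ ((placeBelow τ)^[j] w) a hy
        have hr : (![0, 1] : Fin 2 → F) ≠ 0 := fun h => one_ne_zero (congrFun h 1)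
        rw [Function.iterate_succ_apply']
        exact ⟨hs.1.trans (mul_le_mul_of_nonneg_right (hb _ (hw j hj))
          (mul_nonneg (absAt_nonneg _ _) (Ht.locHt_pos _ hr _).le)),
          hs.2.trans (mul_le_mul_of_nonneg_right (hb _ (hw j hj)) (Ht.locHt_pos _ hr _).le)⟩
    have hpr : ∏ j ∈ Finset.range n, (absAt ((placeBelow τ)^[j] w) (d : F))⁻¹ ^ 4 =
        (absAt w (c : F))⁻¹ := by
      simp only [absAt_iterate_natCast, Finset.prod_const, Finset.card_range, c, Nat.cast_pow,
        absAt_pow, inv_pow, ← pow_mul]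
    rw [h.placeBelow_iterate, hpr] at b1 b2
    have hρ : 0 < locHt w ![0, 1] g := Ht.locHt_pos _ (fun h => one_ne_zero (congrFun h 1)) _
    have hc0 : 0 < absAt w (c : F) := absAt_pos w (Nat.cast_ne_zero.2 hc.ne')
    rw [← mul_assoc] at b1
    have h3 := le_of_mul_le_mul_right ((one_mul _).trans_le b1) hρ
    have h4 := le_of_mul_le_mul_right b2 hρ
    rw [inv_mul_eq_div, one_le_div hc0] at h3
    rw [← one_div, le_div_iff₀ hc0, mul_comm] at h4
    exact ⟨h3, h4⟩
  -- at infinity
  have hw' : ∀ w : InfinitePlace F, L ≤ w x ∧ w x ≤ (2 * K) ^ n := fun w => by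
    obtain ⟨b1, b2⟩ := orbit_bound (τ := τ) (fun w : InfinitePlace F => w.comap τ) (fun w z => w z)
      (fun w z => apply_nonneg w z) (fun w => map_one w) (fun w => map_mul w)
      (fun w z => (InfinitePlace.comap_apply w τ z).symm) a (fun w => ((p.1 w).2 : ℝ))
      (fun _ => 2 * K) (fun _ => by positivity) n w fun j _ => by
        set u := (fun w : InfinitePlace F => w.comap τ)^[j] w
        rw [Function.iterate_succ_apply']
        have hd := Ht.coshDist_le_of_hdist (hR _ hinf u)
        obtain ⟨-, l1, l2⟩ := Ht.box_of_coshDist hd (le_refl _) (le_refl _) (le_refl _)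
        have e : ((actInf (diagU a) (infMap τ p.1) u).2 : ℝ) =
            u (a : F) * ((p.1 (u.comap τ)).2 : ℝ) := by
          rw [← snd_infMap]; exact snd_act_diagU a u _
        rw [e] at l1 l2
        rw [div_le_iff₀ (by positivity), mul_comm _ (2 * K)] at l1
        exact ⟨l1, l2⟩
    rw [h.comap_iterate, Finset.prod_const, Finset.card_range] at b1 b2
    have ht0 : (0 : ℝ) < (p.1 w).2 := Subtype.prop _
    rw [← mul_assoc] at b1
    have h3 := le_of_mul_le_mul_right ((one_mul _).trans_le b1) ht0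
    exact ⟨(inv_le_iff_one_le_mul₀ (by positivity)).2 (by rw [mul_comm]; exact h3),
      le_of_mul_le_mul_right b2 ht0⟩
  -- on the orbit
  have hO : ∀ k, absAt ((placeBelow τ)^[k] v) x = absAt v x := fun k => by
    induction k with
    | zero => rfl
    | succ k ih => rw [Function.iterate_succ_apply', ← absAt_comp, hxdef, h.map_nrm, ← hxdef, ih]
  have hout : ∀ w : HS, (∀ k, w ≠ (placeBelow τ)^[k] v) →
      absAt w (c : F) ≤ absAt w x ∧ absAt w (c : F) * absAt w x ≤ 1 := fun w hw =>
    horb w fun j hj e => hw (n - j) (by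
      rw [← e, ← Function.iterate_add_apply, Nat.sub_add_cancel hj.le, h.placeBelow_iterate])
  have hαA : absAt v x * A ≤ 1 ∨ absAt v x ≤ 1 := by
    rcases le_or_gt (absAt v x) 1 with hle | hgt
    · exact Or.inr hle
    refine Or.inl (absAt_le_of_bounds hx hc v (fun w _ => ?_) hL.le fun w => (hw' w).1)
    by_cases hk : ∃ k, w = (placeBelow τ)^[k] v
    · obtain ⟨k, rfl⟩ := hk
      rw [hO]
      exact (absAt_natCast_le_one _ _).trans hgt.le
    · exact (hout w (not_exists.1 hk)).1
  have hqv : absAt v ((q : F)) ^ M * absAt v x ≤ 1 := by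
    rcases hαA with h' | h'
    · exact (mul_le_mul_of_nonneg_right hM.le (absAt_nonneg _ _)).trans (by rwa [mul_comm])
    · exact mul_le_one₀ (pow_le_one₀ (absAt_nonneg _ _) (absAt_natCast_le_one _ _))
        (absAt_nonneg _ _) h'
  refine ⟨Red.isIntegral_of_intg fun w => Ht.norm_le_one_iff_valued.1 ?_, fun w => (hw' w).2⟩
  show absAt w _ ≤ 1
  rw [Nat.cast_mul, Nat.cast_pow q M, absAt_mul, absAt_mul, absAt_pow w (q : F) M]
  by_cases hk : ∃ k, w = (placeBelow τ)^[k] v
  · obtain ⟨k, rfl⟩ := hk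
    rw [hO, absAt_iterate_natCast, absAt_iterate_natCast, mul_assoc]
    exact mul_le_one₀ (absAt_natCast_le_one _ _)
      (mul_nonneg (pow_nonneg (absAt_nonneg _ _) _) (absAt_nonneg _ _)) hqv
  · rw [mul_right_comm]
    exact mul_le_one₀ (hout w (not_exists.1 hk)).2 (pow_nonneg (absAt_nonneg _ _) _)
      (pow_le_one₀ (absAt_nonneg _ _) (absAt_natCast_le_one _ _))

end FLTAgent.LT.HypTree
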