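import Fermat.Agent.LT.RS.Weight
import Mathlib.MeasureTheory.Measure.Lebesgue.Basic

/-!
Slicing along a one parameter flow: the integral of an invariant function over a window of the
height is the length of the window times one slice.
-/

set_option autoImplicit false
set_option linter.style.haveILetI false
set_option linter.unusedSectionVars false

noncomputable section

namespace FLTAgent.LT.HypTree

open MeasureTheory
open scoped ENNReal

variable {G X : Type*} [Group G] [MulAction G X] [MeasurableSpace X] [Countable G]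
  [MeasurableConstSMul G X] {μ : Measure X} [SFinite μ] [SMulInvariantMeasure G X μ]

/-- A flow raising `L` at unit speed. -/
structure FlowData (G : Type*) [SMul G X] (μ : Measure X) (L : X → ℝ) (Φ : ℝ → X → X) : Prop where
  meas : Measurable fun z : ℝ × X => Φ z.1 z.2
  preserving : ∀ u, MeasurePreserving (Φ u) μ μ
  comm : ∀ u (g : G) x, Φ u (g • x) = g • Φ u x
  measL : Measurable L
  invL : ∀ (g : G) x, L (g • x) = L x
  speed : ∀ u x, L (Φ u x) = L x + u

variable {L : X → ℝ} {Φ : ℝ → X → X}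

lemma FlowData.weight_comp (hF : FlowData G μ L Φ) {v : X → ℝ≥0∞} (hv : RS.IsWeight G v) (u : ℝ) :
    RS.IsWeight G fun x => v (Φ u x) :=
  hv.comp_equiv (MulEquiv.refl G) (hF.preserving u).measurable fun g x => hF.comm u g x

/-- Positive form. -/
theorem lintegral_slice (hF : FlowData G μ L Φ) {v : X → ℝ≥0∞} (hv : RS.IsWeight G v)
    {A B : X → ℝ} (hA : Measurable A) (hB : Measurable B)
    (hAg : ∀ (g : G) x, A (g • x) = A x) (hBg : ∀ (g : G) x, B (g • x) = B x)
    (hAΦ : ∀ u x, A (Φ u x) = A x) (hBΦ : ∀ u x, B (Φ u x) = B x)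
    {f : X → ℝ≥0∞} (hf : Measurable f) (hfg : ∀ (g : G) x, f (g • x) = f x)
    (hfΦ : ∀ u x, f (Φ u x) = f x) :
    ∫⁻ x, v x * ({x | A x ≤ L x ∧ L x ≤ B x}.indicator f x) ∂μ =
      ∫⁻ x, v x * ({x | L x ∈ Set.Ico (0 : ℝ) 1}.indicator f x * ENNReal.ofReal (B x - A x)) ∂μ := by
  classical
  set W : Set X := {x | A x ≤ L x ∧ L x ≤ B x}
  set S : Set X := {x | L x ∈ Set.Ico (0 : ℝ) 1}
  have hW : MeasurableSet W := (measurableSet_le hA hF.measL).inter (measurableSet_le hF.measL hB)
  have hS : MeasurableSet S := hF.measL measurableSet_Ico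
  have hS2 : MeasurableSet {z : ℝ × X | L z.2 + z.1 ∈ Set.Ico (0 : ℝ) 1} :=
    ((hF.measL.comp measurable_snd).add measurable_fst) measurableSet_Ico
  have hW2 : MeasurableSet {z : ℝ × X | A z.2 ≤ L z.2 - z.1 ∧ L z.2 - z.1 ≤ B z.2} :=
    (measurableSet_le (hA.comp measurable_snd) ((hF.measL.comp measurable_snd).sub measurable_fst)).inter
      (measurableSet_le ((hF.measL.comp measurable_snd).sub measurable_fst) (hB.comp measurable_snd))
  have hone : ∀ x, ∫⁻ u : ℝ, ({u | L x + u ∈ Set.Ico (0 : ℝ) 1}).indicator 1 u = 1 := fun x => by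
    rw [show {u : ℝ | L x + u ∈ Set.Ico (0 : ℝ) 1} = Set.Ico (-L x) (1 - L x) from
        Set.ext fun u => by simp only [Set.mem_ofPred, Set.mem_Ico]; constructor <;> rintro ⟨a, b⟩ <;>
          constructor <;> linarith,
      lintegral_indicator_one measurableSet_Ico, Real.volume_Ico]
    simp
  have hlen : ∀ x, ∫⁻ u : ℝ, ({u | A x ≤ L x - u ∧ L x - u ≤ B x}).indicator 1 u =
      ENNReal.ofReal (B x - A x) := fun x => by
    have e : {u : ℝ | A x ≤ L x - u ∧ L x - u ≤ B x} = Set.Icc (L x - B x) (L x - A x) :=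
      Set.ext fun u => by simp only [Set.mem_ofPred, Set.mem_Icc]; constructor <;> rintro ⟨a, b⟩ <;>
        constructor <;> linarith
    rw [e, lintegral_indicator_one measurableSet_Icc, Real.volume_Icc]
    congr 1
    ring
  have hm1 : Measurable fun z : X × ℝ =>
      v z.1 * W.indicator f z.1 * ({u | L z.1 + u ∈ Set.Ico (0 : ℝ) 1}).indicator 1 z.2 :=
    ((hv.measurable.comp measurable_fst).mul ((hf.indicator hW).comp measurable_fst)).mul
      (((measurable_const (a := (1 : ℝ≥0∞))).indicator hS2).comp measurable_swap)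
  have hm2 : Measurable fun z : ℝ × X =>
      v z.2 * (S.indicator f z.2 *
        ({u | A z.2 ≤ L z.2 - u ∧ L z.2 - u ≤ B z.2}).indicator 1 z.1) :=
    (hv.measurable.comp measurable_snd).mul (((hf.indicator hS).comp measurable_snd).mul
      ((measurable_const (a := (1 : ℝ≥0∞))).indicator hW2))
  calc ∫⁻ x, v x * W.indicator f x ∂μ
      = ∫⁻ x, (∫⁻ u : ℝ, v x * W.indicator f x *
          ({u | L x + u ∈ Set.Ico (0 : ℝ) 1}).indicator 1 u) ∂μ := lintegral_congr fun x => by
        have hmu : Measurable fun u : ℝ =>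
            ({u | L x + u ∈ Set.Ico (0 : ℝ) 1}).indicator (1 : ℝ → ℝ≥0∞) u :=
          ((measurable_const (a := (1 : ℝ≥0∞))).indicator hS2).comp measurable_prodMk_right
        rw [lintegral_const_mul _ hmu, hone, mul_one]
    _ = ∫⁻ u : ℝ, ∫⁻ x, v x * W.indicator f x *
          ({u | L x + u ∈ Set.Ico (0 : ℝ) 1}).indicator 1 u ∂μ :=
        lintegral_lintegral_swap hm1.aemeasurable
    _ = ∫⁻ u : ℝ, ∫⁻ x, v x * (S.indicator f x *
          ({u | A x ≤ L x - u ∧ L x - u ≤ B x}).indicator 1 u) ∂μ := by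
        refine lintegral_congr fun u => ?_
        set h : X → ℝ≥0∞ := fun x =>
          S.indicator f x * ({u | A x ≤ L x - u ∧ L x - u ≤ B x}).indicator 1 u
        have hh : Measurable h := (hf.indicator hS).mul
          (((measurable_const (a := (1 : ℝ≥0∞))).indicator hW2).comp measurable_prodMk_left)
        have hhg : ∀ (g : G) x, h (g • x) = h x := fun g x => by
          simp only [h, Set.indicator_apply, S, Set.mem_ofPred, hF.invL, hAg, hBg, hfg]
        have key : ∀ x, v x * W.indicator f x *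
            ({u | L x + u ∈ Set.Ico (0 : ℝ) 1}).indicator 1 u = v x * h (Φ u x) := fun x => by
          simp only [h, Set.indicator_apply, W, S, Set.mem_ofPred, hF.speed, hAΦ, hBΦ, hfΦ,
            add_sub_cancel_right, Pi.one_apply]
          split_ifs <;> simp
        simp only [key]
        rw [hv.lintegral_eq (hF.weight_comp hv u) (f := fun x => h (Φ u x))
          (hh.comp (hF.preserving u).measurable) (fun g x => by simp only [hF.comm, hhg])]
        exact (hF.preserving u).lintegral_comp (f := fun x => v x * h x) (hv.measurable.mul hh)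
    _ = ∫⁻ x, (∫⁻ u : ℝ, v x * (S.indicator f x *
          ({u | A x ≤ L x - u ∧ L x - u ≤ B x}).indicator 1 u)) ∂μ :=
        lintegral_lintegral_swap hm2.aemeasurable
    _ = _ := lintegral_congr fun x => by
        have hm : Measurable fun u : ℝ =>
            ({u | A x ≤ L x - u ∧ L x - u ≤ B x}).indicator (1 : ℝ → ℝ≥0∞) u :=
          ((measurable_const (a := (1 : ℝ≥0∞))).indicator hW2).comp measurable_prodMk_right
        simp only [← mul_assoc]
        rw [lintegral_const_mul _ hm, hlen]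

/-- Complex form, with integrability. -/
theorem integral_slice (hF : FlowData G μ L Φ) {v : X → ℝ≥0∞} (hv : RS.IsWeight G v)
    {A B : X → ℝ} (hA : Measurable A) (hB : Measurable B)
    (hAg : ∀ (g : G) x, A (g • x) = A x) (hBg : ∀ (g : G) x, B (g • x) = B x)
    (hAΦ : ∀ u x, A (Φ u x) = A x) (hBΦ : ∀ u x, B (Φ u x) = B x) (hAB : ∀ x, A x ≤ B x)
    {f : X → ℂ} (hf : Measurable f) (hfg : ∀ (g : G) x, f (g • x) = f x)
    (hfΦ : ∀ u x, f (Φ u x) = f x)
    (hfin : ∫⁻ x, v x * ({x | A x ≤ L x ∧ L x ≤ B x}.indicator (fun x => ‖f x‖ₑ) x) ∂μ < ⊤) :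
    Integrable (fun x => ((B x - A x : ℝ) : ℂ) * f x)
        ((RS.wMeasure μ v).restrict {x | L x ∈ Set.Ico (0 : ℝ) 1}) ∧
      ∫ x in {x | A x ≤ L x ∧ L x ≤ B x}, f x ∂RS.wMeasure μ v =
        ∫ x in {x | L x ∈ Set.Ico (0 : ℝ) 1}, ((B x - A x : ℝ) : ℂ) * f x ∂RS.wMeasure μ v := by
  classical
  set W : Set X := {x | A x ≤ L x ∧ L x ≤ B x}
  set S : Set X := {x | L x ∈ Set.Ico (0 : ℝ) 1}
  have hW : MeasurableSet W := (measurableSet_le hA hF.measL).inter (measurableSet_le hF.measL hB)
  have hS : MeasurableSet S := hF.measL measurableSet_Ico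
  set ν := ((RS.wMeasure μ v).restrict S).withDensity fun x => ENNReal.ofReal (B x - A x)
  have hd : Measurable fun x => ENNReal.ofReal (B x - A x) := (hB.sub hA).ennreal_ofReal
  have hpair : ∀ φ : ℂ → ℝ≥0∞, Measurable φ →
      ∫⁻ x, φ (f x) ∂(RS.wMeasure μ v).restrict W = ∫⁻ x, φ (f x) ∂ν := fun φ hφ => by
    have hm : Measurable fun x => φ (f x) := hφ.comp hf
    rw [← lintegral_indicator hW, RS.lintegral_wMeasure hv.measurable (hm.indicator hW),
      lintegral_withDensity_eq_lintegral_mul _ hd hm, ← lintegral_indicator hS,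
      RS.lintegral_wMeasure hv.measurable ((hd.mul hm).indicator hS),
      lintegral_slice hF hv hA hB hAg hBg hAΦ hBΦ hm (fun g x => by rw [hfg])
        fun u x => by rw [hfΦ]]
    refine lintegral_congr fun x => ?_
    show v x * ({x | L x ∈ Set.Ico (0 : ℝ) 1}.indicator (fun x => φ (f x)) x *
      ENNReal.ofReal (B x - A x)) = v x * ({x | L x ∈ Set.Ico (0 : ℝ) 1}).indicator _ x
    by_cases hx : x ∈ {x | L x ∈ Set.Ico (0 : ℝ) 1}
    · simp only [Set.indicator_of_mem hx, Pi.mul_apply]
      ring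
    · simp only [Set.indicator_of_notMem hx, zero_mul, mul_zero]
  have hiW : Integrable f ((RS.wMeasure μ v).restrict W) := by
    refine ⟨hf.aestronglyMeasurable, ?_⟩
    show ∫⁻ x, ‖f x‖ₑ ∂_ < ⊤
    rwa [← lintegral_indicator hW, RS.lintegral_wMeasure hv.measurable (hf.enorm.indicator hW)]
  have hiν : Integrable f ν := by
    refine ⟨hf.aestronglyMeasurable, ?_⟩
    show ∫⁻ x, ‖f x‖ₑ ∂ν < ⊤
    rw [← hpair _ measurable_enorm]
    exact hiW.2
  obtain ⟨-, heq⟩ := RS.integral_congr_of_lintegral (μ₁ := (RS.wMeasure μ v).restrict W) (μ₂ := ν)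
    ENNReal.one_ne_top hf hiν fun φ hφ => by rw [one_mul]; exact hpair φ hφ
  have htop : ∀ᵐ x ∂(RS.wMeasure μ v).restrict S, ENNReal.ofReal (B x - A x) < ⊤ :=
    ae_of_all _ fun _ => ENNReal.ofReal_lt_top
  have e : ∀ x, ((B x - A x : ℝ) : ℂ) * f x = (ENNReal.ofReal (B x - A x)).toReal • f x := fun x => by
    rw [ENNReal.toReal_ofReal (sub_nonneg.2 (hAB x)), Complex.real_smul]
  refine ⟨((integrable_withDensity_iff_integrable_smul' hd htop).1 hiν).congr
    (ae_of_all _ fun x => (e x).symm), ?_⟩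
  rw [heq]
  simp only [ENNReal.toReal_one, Complex.ofReal_one, one_mul, e]
  exact integral_withDensity_eq_integral_toReal_smul hd htop f

end FLTAgent.LT.HypTree
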