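import Fermat.Agent.LT.TF.Height
import Fermat.Agent.LT.TF.EllipticUnfold
import Fermat.Agent.LT.TF.Hyp.Classes
import Fermat.Agent.LT.TF.Hyp.Slice

/-!
The non elliptic part of the twisted kernel, truncated at height `T`: an affine function of `log T`
made of integrals over one slice of the fixed diagonal torus.
-/

set_option autoImplicit false
set_option linter.style.haveILetI false
set_option linter.unusedSectionVars false
set_option synthInstance.maxHeartbeats 200000

noncomputable section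

namespace FLTAgent.LT.HypTree

open NumberField IsDedekindDomain Matrix MeasureTheory
open scoped ENNReal
open FLTAgent.LT.Ht (ht lowSet)
open FLTAgent.LT.Ell (tm tw EllP nrm)

variable {F : Type*} [Field F] [NumberField F] {N : ℕ}

local notation "M2F" => Matrix (Fin 2) (Fin 2) F

local instance (priority := high) instSMulPGTrunc : SMul (PG F) (Pt F N) :=
  instMulActionPG.toSMul

local instance (priority := high) instSMulTorusTrunc {τ : F →+* F} :
    SMul (torus0 τ) (Pt F N) :=
  (Subgroup.instMulAction : MulAction (torus0 τ) (Pt F N)).toSMul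

/-- The row `(1, 0)`. -/
def row0 : Fin 2 → F := ![1, 0]

/-- The row `(0, 1)`. -/
def row1 : Fin 2 → F := ![0, 1]

lemma row0_ne : (row0 : Fin 2 → F) ≠ 0 := fun h => one_ne_zero (congrFun h 0)
lemma row1_ne : (row1 : Fin 2 → F) ≠ 0 := fun h => one_ne_zero (congrFun h 1)

/-- The logarithmic height at the cusp of `(0, 1)`. -/
def lHt (p : Pt F N) : ℝ := Real.log (ht row1 p)

/-- Minus the logarithm of the product of the two heights. -/
def sHt (p : Pt F N) : ℝ := -(Real.log (ht row0 p) + Real.log (ht row1 p))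

lemma sHt_nonneg (p : Pt F N) : 0 ≤ sHt p := by
  have h := Ht.ht_mul_le_one (r := row0) (r' := row1) (by simp [row0, row1]) p
  rw [sHt, neg_nonneg, ← Real.log_mul (Ht.ht_pos row0_ne p).ne' (Ht.ht_pos row1_ne p).ne']
  exact Real.log_nonpos (mul_pos (Ht.ht_pos row0_ne p) (Ht.ht_pos row1_ne p)).le h

lemma measurable_lHt : Measurable (lHt : Pt F N → ℝ) := Real.measurable_log.comp (Ht.measurable_ht _)

lemma measurable_sHt : Measurable (sHt : Pt F N → ℝ) :=
  ((Real.measurable_log.comp (Ht.measurable_ht _)).add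
    (Real.measurable_log.comp (Ht.measurable_ht _))).neg

lemma ht_smul_diagU (x : Fˣ) (p : Pt F N) :
    ht row1 (smulPt (diagU x) p) = ht row1 p ∧ ht row0 (smulPt (diagU x) p) = ht row0 p := by
  refine ⟨?_, ?_⟩ <;> rw [Ht.ht_smulPt (by first | exact row1_ne | exact row0_ne)]
  · congr 1
    funext i
    fin_cases i <;> simp [row1, coe_diagU, Matrix.vecMul, dotProduct, Fin.sum_univ_two]
  · rw [show (row0 : Fin 2 → F) ᵥ* (diagU x : M2F) = (x : F) • row0 from funext fun i => by
      fin_cases i <;> simp [row0, coe_diagU, Matrix.vecMul, dotProduct, Fin.sum_univ_two],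
      Ht.ht_scale x.ne_zero row0_ne]

variable {τ : F →+* F} {n : ℕ}

lemma lHt_smul (q : torus0 τ) (p : Pt F N) : lHt (q • p) = lHt p ∧ sHt (q • p) = sHt p := by
  obtain ⟨x, -, hx⟩ := mem_torus0.1 q.2
  rw [Subgroup.smul_def, ← hx, mk_smul]
  simp only [lHt, sHt, (ht_smul_diagU x p).1, (ht_smul_diagU x p).2, and_self]

/-! ### The flow -/

variable (F) in
/-- The degree. -/
def degW : ℝ := ∑ w : InfinitePlace F, (w.mult : ℝ)

lemma degW_pos : 0 < degW F :=
  Finset.sum_pos (fun _ _ => Nat.cast_pos.2 InfinitePlace.mult_pos) Finset.univ_nonempty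

/-- Scaling of one upper half space. -/
def scaleH3 (u : ℝ) (p : H3) : H3 :=
  ((Real.exp u : ℂ) * p.1, ⟨Real.exp u * p.2, Set.mem_Ioi.2 (mul_pos (Real.exp_pos u) p.2.2)⟩)

/-- The flow: scaling at every infinite place. -/
def flowPt (u : ℝ) (p : Pt F N) : Pt F N := (fun w => scaleH3 (u / degW F) (p.1 w), p.2)

lemma scaleH3_eq_act (u : ℝ) (p : H3) :
    scaleH3 u p = act (GeneralLinearGroup.mkOfDetNeZero !![(Real.exp u : ℂ), 0; 0, 1]
      (by simp [Matrix.det_fin_two])) p := by
  refine Prod.ext ?_ (Subtype.ext ?_)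
  · rw [Hyp.coe_act_fst]
    simp [scaleH3, den]
  · rw [Hyp.coe_act_snd]
    simp [scaleH3, den, Matrix.det_fin_two, Complex.norm_exp]

lemma measurable_flowPt : Measurable fun z : ℝ × Pt F N => flowPt z.1 z.2 := by
  refine Measurable.prodMk (measurable_pi_lambda _ fun w => ?_) (measurable_snd.comp measurable_snd)
  have h1 : Measurable fun z : ℝ × Pt F N => Real.exp (z.1 / degW F) :=
    Real.measurable_exp.comp (measurable_fst.div_const _)
  have h2 : Measurable fun z : ℝ × Pt F N => z.2.1 w :=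
    (measurable_pi_apply w).comp (measurable_fst.comp measurable_snd)
  exact ((Complex.measurable_ofReal.comp h1).mul h2.fst).prodMk
    ((h1.mul h2.snd.subtype_val).subtype_mk)

lemma measurePreserving_flowPt [Countable (Cos F N)] (u : ℝ) :
    MeasurePreserving (flowPt u) (ptMeasure F N) (ptMeasure F N) := by
  have h : MeasurePreserving (fun x : Xinf F => fun w => scaleH3 (u / degW F) (x w))
      (Measure.pi fun _ : InfinitePlace F => hypMeasure)
      (Measure.pi fun _ : InfinitePlace F => hypMeasure) := by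
    refine measurePreserving_pi _ _ fun w => ?_
    rw [show scaleH3 (u / degW F) = _ from funext (scaleH3_eq_act _)]
    exact Hyp.measurePreserving_act _
  exact h.prod (MeasurePreserving.id _)

lemma qf_one_zero_scaleH3 (u : ℝ) (x : H3) :
    Ht.qf 1 0 (scaleH3 u x) = Real.exp u * Ht.qf 1 0 x := by
  have ht : (0 : ℝ) < x.2 := x.2.2
  have hl := Real.exp_pos u
  simp only [Ht.qf, Red.rowForm, scaleH3, one_mul, add_zero, map_one, Complex.normSq_mul,
    Complex.normSq_ofReal]
  field_simp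

lemma flowPt_smul_diagU (u : ℝ) (x : Fˣ) (p : Pt F N) :
    flowPt u (smulPt (diagU x) p) = smulPt (diagU x) (flowPt u p) := by
  refine Prod.ext (funext fun w => Prod.ext ?_ (Subtype.ext ?_)) rfl
  · show _ * (actInf (diagU x) p.1 w).1 = (actInf (diagU x) (flowPt u p).1 w).1
    rw [diagU, Red.actInf_upperF_fst, Red.actInf_upperF_fst]
    simp [flowPt, scaleH3]
    ring
  · show _ * ((actInf (diagU x) p.1 w).2 : ℝ) = ((actInf (diagU x) (flowPt u p).1 w).2 : ℝ)
    rw [diagU, Red.actInf_upperF_snd, Red.actInf_upperF_snd]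
    simp [flowPt, scaleH3]
    ring

lemma ht_flowPt (u : ℝ) (p : Pt F N) :
    ht row1 (flowPt u p) = Real.exp u * ht row1 p ∧ ht row0 (flowPt u p) = (Real.exp u)⁻¹ * ht row0 p := by
  set l := Real.exp (u / degW F)
  have hl : 0 < l := Real.exp_pos _
  have hprod : ∏ w : InfinitePlace F, l ^ w.mult = Real.exp u := by
    rw [Finset.prod_pow_eq_pow_sum, ← Real.exp_nat_mul, Nat.cast_sum]
    congr 1
    exact mul_div_cancel₀ u degW_pos.ne'
  have h1 : ∀ w, (Ht.qf (w.embedding (row1 0 : F)) (w.embedding (row1 1 : F)) ((flowPt u p).1 w))⁻¹ =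
      l * (Ht.qf (w.embedding (row1 0 : F)) (w.embedding (row1 1 : F)) (p.1 w))⁻¹ := fun w => by
    simp [row1, Ht.qf_zero_one, flowPt, scaleH3, l]
  have h0 : ∀ w, (Ht.qf (w.embedding (row0 0 : F)) (w.embedding (row0 1 : F)) ((flowPt u p).1 w))⁻¹ =
      l⁻¹ * (Ht.qf (w.embedding (row0 0 : F)) (w.embedding (row0 1 : F)) (p.1 w))⁻¹ := fun w => by
    simp only [row0, Matrix.cons_val_zero, Matrix.cons_val_one, Matrix.cons_val_fin_one, map_one,
      map_zero]
    rw [show (flowPt u p).1 w = scaleH3 (u / degW F) (p.1 w) from rfl, qf_one_zero_scaleH3, mul_inv]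
  constructor
  · rw [Ht.ht, Ht.ht, Ht.infHt, Ht.infHt, ← hprod]
    simp only [h1, mul_pow, Finset.prod_mul_distrib]
    rw [mul_left_comm]
    rfl
  · rw [Ht.ht, Ht.ht, Ht.infHt, Ht.infHt, ← hprod, ← Finset.prod_inv_distrib]
    simp only [h0, mul_pow, Finset.prod_mul_distrib, inv_pow]
    rw [mul_left_comm]
    rfl

lemma lHt_flowPt (u : ℝ) (p : Pt F N) : lHt (flowPt u p) = lHt p + u ∧ sHt (flowPt u p) = sHt p := by
  obtain ⟨h1, h0⟩ := ht_flowPt u p
  simp only [lHt, sHt, h1, h0]
  rw [Real.log_mul (Real.exp_ne_zero u) (Ht.ht_pos row1_ne p).ne',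
    Real.log_mul (inv_ne_zero (Real.exp_ne_zero u)) (Ht.ht_pos row0_ne p).ne', Real.log_inv,
    Real.log_exp]
  exact ⟨add_comm _ _, by ring⟩

lemma flowData [Countable (Cos F N)] :
    FlowData (torus0 τ) (ptMeasure F N) lHt (flowPt (F := F) (N := N)) where
  meas := measurable_flowPt
  preserving := measurePreserving_flowPt
  comm u q p := by
    obtain ⟨x, -, hx⟩ := mem_torus0.1 q.2
    simp only [Subgroup.smul_def, ← hx, mk_smul, flowPt_smul_diagU]
  measL := measurable_lHt
  invL q p := (lHt_smul q p).1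
  speed u p := (lHt_flowPt u p).1

/-- The term of a diagonal element is invariant under the flow. -/
lemma term_flowPt (t : Test F) (a : Fˣ) (u : ℝ) (p : Pt F N) :
    term τ t (diagU a) (flowPt u p) = term τ t (diagU a) p := by
  simp only [term]
  congr 2
  funext w
  have e1 : infMap τ (flowPt u p).1 w = scaleH3 (u / degW F) (infMap τ p.1 w) := by
    simp only [infMap]
    split_ifs with h
    · rfl
    · exact Prod.ext (by simp [flowPt, scaleH3, conjH3, -Complex.ofReal_exp]) rfl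
  have e2 : actInf (diagU a) (infMap τ (flowPt u p).1) w =
      scaleH3 (u / degW F) (actInf (diagU a) (infMap τ p.1) w) := by
    refine Prod.ext ?_ (Subtype.ext ?_)
    · rw [diagU, Red.actInf_upperF_fst, e1]
      show _ = _ * (actInf (Red.upperF a 0) (infMap τ p.1) w).1
      rw [Red.actInf_upperF_fst]
      simp [scaleH3]
      ring
    · rw [diagU, Red.actInf_upperF_snd, e1]
      show _ = _ * ((actInf (Red.upperF a 0) (infMap τ p.1) w).2 : ℝ)
      rw [Red.actInf_upperF_snd]
      simp [scaleH3]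
      ring
  show hdist (scaleH3 _ (p.1 w)) _ = _
  rw [e2, scaleH3_eq_act, scaleH3_eq_act, hdist_act]

lemma term_smul_torus0 (hN : 0 < N) {t : Test F} (ht : t.Ok N) (a : Fˣ) (q : torus0 τ) (p : Pt F N) :
    term τ t (diagU a) (q • p) = term τ t (diagU a) p := by
  rw [← Ell.tm_mk ht, ← Ell.tm_mk ht, Subgroup.smul_def]
  conv_lhs => rw [← tw_torus0 q.2 a]
  exact Ell.tm_tw hN ht _ _ _

/-! ### The remainder of the kernel -/

variable (τ n) in
/-- The kernel without its elliptic part. -/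
def restTw (t : Test F) (p : Pt F N) : ℂ := kernTw τ t p - ellTw τ n t p

lemma exists_mem_lowSet (p : Pt F N) : ∃ T, p ∈ lowSet F N T := by
  refine ⟨max (ht row1 p) (ht row1 p)⁻¹, fun r hr => ?_⟩
  by_cases hd : (row1 : Fin 2 → F) 0 * r 1 - row1 1 * r 0 = 0
  · obtain ⟨c, rfl⟩ := Ht.eq_smul_of_det_eq_zero row1_ne hd
    rw [Ht.ht_scale (fun h => hr (by rw [h, zero_smul])) row1_ne]
    exact le_max_left _ _
  · refine le_max_of_le_right ?_
    rw [← one_div, le_div_iff₀ (Ht.ht_pos row1_ne p), mul_comm]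
    exact Ht.ht_mul_le_one hd p

lemma summable_tm [IsTotallyComplex F] (hN : 0 < N) {t : Test F} (ht : t.Ok N) (p : Pt F N) :
    Summable fun γ : PG F => tm τ t γ p := by
  obtain ⟨T, hT⟩ := exists_mem_lowSet p
  obtain ⟨M, hM, hbd⟩ := Ht.exists_bound_lowSet hN ht τ T
  exact Summable.of_enorm (lt_of_le_of_lt (hbd p hT) hM).ne

lemma restTw_eq [IsTotallyComplex F] (hN : 0 < N) {t : Test F} (ht : t.Ok N) (p : Pt F N) :
    restTw τ n t p = ∑' γ : PG F, {γ | ¬ EllP τ n γ}.indicator (fun γ => tm τ t γ p) γ := by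
  have hs := summable_tm (τ := τ) hN ht p
  rw [restTw, Ell.ellTw_eq, show kernTw τ t p = ∑' γ : PG F, tm τ t γ p from rfl,
    ← hs.tsum_sub (hs.indicator _)]
  refine tsum_congr fun γ => ?_
  by_cases hγ : EllP τ n γ <;> simp [hγ]

lemma not_ellP_split (h : Cyc τ n) (a : Fˣ) (g : PG F) :
    ¬ EllP τ n (tw τ g (QuotientGroup.mk (diagU a))) := by
  obtain ⟨g, rfl⟩ := QuotientGroup.mk_surjective g
  rw [Ell.tw_mk, Ell.ellP_mk, Ell.twNorm_twConj,
    show (Ell.tmap τ)^[n] g = g from Units.ext (Matrix.ext fun p q => by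
      rw [Ell.iterate_tmap_apply, h.pow]), twNorm_diagU]
  intro hE
  have h' := Ell.ellElem_conj (g := g⁻¹) hE
  rw [inv_inv, mul_assoc g, inv_mul_cancel_left, inv_mul_cancel_right] at h'
  refine h'.2 ⟨(nrm τ n a : F) - 1, ?_⟩
  rw [coe_diagU]
  simp [Matrix.trace_fin_two, Matrix.det_fin_two]
  ring

/-- A nonvanishing non elliptic term belongs to a split class. -/
lemma mem_range_of_ne_zero (h : Cyc τ n) (hN : 0 < N) {t : Test F} (ht : t.Ok N)
    (hns : NoSing τ n N t) {γ : PG F} (hγ : ¬ EllP τ n γ) {p : Pt F N} (hp : tm τ t γ p ≠ 0) :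
    γ ∈ Set.range (splitEmb (τ := τ) (n := n)) := by
  obtain ⟨htr, hdisc⟩ := hns γ.out p hp
  have hsq : IsSquare ((twNorm τ n γ.out : M2F).trace ^ 2 - 4 * (twNorm τ n γ.out : M2F).det) := by
    by_contra hsq
    exact hγ ⟨htr, hsq⟩
  obtain ⟨g, a, e⟩ := exists_diag h γ.out hdisc hsq
  rw [QuotientGroup.out_eq'] at e
  have hp' : term τ t (diagU a) (g⁻¹ • p) ≠ 0 := by
    rwa [← Ell.tm_mk ht, ← Ell.tm_tw hN ht g, ← e, smul_inv_smul]
  obtain ⟨htr', hdisc'⟩ := hns _ _ hp'
  rw [twNorm_diagU, coe_diagU] at htr' hdisc'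
  simp [Matrix.trace_fin_two, Matrix.det_fin_two] at htr' hdisc'
  refine e ▸ mem_range_splitEmb h (fun h1 => hdisc' (by rw [h1]; ring)) (fun h1 => htr' ?_) g
  rw [h1]; ring

variable {t : Test F}

lemma tm_splitEmb (hN : 0 < N) (ht : t.Ok N) (x : SplitIdx τ n × (PG F ⧸ torus0 τ)) (p : Pt F N) :
    tm τ t (splitEmb x) p = term τ t (diagU (repA x.1)) (x.2.out⁻¹ • p) := by
  conv_lhs => rw [← smul_inv_smul x.2.out p]
  rw [splitEmb, Ell.tm_tw hN ht, Ell.tm_mk ht]

/-- Non elliptic sums are sums over finitely many split classes. -/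
lemma tsum_nonEll_eq (h : Cyc τ n) (hN : 0 < N) (ht : t.Ok N) (hns : NoSing τ n N t)
    {S : Finset (SplitIdx τ n)} (hS : ∀ s ∉ S, ∀ p : Pt F N, term τ t (diagU (repA s)) p = 0)
    {M : Type*} [AddCommMonoid M] [TopologicalSpace M] [T3Space M] [ContinuousAdd M] (φ : ℂ → M)
    (hφ : φ 0 = 0) (p : Pt F N)
    (hsum : ∀ s : SplitIdx τ n, Summable fun q : PG F ⧸ torus0 τ =>
      φ (term τ t (diagU (repA s)) (q.out⁻¹ • p))) :
    ∑' γ : PG F, {γ | ¬ EllP τ n γ}.indicator (fun γ => φ (tm τ t γ p)) γ =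
      ∑ s ∈ S, ∑' q : PG F ⧸ torus0 τ, φ (term τ t (diagU (repA s)) (q.out⁻¹ • p)) := by
  classical
  rw [← (splitEmb_injective h).tsum_eq fun γ hγ => by
    by_contra hr
    refine hγ (Set.indicator_apply_eq_zero.2 fun hmem => ?_)
    by_contra h0
    exact hr (mem_range_of_ne_zero h hN ht hns hmem fun h1 => h0 (by rw [h1, hφ]))]
  have e : ∀ x : SplitIdx τ n × (PG F ⧸ torus0 τ),
      {γ | ¬ EllP τ n γ}.indicator (fun γ => φ (tm τ t γ p)) (splitEmb x) =
        φ (term τ t (diagU (repA x.1)) (x.2.out⁻¹ • p)) := fun x => by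
    rw [Set.indicator_of_mem (s := {γ | ¬ EllP τ n γ})
      (show splitEmb x ∈ {γ | ¬ EllP τ n γ} from not_ellP_split h _ _)]
    exact congrArg φ (tm_splitEmb hN ht x p)
  rw [tsum_congr e]
  have htot : HasSum (fun x : SplitIdx τ n × (PG F ⧸ torus0 τ) =>
      φ (term τ t (diagU (repA x.1)) (x.2.out⁻¹ • p)))
      (∑ s ∈ S, ∑' q : PG F ⧸ torus0 τ, φ (term τ t (diagU (repA s)) (q.out⁻¹ • p))) := by
    have key : ∀ s₀ ∈ S, HasSum (fun x : SplitIdx τ n × (PG F ⧸ torus0 τ) =>
        if x.1 = s₀ then φ (term τ t (diagU (repA s₀)) (x.2.out⁻¹ • p)) else 0)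
        (∑' q : PG F ⧸ torus0 τ, φ (term τ t (diagU (repA s₀)) (q.out⁻¹ • p))) := fun s₀ _ => by
      refine ((Function.Injective.hasSum_iff (g := fun q => (s₀, q))
        (fun a b hab => (Prod.mk.inj hab).2) ?_).1 ((hsum s₀).hasSum.congr_fun fun q => by simp))
      rintro ⟨s, q⟩ hx
      refine if_neg fun hs => hx ⟨q, ?_⟩
      dsimp only at hs ⊢
      rw [hs]
    refine (hasSum_sum key).congr_fun fun x => ?_
    rw [Finset.sum_ite_eq]
    split_ifs with hx
    · rfl
    · rw [hS _ hx, hφ]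
  exact htot.tsum_eq

lemma ellP_diag_row {a : Fˣ} {r : Fin 2 → F} {c : F} (ha : (a : F) ≠ 1) (hr : r ≠ 0)
    (he : r ᵥ* (diagU a : M2F) = c • r) : (∃ d : F, d ≠ 0 ∧ r = d • row0) ∨
      ∃ d : F, d ≠ 0 ∧ r = d • row1 := by
  have h0 := congrFun he 0
  have h1 := congrFun he 1
  simp [coe_diagU, Matrix.vecMul, dotProduct, Fin.sum_univ_two] at h0 h1
  by_cases hr1 : r 1 = 0
  · refine Or.inl ⟨r 0, fun h => hr (funext fun i => by fin_cases i <;> assumption), ?_⟩
    funext i
    fin_cases i <;> simp [row0, hr1]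
  · have hc : c = 1 := mul_right_cancel₀ hr1 (by rw [one_mul]; exact h1.symm)
    have hr0 : r 0 = 0 := by
      have : r 0 * ((a : F) - 1) = 0 := by rw [mul_sub, mul_one, h0, hc, one_mul, sub_self]
      exact (mul_eq_zero.1 this).resolve_right (sub_ne_zero.2 ha)
    refine Or.inr ⟨r 1, hr1, ?_⟩
    funext i
    fin_cases i <;> simp [row1, hr0]

/-- On the support of a split term, low means low at the two axes. -/
lemma exists_window (h : Cyc τ n) (ht : t.Ok N) :
    ∃ T₀, 1 ≤ T₀ ∧ ∀ (s : SplitIdx τ n) (T : ℝ), T₀ < T → ∀ p : Pt F N,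
      term τ t (diagU (repA s)) p ≠ 0 →
        (p ∈ lowSet F N T ↔ -Real.log T - sHt p ≤ lHt p ∧ lHt p ≤ Real.log T) := by
  obtain ⟨T₀, hT₀, hhigh⟩ := Ht.exists_high_eigen ht τ h.pow
  refine ⟨T₀, hT₀, fun s T hT p hp => ?_⟩
  have hTpos : 0 < T := by linarith
  have h0 : Ht.ht row0 p ≤ T ↔ -Real.log T - sHt p ≤ lHt p := by
    rw [← Real.log_le_log_iff (Ht.ht_pos row0_ne p) hTpos, sHt, lHt]
    constructor <;> intro hh <;> linarith
  have h1 : Ht.ht row1 p ≤ T ↔ lHt p ≤ Real.log T :=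
    (Real.log_le_log_iff (Ht.ht_pos row1_ne p) hTpos).symm
  rw [← h0, ← h1]
  refine ⟨fun hl => ⟨hl _ row0_ne, hl _ row1_ne⟩, fun hh r hr => ?_⟩
  by_contra hlt
  obtain ⟨c, hc⟩ := hhigh r hr _ p hp (hT.trans (not_le.1 hlt))
  rw [twNorm_diagU] at hc
  rcases ellP_diag_row (repA_spec s).1 hr hc with ⟨d, hd, rfl⟩ | ⟨d, hd, rfl⟩
  · rw [Ht.ht_scale hd row0_ne] at hlt
    exact hlt hh.1
  · rw [Ht.ht_scale hd row1_ne] at hlt
    exact hlt hh.2

variable (τ) in
/-- The measure of one slice of the fixed torus. -/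
def sliceMeasure (w : Pt F N → ℝ≥0∞) : Measure (Pt F N) :=
  (RS.wMeasure (ptMeasure F N) (RS.cosetWeight (torus0 τ) w)).restrict
    {p | lHt p ∈ Set.Ico (0 : ℝ) 1}

variable (τ) in
/-- The invariant part of a class. -/
def sliceO (w : Pt F N → ℝ≥0∞) (t : Test F) (a : Fˣ) : ℂ :=
  ∫ p, term τ t (diagU a) p ∂sliceMeasure τ w

variable (τ) in
/-- The weighted part of a class. -/
def sliceW (w : Pt F N → ℝ≥0∞) (t : Test F) (a : Fˣ) : ℂ :=
  ∫ p, (sHt p : ℂ) * term τ t (diagU a) p ∂sliceMeasure τ w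

/-- One class, truncated. -/
theorem trunc_class [IsTotallyComplex F] (h : Cyc τ n) (hN : 0 < N) (ht : t.Ok N)
    {w : Pt F N → ℝ≥0∞} (hw : IsPtWeight w) {T₀ : ℝ} (hT₀ : 1 ≤ T₀)
    (hwin : ∀ (s : SplitIdx τ n) (T : ℝ), T₀ < T → ∀ p : Pt F N,
      term τ t (diagU (repA s)) p ≠ 0 →
        (p ∈ lowSet F N T ↔ -Real.log T - sHt p ≤ lHt p ∧ lHt p ≤ Real.log T))
    {T : ℝ} (hT : T₀ < T) (s : SplitIdx τ n) :
      Integrable (fun p => ((2 * Real.log T + sHt p : ℝ) : ℂ) * term τ t (diagU (repA s)) p)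
        (sliceMeasure τ w) ∧
      Integrable (fun p => ∑' q : PG F ⧸ torus0 τ,
        (lowSet F N T).indicator (term τ t (diagU (repA s))) (q.out⁻¹ • p)) (quotMeasure w) ∧
      ∫ p, ∑' q : PG F ⧸ torus0 τ,
        (lowSet F N T).indicator (term τ t (diagU (repA s))) (q.out⁻¹ • p) ∂quotMeasure w =
        ∫ p, ((2 * Real.log T + sHt p : ℝ) : ℂ) * term τ t (diagU (repA s)) p ∂sliceMeasure τ w := by
  classical
  haveI := Red.countable_cos (F := F) hN
  haveI : SMulInvariantMeasure (torus0 τ) (Pt F N) (ptMeasure F N) :=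
    ⟨fun q s _ => measure_preimage_smul _ (q : PG F) s⟩
  haveI : MeasurableConstSMul (torus0 τ) (Pt F N) := ⟨fun q => measurable_const_smul (q : PG F)⟩
  have hW := (isPtWeight_iff w).1 hw
  have hv := hW.cosetWeight (torus0 τ)
  set G := term (N := N) τ t (diagU (repA s))
  have hG : Measurable G := Ell.measurable_term ht _
  set Φ := (lowSet F N T).indicator G
  have hlow : ∀ (g : PG F) p, g • p ∈ lowSet F N T ↔ p ∈ lowSet F N T := Ht.smul_mem_lowSet_iff
  have hΦinv : ∀ (q : torus0 τ) p, Φ (q • p) = Φ p := fun q p => by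
    simp only [Φ, Set.indicator_apply, Subgroup.smul_def, hlow]
    rw [show G ((q : PG F) • p) = G p from term_smul_torus0 hN ht _ q p]
  obtain ⟨M, hM, hbd⟩ := Ht.exists_bound_lowSet hN ht τ T
  have hfin : ∫⁻ p, w p * ∑' q : PG F ⧸ torus0 τ, ‖Φ (q.out⁻¹ • p)‖ₑ ∂ptMeasure F N < ⊤ := by
    refine lt_of_le_of_lt (lintegral_mono (g := fun p => w p * M) fun p => mul_le_mul' le_rfl ?_) ?_
    · by_cases hp : p ∈ lowSet F N T
      · refine le_trans ?_ (hbd p hp)
        have inj : Function.Injective fun q : PG F ⧸ torus0 τ => splitEmb (n := n) (s, q) :=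
          fun a b hab => (Prod.mk.inj (splitEmb_injective h hab)).2
        refine le_trans (le_of_eq (tsum_congr fun q => ?_))
          (ENNReal.tsum_comp_le_tsum_of_injective inj fun γ => ‖tm τ t γ p‖ₑ)
        rw [tm_splitEmb hN ht (s, q) p, show Φ (q.out⁻¹ • p) = G (q.out⁻¹ • p) from
          Set.indicator_of_mem ((hlow _ _).2 hp) G]
      · simp [Φ, hlow, hp]
    · rw [lintegral_mul_const _ hw.1]
      refine ENNReal.mul_lt_top ?_ hM
      have := Ht.quotMeasure_univ_lt_top hN hw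
      rwa [quotMeasure, RS.wMeasure, withDensity_apply _ MeasurableSet.univ, setLIntegral_univ] at this
  obtain ⟨hiH, hiw, heq⟩ := Ell.integral_unfold hW (torus0 τ) hv
    (hG.indicator (Ht.measurableSet_lowSet T)) hΦinv hfin
  have hwindow : Φ = {p | -Real.log T - sHt p ≤ lHt p ∧ lHt p ≤ Real.log T}.indicator G := by
    funext p
    by_cases hp : G p = 0
    · simp [Φ, Set.indicator_apply, hp]
    · simp only [Φ, Set.indicator_apply, Set.mem_ofPred, hwin s T hT p hp]
  have hlogT : 0 ≤ Real.log T := Real.log_nonneg (hT₀.trans hT.le)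
  have hWm : MeasurableSet {p : Pt F N | -Real.log T - sHt p ≤ lHt p ∧ lHt p ≤ Real.log T} :=
    (measurableSet_le (measurable_const.sub measurable_sHt) measurable_lHt).inter
      (measurableSet_le measurable_lHt measurable_const)
  obtain ⟨hi, he⟩ := integral_slice (flowData (τ := τ)) hv (μ := ptMeasure F N)
    (A := fun p : Pt F N => -Real.log T - sHt p) (B := fun _ : Pt F N => Real.log T)
    (measurable_const.sub measurable_sHt) measurable_const
    (fun q p => by rw [(lHt_smul q p).2]) (fun _ _ => rfl)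
    (fun u p => by rw [(lHt_flowPt u p).2]) (fun _ _ => rfl)
    (fun p => by linarith [sHt_nonneg p]) hG (fun q p => term_smul_torus0 hN ht _ q p)
    (fun u p => term_flowPt t _ u p) (by
      have h2 := hiH.2
      rw [hasFiniteIntegral_iff_enorm, RS.lintegral_wMeasure hv.measurable
        (hG.indicator (Ht.measurableSet_lowSet T)).enorm] at h2
      refine lt_of_le_of_lt (le_of_eq (lintegral_congr fun p => ?_)) h2
      rw [show (lowSet F N T).indicator G p = Φ p from rfl, hwindow]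
      congr 1
      by_cases hp : p ∈ {p : Pt F N | -Real.log T - sHt p ≤ lHt p ∧ lHt p ≤ Real.log T}
      · rw [Set.indicator_of_mem hp, Set.indicator_of_mem hp]
      · rw [Set.indicator_of_notMem hp, Set.indicator_of_notMem hp, enorm_zero])
  have e : ∀ p : Pt F N, ((2 * Real.log T + sHt p : ℝ) : ℂ) = ((Real.log T - (-Real.log T - sHt p) : ℝ) : ℂ) :=
    fun p => by congr 1; ring
  simp only [e]
  refine ⟨hi, hiw, heq.trans ?_⟩
  refine Eq.trans ?_ he
  rw [show (lowSet F N T).indicator G = _ from hwindow, integral_indicator hWm]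

/-- The truncated remainder is affine in `log T`. -/
theorem exists_trunc [IsTotallyComplex F] (h : Cyc τ n) (hN : 0 < N) (ht : t.Ok N)
    (hns : NoSing τ n N t) {S : Finset (SplitIdx τ n)}
    (hS : ∀ s ∉ S, ∀ p : Pt F N, term τ t (diagU (repA s)) p = 0)
    {w : Pt F N → ℝ≥0∞} (hw : IsPtWeight w) :
    (∀ s : SplitIdx τ n, Integrable (term τ t (diagU (repA s))) (sliceMeasure τ w) ∧
      Integrable (fun p => (sHt p : ℂ) * term τ t (diagU (repA s)) p) (sliceMeasure τ w)) ∧
    ∃ T₀, ∀ T, T₀ < T →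
      Integrable ((lowSet F N T).indicator (restTw τ n t)) (quotMeasure w) ∧
        ∫ p, (lowSet F N T).indicator (restTw τ n t) p ∂quotMeasure w =
          ∑ s ∈ S, (2 * (Real.log T : ℂ) * sliceO τ w t (repA s) + sliceW τ w t (repA s)) := by
  classical
  haveI := Red.countable_cos (F := F) hN
  haveI : SMulInvariantMeasure (torus0 τ) (Pt F N) (ptMeasure F N) :=
    ⟨fun q s _ => measure_preimage_smul _ (q : PG F) s⟩
  haveI : MeasurableConstSMul (torus0 τ) (Pt F N) := ⟨fun q => measurable_const_smul (q : PG F)⟩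
  have hW := (isPtWeight_iff w).1 hw
  have hv := hW.cosetWeight (torus0 τ)
  obtain ⟨T₀, hT₀, hwin⟩ := exists_window h ht
  have main := fun T (hT : T₀ < T) => trunc_class h hN ht hw hT₀ hwin hT
  have hint : ∀ s : SplitIdx τ n, Integrable (term τ t (diagU (repA s))) (sliceMeasure τ w) ∧
      Integrable (fun p => (sHt p : ℂ) * term τ t (diagU (repA s)) p) (sliceMeasure τ w) := fun s => by
    have h1 := (main (T₀ + 1) (by linarith) s).1
    have h2 := (main ((T₀ + 1) * Real.exp 1) (lt_of_lt_of_le (by linarith)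
      (le_mul_of_one_le_right (by linarith) (Real.one_le_exp zero_le_one))) s).1
    rw [Real.log_mul (by linarith) (Real.exp_ne_zero 1), Real.log_exp] at h2
    have hG : Integrable (term τ t (diagU (repA s))) (sliceMeasure τ w) := by
      refine ((h2.sub h1).const_mul (1 / 2 : ℂ)).congr (ae_of_all _ fun p => ?_)
      simp only [Pi.sub_apply]
      push_cast
      ring
    refine ⟨hG, (h1.sub (hG.const_mul (2 * (Real.log (T₀ + 1) : ℂ)))).congr (ae_of_all _ fun p => ?_)⟩
    simp only [Pi.sub_apply]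
    push_cast
    ring
  refine ⟨hint, T₀, fun T hT => ?_⟩
  have hpt : ∀ p, (lowSet F N T).indicator (restTw τ n t) p = ∑ s ∈ S, ∑' q : PG F ⧸ torus0 τ,
      (lowSet F N T).indicator (term τ t (diagU (repA s))) (q.out⁻¹ • p) := fun p => by
    by_cases hp : p ∈ lowSet F N T
    · rw [Set.indicator_of_mem hp, restTw_eq hN ht]
      refine (tsum_nonEll_eq h hN ht hns hS id rfl p fun s => ?_).trans ?_
      swap
      · refine Finset.sum_congr rfl fun s _ => tsum_congr fun q => ?_
        rw [Set.indicator_of_mem ((Ht.smul_mem_lowSet_iff _ _).2 hp)]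
        rfl
      · have := (summable_tm (τ := τ) hN ht p).comp_injective
          (i := fun q : PG F ⧸ torus0 τ => splitEmb (n := n) (s, q))
          fun a b hab => (Prod.mk.inj (splitEmb_injective h hab)).2
        exact this.congr fun q => tm_splitEmb hN ht (s, q) p
    · rw [Set.indicator_of_notMem hp, Finset.sum_eq_zero fun s _ => (tsum_congr fun q => ?_).trans
        tsum_zero]
      exact Set.indicator_of_notMem (fun hh => hp ((Ht.smul_mem_lowSet_iff _ _).1 hh)) _
  rw [funext hpt]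
  refine ⟨integrable_finsetSum _ fun s _ => (main T hT s).2.1, ?_⟩
  rw [integral_finsetSum _ fun s _ => (main T hT s).2.1]
  refine Finset.sum_congr rfl fun s _ => ?_
  rw [(main T hT s).2.2]
  simp only [Complex.ofReal_add, Complex.ofReal_mul, Complex.ofReal_ofNat, add_mul]
  rw [integral_add ((hint s).1.const_mul _) (hint s).2, integral_const_mul]
  rfl

end FLTAgent.LT.HypTree
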