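import Fermat.Agent.LT.TF.Hyp.Fibre
import Fermat.Agent.LT.TF.Hyp.Trunc
import Fermat.Agent.LT.TF.Hyp.Finite

/-!
The value of one class on a slice: a combination of two sums over the levels of the fibres, both of
which tend to zero with the damping.
-/

set_option autoImplicit false
set_option linter.style.haveILetI false
set_option linter.unusedSectionVars false
set_option synthInstance.maxHeartbeats 200000

noncomputable section

namespace FLTAgent.LT.HypTree

open NumberField IsDedekindDomain Matrix MeasureTheory Filter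
open scoped ENNReal Topology
open FLTAgent.LT.Ht (locHt finHt)
open FLTAgent.LT.Ell (nrm)

attribute [local instance] Classical.propDecidable

variable {F : Type*} [Field F] [NumberField F]

local notation "HS" => HeightOneSpectrum (𝓞 F)
local notation "M2" => Matrix (Fin 2) (Fin 2) (Af F)

/-- Counting, fibre by fibre. -/
lemma tsum_fibres {α : Type*} (pr : α → α) (S A : Set α) {k : ℕ∞} (hA : ∀ c ∈ S, pr c ∈ A)
    (hk : ∀ c₀ ∈ A, {c | pr c = c₀ ∧ c ∈ S}.encard = k) (H : α → ℝ≥0∞) :
    ∑' c, S.indicator (fun c => H (pr c)) c = (k : ℝ≥0∞) * ∑' c₀, A.indicator H c₀ := by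
  rw [← ENNReal.tsum_mul_left]
  calc ∑' c, S.indicator (fun c => H (pr c)) c
      = ∑' c, ∑' c₀, {c | pr c = c₀ ∧ c ∈ S}.indicator (fun _ => A.indicator H c₀) c := by
        refine tsum_congr fun c => ?_
        rw [tsum_eq_single (pr c) fun c₀ hne => Set.indicator_of_notMem
          (s := {d | pr d = c₀ ∧ d ∈ S}) (fun hc => hne hc.1.symm) _]
        by_cases hc : c ∈ S
        · rw [Set.indicator_of_mem hc, Set.indicator_of_mem (s := {d | pr d = pr c ∧ d ∈ S}) ⟨rfl, hc⟩,
            Set.indicator_of_mem (hA c hc)]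
        · rw [Set.indicator_of_notMem hc,
            Set.indicator_of_notMem (s := {d | pr d = pr c ∧ d ∈ S}) fun hh => hc hh.2]
    _ = ∑' c₀, (k : ℝ≥0∞) * A.indicator H c₀ := by
        rw [ENNReal.tsum_comm]
        refine tsum_congr fun c₀ => ?_
        by_cases hc : c₀ ∈ A
        · rw [← tsum_subtype, ENNReal.tsum_set_const, hk c₀ hc]
        · simp [hc]

variable {τ : F →+* F} {a : Fˣ} {v : HeightOneSpectrum (𝓞 F)} {n N : ℕ}

variable (τ a v) in
/-- The part of a damped term which does not depend on the damping. -/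
def baseVal (t : Test F) (p : Pt F N) : ℂ :=
  t.fin (away v (yOf τ a p.2.out)) *
    t.inf fun w => hdist (p.1 w) (actInf (diagU a) (infMap τ p.1) w)

variable (τ a v n) in
/-- The projection to the axis. -/
def projP (p : Pt F N) : Pt F N := (p.1, projC τ a v n p.2)

lemma measurable_projP : Measurable (projP τ a v n : Pt F N → Pt F N) :=
  measurable_fst.prodMk ((measurable_from_top (f := projC τ a v n)).comp measurable_snd)

lemma measurable_baseVal {t : Test F} (ht : t.Ok N) :
    Measurable (baseVal τ a v t : Pt F N → ℂ) :=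
  ((measurable_from_top (f := fun c : Cos F N => t.fin (away v (yOf τ a c.out)))).comp measurable_snd).mul
    (Ell.measurable_infPart ht _)

lemma term_dampPow (hv : (N : 𝓞 F) ∉ v.asIdeal) {t : Test F} (ht : t.Ok N) (h1 : t.OneAt v) (J : ℕ)
    (p : Pt F N) : term τ (t.dampPow v J) (diagU a) p =
      baseVal τ a v t p * (profile (qv v) J (treeDist v (yOf τ a p.2.out)) : ℂ) := by
  rw [term, dampPow_fin hv ht h1, dampPow_inf, baseVal]
  exact mul_right_comm _ _ _

lemma linkedC_of_baseVal_ne {t : Test F}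
    (h1 : ∀ k, t.OneAt ((placeBelow τ)^[k] v)) (hd : ∀ k, 0 < k → k < n → (placeBelow τ)^[k] v ≠ v)
    {p : Pt F N} (hp : baseVal τ a v t p ≠ 0) : LinkedC τ a v n p.2 := fun k hk hkn => by
  rw [← treeDist_congr _ (loc_away_ne v (yOf τ a p.2.out) (hd k hk hkn))]
  exact treeDist_eq_zero_of_oneAt (h1 k) (left_ne_zero_of_mul hp)

lemma baseVal_smul (hN : 0 < N) (hv : (N : 𝓞 F) ∉ v.asIdeal) {t : Test F} (ht : t.Ok N)
    (q : torus0 τ) (p : Pt F N) : baseVal τ a v t (q • p) = baseVal τ a v t p := by
  obtain ⟨x, hx, hq⟩ := mem_torus0.1 q.2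
  rw [Subgroup.smul_def, ← hq, mk_smul]
  simp only [baseVal, smulPt]
  congr 1
  · obtain ⟨u, hu, e⟩ := exists_mul_out (N := N) (toFin (diagU x) * p.2.out)
    rw [show toFin (diagU x) • p.2 = (QuotientGroup.mk (toFin (diagU x) * p.2.out) : Cos F N) by
      conv_lhs => rw [← QuotientGroup.out_eq' p.2, MulAction.Quotient.smul_mk, smul_eq_mul],
      e, yOf_mul, yOf_diagU_mul hx, away_mul, away_mul,
      ht.right_inv _ (away_mem_UZ hv (Ell.gfMap_mem_UZ τ hN hu)),
      ht.left_inv _ (away_mem_UZ hv (inv_mem hu))]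
  · congr 1
    funext w
    have e : GeneralLinearGroup.map τ (diagU x) = diagU x := Units.ext (Matrix.ext fun i j => by
      fin_cases i <;> fin_cases j <;> simp [coe_diagU, hx])
    rw [Ell.infMap_actInf, e, ← actInf_mul, diagU_mul, mul_comm a x, ← diagU_mul, actInf_mul]
    exact hdist_act _ _ _

variable (h : Cyc τ n) (hd : ∀ k, 0 < k → k < n → (placeBelow τ)^[k] v ≠ v)
include h hd

lemma projP_smul (hv : (N : 𝓞 F) ∉ v.asIdeal) (q : torus0 τ) (p : Pt F N) :
    projP τ a v n (q • p) = q • projP τ a v n p := by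
  obtain ⟨x, hx, hq⟩ := mem_torus0.1 q.2
  simp only [Subgroup.smul_def, ← hq, mk_smul]
  exact Prod.ext rfl (projC_diagU h hd hv hx p.2)

lemma baseVal_projP (hN : 0 < N) (hv : (N : 𝓞 F) ∉ v.asIdeal) {t : Test F} (ht : t.Ok N)
    {p : Pt F N} (hp : LinkedC τ a v n p.2) :
    baseVal τ a v t (projP τ a v n p) = baseVal τ a v t p := by
  rw [baseVal, baseVal, fin_away_projC h hd ht hN hv hp]
  rfl

lemma projC_eq_self (hv : (N : 𝓞 F) ∉ v.asIdeal) {c : Cos F N} (hc : IsAxis τ a v n c) :
    projC τ a v n c = c := by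
  conv_lhs => rw [← trC_zero (τ := τ) (a := a) (v := v) (n := n) c]
  exact projC_trC h hd hv hc 0

/-- The height at the moving cusp is constant along fibres. -/
lemma lHt_projP {p : Pt F N} (hp : LinkedC τ a v n p.2) : lHt (projP τ a v n p) = lHt p := by
  obtain ⟨y, hy⟩ := exists_eq_trC h hd hp
  have e : finHt (row1 : Fin 2 → F) p.2.out = finHt row1 (projC τ a v n p.2).out := by
    obtain ⟨u, hu, eu⟩ := exists_mul_out (N := N) (transGF τ a v n y * (projC τ a v n p.2).out)
    conv_lhs => rw [hy]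
    rw [show trC τ a v n y (projC τ a v n p.2) = (QuotientGroup.mk (transGF τ a v n y *
      (projC τ a v n p.2).out) : Cos F N) by rw [← trC_mk, QuotientGroup.out_eq'],
      eu, Ht.finHt_mul_of_mem_UZ _ hu]
    exact finprod_congr fun w => locHt_transGF_row1 τ a v n w y _
  rw [lHt, lHt, Ht.ht, Ht.ht, e]
  rfl

/-- The product of the heights along fibres. -/
lemma sHt_projP {j : ℕ} {p : Pt F N} (hp : p.2 ∈ levelC τ a v n j) :
    sHt p = sHt (projP τ a v n p) + 2 * n * j * Real.log (qv v) := by
  obtain ⟨y, hy⟩ := exists_eq_trC h hd hp.1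
  set c₀ := projC τ a v n p.2
  have hc₀ : IsAxis τ a v n c₀ := isAxis_projC h hd hp.1
  set g₀ := c₀.out
  set g := p.2.out
  obtain ⟨u, hu, eu⟩ := exists_mul_out (N := N) (transGF τ a v n y * g₀)
  have hg : g = transGF τ a v n y * g₀ * u := by
    rw [← eu]
    exact congrArg Quotient.out (hy.trans (by rw [← trC_mk, QuotientGroup.out_eq']))
  set S := (Finset.range n).image fun k => (placeBelow τ)^[k] v
  set z := ((qv v ^ j) ^ 2)⁻¹
  have hpt : ∀ w : HS, pHt w g = pHt w g₀ * (if w ∈ S then z else 1) := by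
    intro w
    split_ifs with hw
    · obtain ⟨k, hk, rfl⟩ := Finset.mem_image.1 hw
      rw [pHt_orbit h hc₀.1 (Finset.mem_range.1 hk),
        pHt_orbit h (g := g) hp.1 (Finset.mem_range.1 hk), show pHt v g₀ = 1 from hc₀.2, one_mul]
      exact hp.2
    · have hno : ∀ k < n, (placeBelow τ)^[k] v ≠ w := fun k hk e =>
        hw (Finset.mem_image.2 ⟨k, Finset.mem_range.2 hk, e⟩)
      rw [mul_one, hg, pHt_mul_of_mem_UZ w hu, pHt, pHt]
      have e : Red.loc w ((transGF τ a v n y * g₀ : GF F) : M2) = Red.loc w (g₀ : M2) := by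
        rw [Units.val_mul, Red.loc_mul, loc_transGF_off h hno, one_mul]
      rw [locHt_congr w _ e, locHt_congr w _ e]
  have hprod : ∀ g : GF F, finHt (axRow0 : Fin 2 → F) g * finHt axRow1 g = ∏ᶠ w : HS, pHt w g :=
    fun g => (finprod_mul_distrib (Ht.finite_mulSupport_locHt axRow0_ne g)
      (Ht.finite_mulSupport_locHt axRow1_ne g)).symm
  have hsupp : (fun w : HS => if w ∈ S then z else 1).HasFiniteMulSupport :=
    S.finite_toSet.subset fun w hw => by
      by_contra hn
      exact hw (if_neg hn)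
  have hcard : S.card = n := by
    rw [Finset.card_image_of_injOn, Finset.card_range]
    exact fun i hi k hk e => orbit_inj h hd (Finset.mem_range.1 hi) (Finset.mem_range.1 hk) e
  have key : finHt (axRow0 : Fin 2 → F) g * finHt axRow1 g =
      finHt (axRow0 : Fin 2 → F) g₀ * finHt axRow1 g₀ * z ^ n := by
    have hp0 : (fun w : HS => pHt w g₀).HasFiniteMulSupport :=
      (Ht.finite_mulSupport_locHt axRow0_ne g₀).mul (Ht.finite_mulSupport_locHt axRow1_ne g₀)
    rw [hprod, hprod, finprod_congr hpt, finprod_mul_distrib hp0 hsupp,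
      finprod_eq_prod_of_mulSupport_subset (fun w : HS => if w ∈ S then z else 1) (s := S) (fun w hw => by
        by_contra hn
        exact hw (if_neg hn)),
      Finset.prod_congr rfl (fun w hw => if_pos hw), Finset.prod_const, hcard]
  have hlog : ∀ q : Pt F N, sHt q = -(Real.log (finHt axRow0 q.2.out * finHt axRow1 q.2.out) +
      Real.log (Ht.infHt axRow0 q.1 * Ht.infHt axRow1 q.1)) := fun q => by
    have h0 := Ht.finHt_pos (axRow0_ne (F := F)) q.2.out
    have h1 := Ht.finHt_pos (axRow1_ne (F := F)) q.2.out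
    have i0 := Ht.infHt_pos (axRow0_ne (F := F)) q.1
    have i1 := Ht.infHt_pos (axRow1_ne (F := F)) q.1
    rw [sHt, Ht.ht, Ht.ht, show (row0 : Fin 2 → F) = axRow0 from rfl,
      show (row1 : Fin 2 → F) = axRow1 from rfl, Real.log_mul h0.ne' i0.ne', Real.log_mul h1.ne' i1.ne',
      Real.log_mul h0.ne' h1.ne', Real.log_mul i0.ne' i1.ne']
    ring
  rw [hlog, hlog, key, show (projP τ a v n p).2.out = g₀ from rfl,
    show (projP τ a v n p).1 = p.1 from rfl, Real.log_mul
      (mul_pos (Ht.finHt_pos axRow0_ne _) (Ht.finHt_pos axRow1_ne _)).ne'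
      (pow_ne_zero _ (inv_ne_zero (pow_ne_zero _ (pow_ne_zero _ (qv_pos v).ne')))),
    Real.log_pow, Real.log_inv, Real.log_pow, Real.log_pow]
  push_cast
  ring

variable {w : Pt F N → ℝ≥0∞}

omit h hd in
variable (τ) in
/-- The slice measure before the restriction. -/
def coverMeasure (w : Pt F N → ℝ≥0∞) : Measure (Pt F N) :=
  RS.wMeasure (ptMeasure F N) (RS.cosetWeight (torus0 τ) w)

omit h hd in
/-- The window of the slice. -/
def sliceSet : Set (Pt F N) := {p | lHt p ∈ Set.Ico (0 : ℝ) 1}

omit h hd in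
lemma measurableSet_sliceSet : MeasurableSet (sliceSet : Set (Pt F N)) :=
  measurable_lHt measurableSet_Ico

omit h hd in
lemma measurableSet_snd (S : Set (Cos F N)) : MeasurableSet {p : Pt F N | p.2 ∈ S} :=
  measurable_snd (show MeasurableSet S from trivial)

/-- Integrals over a level are integrals over the axis. -/
lemma lintegral_levelC (hN : 0 < N) (hv : (N : 𝓞 F) ∉ v.asIdeal) (hw : IsPtWeight w) (j : ℕ)
    {φ : Pt F N → ℝ≥0∞} (hφ : Measurable φ) (hinv : ∀ (q : torus0 τ) p, φ (q • p) = φ p) :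
    ∫⁻ p, φ (projP τ a v n p) ∂(coverMeasure τ w).restrict
        (sliceSet ∩ {p | p.2 ∈ levelC τ a v n j}) =
      (cardLevel v j : ℝ≥0∞) * ∫⁻ p, φ (projP τ a v n p) ∂(coverMeasure τ w).restrict
        (sliceSet ∩ {p | p.2 ∈ {c | IsAxis τ a v n c}}) := by
  haveI := Red.countable_cos (F := F) hN
  haveI : SMulInvariantMeasure (torus0 τ) (Pt F N) (ptMeasure F N) :=
    ⟨fun q s _ => measure_preimage_smul _ (q : PG F) s⟩
  haveI : MeasurableConstSMul (torus0 τ) (Pt F N) := ⟨fun q => measurable_const_smul (q : PG F)⟩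
  set vw := RS.cosetWeight (torus0 τ) w
  have hv0 : RS.IsWeight (torus0 τ) vw := ((isPtWeight_iff w).1 hw).cosetWeight _
  have hv1 : RS.IsWeight (torus0 τ) (vw ∘ projP τ a v n) :=
    hv0.comp_equiv (MulEquiv.refl _) measurable_projP fun q p => projP_smul h hd hv q p
  set H : Pt F N → ℝ≥0∞ := fun p => vw p * sliceSet.indicator φ p
  have hH : Measurable H := hv0.measurable.mul (hφ.indicator measurableSet_sliceSet)
  set L := levelC (N := N) τ a v n j
  set A := {c : Cos F N | IsAxis τ a v n c}
  set f := fun p => (sliceSet ∩ {p | p.2 ∈ L}).indicator (fun p => φ (projP τ a v n p)) p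
  have hf : Measurable f :=
    (hφ.comp measurable_projP).indicator (measurableSet_sliceSet.inter (measurableSet_snd L))
  have hLx : ∀ x : Fˣ, τ (x : F) = x → ∀ c : Cos F N, (toFin (diagU x) • c ∈ L ↔ c ∈ L) :=
    fun x hx c => by
      show LinkedC τ a v n _ ∧ _ ↔ LinkedC τ a v n _ ∧ _
      rw [linkedC_diagU hx, pC_diagU]
  have hfinv : ∀ (q : torus0 τ) p, f (q • p) = f p := fun q p => by
    obtain ⟨x, hx, hq⟩ := mem_torus0.1 q.2
    have hL : ((q • p).2 ∈ L) ↔ p.2 ∈ L := by
      rw [Subgroup.smul_def, ← hq, mk_smul]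
      exact hLx x hx p.2
    have hS : q • p ∈ sliceSet ↔ p ∈ sliceSet := by
      show lHt (q • p) ∈ Set.Ico (0 : ℝ) 1 ↔ lHt p ∈ Set.Ico (0 : ℝ) 1
      rw [(lHt_smul q p).1]
    simp only [f, Set.indicator_apply, Set.mem_inter_iff, Set.mem_ofPred, hS, hL,
      projP_smul h hd hv, hinv]
  have hpt : ∀ p, (vw ∘ projP τ a v n) p * f p =
      {p : Pt F N | p.2 ∈ L}.indicator (fun p => H (projP τ a v n p)) p := fun p => by
    by_cases hp : p.2 ∈ L
    · have hS : projP τ a v n p ∈ sliceSet ↔ p ∈ sliceSet := by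
        show lHt (projP τ a v n p) ∈ Set.Ico (0 : ℝ) 1 ↔ _
        rw [lHt_projP h hd hp.1]
        rfl
      rw [Set.indicator_of_mem (s := {p : Pt F N | p.2 ∈ L}) hp]
      simp only [f, H, Function.comp_apply, Set.indicator_apply, Set.mem_inter_iff,
        Set.mem_ofPred, hp, and_true, hS]
    · simp [f, hp]
  have hr : ∀ S : Set (Cos F N), MeasurableSet (sliceSet ∩ {p : Pt F N | p.2 ∈ S}) := fun S =>
    measurableSet_sliceSet.inter (measurableSet_snd S)
  rw [← lintegral_indicator (hr _), ← lintegral_indicator (hr _), coverMeasure,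
    RS.lintegral_wMeasure hv0.measurable hf, hv0.lintegral_eq hv1 hf hfinv, lintegral_congr hpt,
    RS.lintegral_wMeasure hv0.measurable
      ((show Measurable fun p => φ (projP τ a v n p) from hφ.comp measurable_projP).indicator (hr A))]
  have hA : ∀ p : Pt F N, vw p *
      (sliceSet ∩ {p | p.2 ∈ A}).indicator (fun p => φ (projP τ a v n p)) p =
      {p : Pt F N | p.2 ∈ A}.indicator H p := fun p => by
    by_cases hp : p.2 ∈ A
    · have e : projP τ a v n p = p := Prod.ext rfl (projC_eq_self h hd hv hp)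
      rw [Set.indicator_of_mem (s := {p : Pt F N | p.2 ∈ A}) hp]
      simp [H, Set.indicator_apply, hp, e]
    · simp [hp]
  rw [show (fun a_1 => vw a_1 * (sliceSet ∩ {p | p.2 ∈ A}).indicator
      (fun p => φ (projP τ a v n p)) a_1) = {p : Pt F N | p.2 ∈ A}.indicator H from funext hA,
    ptMeasure, lintegral_prod _ ((show Measurable fun p => H (projP τ a v n p) from hH.comp measurable_projP).indicator
      (measurableSet_snd L)).aemeasurable,
    lintegral_prod _ (hH.indicator (measurableSet_snd A)).aemeasurable]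
  simp only [lintegral_count]
  rw [← lintegral_const_mul' _ _ (ENNReal.natCast_ne_top _)]
  refine lintegral_congr fun x => ?_
  refine (tsum_congr fun c => ?_).trans ((tsum_fibres (projC τ a v n) L A
    (fun c hc => isAxis_projC h hd hc.1) (fun c₀ hc₀ => encard_fibre h hd hv hc₀ j)
    fun c => H (x, c)).trans ?_)
  · simp only [Set.indicator_apply, Set.mem_ofPred]
    rfl
  · rw [ENat.toENNReal_coe]
    congr 1

/-- Bochner integrals over a level. -/
lemma integral_levelC (hN : 0 < N) (hv : (N : 𝓞 F) ∉ v.asIdeal) (hw : IsPtWeight w) (j : ℕ)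
    {ψ : Pt F N → ℂ} (hψ : Measurable ψ) (hinv : ∀ (q : torus0 τ) p, ψ (q • p) = ψ p)
    (hi : Integrable (fun p => ψ (projP τ a v n p))
      ((coverMeasure τ w).restrict (sliceSet ∩ {p | p.2 ∈ {c | IsAxis τ a v n c}}))) :
    Integrable (fun p => ψ (projP τ a v n p))
        ((coverMeasure τ w).restrict (sliceSet ∩ {p | p.2 ∈ levelC τ a v n j})) ∧
      ∫ p, ψ (projP τ a v n p) ∂(coverMeasure τ w).restrict
          (sliceSet ∩ {p | p.2 ∈ levelC τ a v n j}) =
        (cardLevel v j : ℂ) * ∫ p, ψ (projP τ a v n p) ∂(coverMeasure τ w).restrict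
          (sliceSet ∩ {p | p.2 ∈ {c | IsAxis τ a v n c}}) := by
  obtain ⟨h1, h2⟩ := RS.integral_congr_of_lintegral (ENNReal.natCast_ne_top (cardLevel v j))
    (hψ.comp measurable_projP) hi (fun φ hφ => lintegral_levelC h hd hN hv hw j (φ := fun p => φ (ψ p))
      (hφ.comp hψ) fun q p => by rw [hinv])
  exact ⟨h1, by simpa using h2⟩

omit h hd in
lemma cardLevel_pos (v : HS) (j : ℕ) : 0 < cardLevel v j := by
  have h := one_lt_qv v
  rw [qv, Nat.one_lt_cast] at h
  rw [cardLevel]
  split_ifs with hj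
  · exact Nat.one_pos
  · exact Nat.sub_pos_of_lt (Nat.pow_lt_pow_right h (by omega))

/-- The weighted value of a damped class tends to zero. -/
theorem tendsto_sliceW [IsTotallyComplex F] (hN : 0 < N) (hv : (N : 𝓞 F) ∉ v.asIdeal) {t : Test F}
    (ht : t.Ok N) (h1 : ∀ k, t.OneAt ((placeBelow τ)^[k] v))
    (hns : ∀ J, NoSing τ n N (t.dampPow v J)) (hw : IsPtWeight w) (s : SplitIdx τ n) :
    Tendsto (fun J => sliceW τ w (t.dampPow v J) (repA s)) atTop (𝓝 0) := by
  haveI := Red.countable_cos (F := F) hN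
  have h10 : t.OneAt v := h1 0
  set a := repA s
  set ν := sliceMeasure τ w
  set νA := (coverMeasure τ w).restrict (sliceSet ∩ {p : Pt F N | p.2 ∈ {c | IsAxis τ a v n c}})
  set νL := fun j => (coverMeasure τ w).restrict (sliceSet ∩ {p : Pt F N | p.2 ∈ levelC τ a v n j})
  set q := qv v
  have hfin := finite_splitIdx h hN hv ht h10
  have hint : ∀ J, Integrable (term τ (t.dampPow v J) (diagU a)) ν ∧
      Integrable (fun p => (sHt p : ℂ) * term τ (t.dampPow v J) (diagU a) p) ν := fun J =>
    (exists_trunc h hN (dampPow_ok hv ht h10 J) (hns J) (S := hfin.toFinset)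
      (fun s' hs' p => by
        by_contra hne
        exact hs' (hfin.mem_toFinset.2 ⟨J, p, hne⟩)) hw).1 s
  obtain ⟨m, k₀, hD⟩ := exists_treeDist_levelC (N := N) (a := a) h hd (repA_spec s).1
  set G : Pt F N → ℂ := baseVal τ a v t
  set G1 : Pt F N → ℂ := fun p => (sHt p : ℂ) * G p
  have hGm : Measurable G := measurable_baseVal ht
  have hG1m : Measurable G1 := (Complex.measurable_ofReal.comp measurable_sHt).mul hGm
  have hGi : ∀ (x : torus0 τ) p, G (x • p) = G p := fun x p => baseVal_smul hN hv ht x p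
  have hG1i : ∀ (x : torus0 τ) p, G1 (x • p) = G1 p := fun x p => by
    simp only [G1, hGi, (lHt_smul x p).2]
  have hterm : ∀ J j (p : Pt F N), p.2 ∈ levelC τ a v n j → term τ (t.dampPow v J) (diagU a) p =
      (profile q J (m + 2 * (j - k₀)) : ℂ) * G (projP τ a v n p) := fun J j p hp => by
    rw [term_dampPow hv ht h10, hD j p.2 hp, show G (projP τ a v n p) = G p from
      baseVal_projP h hd hN hv ht hp.1, mul_comm]
  have hterm1 : ∀ J j (p : Pt F N), p.2 ∈ levelC τ a v n j →
      (sHt p : ℂ) * term τ (t.dampPow v J) (diagU a) p = (profile q J (m + 2 * (j - k₀)) : ℂ) *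
        (G1 (projP τ a v n p) + ((2 * n * j * Real.log q : ℝ) : ℂ) * G (projP τ a v n p)) :=
    fun J j p hp => by
      rw [hterm J j p hp]
      conv_lhs => rw [sHt_projP h hd hp]
      simp only [G1, q]
      push_cast
      ring
  have hL : ∀ j, MeasurableSet {p : Pt F N | p.2 ∈ levelC τ a v n j} := fun j => measurableSet_snd _
  have hνL : ∀ j, ν.restrict {p : Pt F N | p.2 ∈ levelC τ a v n j} = νL j := fun j => by
    show ((coverMeasure τ w).restrict sliceSet).restrict _ = _
    rw [Measure.restrict_restrict (hL j), Set.inter_comm]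
  by_cases hall : ∀ J j, profile q J (m + 2 * (j - k₀)) = 0
  · refine tendsto_const_nhds.congr fun J => (integral_eq_zero_of_ae (ae_of_all _ fun p => ?_)).symm
    show (sHt p : ℂ) * term τ (t.dampPow v J) (diagU a) p = 0
    by_cases hp : LinkedC τ a v n p.2
    · obtain ⟨j, hj⟩ := exists_mem_levelC h hd hp
      rw [hterm J j p hj, hall, Complex.ofReal_zero, zero_mul, mul_zero]
    · have : baseVal τ a v t p = 0 := by
        by_contra hne
        exact hp (linkedC_of_baseVal_ne h1 hd hne)
      rw [term_dampPow hv ht h10, this, zero_mul, mul_zero]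
  push Not at hall
  obtain ⟨Js, js, hne⟩ := hall
  have hc0 : ((profile q Js (m + 2 * (js - k₀))) : ℂ) ≠ 0 := Complex.ofReal_ne_zero.2 hne
  -- integrability on the axis, from one level
  have hfromLevel : ∀ {ψ : Pt F N → ℂ}, Measurable ψ → (∀ (x : torus0 τ) p, ψ (x • p) = ψ p) →
      Integrable (fun p => ψ (projP τ a v n p)) (νL js) →
      Integrable (fun p => ψ (projP τ a v n p)) νA := fun {ψ} hψ hψi hi => by
    refine ⟨(hψ.comp measurable_projP).aestronglyMeasurable, ?_⟩
    have h2 := hi.2
    rw [hasFiniteIntegral_iff_enorm] at h2 ⊢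
    rw [lintegral_levelC h hd hN hv hw js (φ := fun p => ‖ψ p‖ₑ) hψ.enorm
      fun x p => by rw [hψi]] at h2
    exact lt_top_iff_ne_top.2 fun htop => h2.ne (by
      rw [htop, ENNReal.mul_top (Nat.cast_ne_zero.2 (cardLevel_pos v js).ne')])
  have hae : ∀ᵐ p ∂νL js, p.2 ∈ levelC τ a v n js :=
    (ae_restrict_mem (measurableSet_sliceSet.inter (hL js))).mono fun p hp => hp.2
  have hG0A : Integrable (fun p => G (projP τ a v n p)) νA := by
    refine hfromLevel hGm hGi ((((hint Js).1.restrict (s := {p | p.2 ∈ levelC τ a v n js})).const_mul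
      (profile q Js (m + 2 * (js - k₀)) : ℂ)⁻¹).mono_measure (hνL js).ge |>.congr ?_)
    filter_upwards [hae] with p hp
    rw [hterm Js js p hp, inv_mul_cancel_left₀ hc0]
  have hG0L : ∀ j, Integrable (fun p => G (projP τ a v n p)) (νL j) := fun j =>
    (integral_levelC h hd hN hv hw j hGm hGi hG0A).1
  have hG1A : Integrable (fun p => G1 (projP τ a v n p)) νA := by
    refine hfromLevel hG1m hG1i ((((((hint Js).2.restrict (s := {p | p.2 ∈ levelC τ a v n js})).const_mul
      (profile q Js (m + 2 * (js - k₀)) : ℂ)⁻¹).mono_measure (hνL js).ge).sub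
        ((hG0L js).const_mul ((2 * n * js * Real.log q : ℝ) : ℂ))).congr ?_)
    filter_upwards [hae] with p hp
    rw [Pi.sub_apply, hterm1 Js js p hp, inv_mul_cancel_left₀ hc0, add_sub_cancel_right]
  set I0 := ∫ p, G (projP τ a v n p) ∂νA
  set I1 := ∫ p, G1 (projP τ a v n p) ∂νA
  have hvalue : ∀ J, sliceW τ w (t.dampPow v J) a =
      ((∑' j : ℕ, levelCard q j * profile q J (m + 2 * (j - k₀)) : ℝ) : ℂ) * I1 +
        ((2 * n * Real.log q * ∑' j : ℕ, (j : ℝ) * (levelCard q j * profile q J (m + 2 * (j - k₀))) :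
          ℝ) : ℂ) * I0 := by
    intro J
    set K := k₀ + J + 1
    have hzero : ∀ j, K ≤ j → profile q J (m + 2 * (j - k₀)) = 0 := fun j hj =>
      profile_eq_zero _ _ _ (by omega)
    set f : Pt F N → ℂ := fun p => (sHt p : ℂ) * term τ (t.dampPow v J) (diagU a) p
    have hsum : ∀ p, f p = ∑ j ∈ Finset.range K,
        {p : Pt F N | p.2 ∈ levelC τ a v n j}.indicator f p := fun p => by
      by_cases hp : LinkedC τ a v n p.2
      · obtain ⟨j, hj⟩ := exists_mem_levelC h hd hp
        rw [Finset.sum_eq_single j (fun i _ hne => Set.indicator_of_notMem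
          (s := {p : Pt F N | p.2 ∈ levelC τ a v n i}) (fun hi => hne (levelC_disjoint hi hj)) f)
          fun hnot => ?_, Set.indicator_of_mem (s := {p : Pt F N | p.2 ∈ levelC τ a v n j}) hj]
        rw [Set.indicator_of_mem (s := {p : Pt F N | p.2 ∈ levelC τ a v n j}) hj]
        simp only [f, hterm J j p hj, hzero j (by simpa using hnot), Complex.ofReal_zero, zero_mul,
          mul_zero]
      · have h0 : baseVal τ a v t p = 0 := by
          by_contra hne
          exact hp (linkedC_of_baseVal_ne h1 hd hne)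
        have hf0 : f p = 0 := by simp only [f, term_dampPow hv ht h10, h0, zero_mul, mul_zero]
        rw [Finset.sum_eq_zero (fun j _ => ?_), hf0]
        exact Set.indicator_apply_eq_zero.2 fun _ => hf0
    have hpiece : ∀ j, ∫ p, f p ∂νL j = ((levelCard q j * profile q J (m + 2 * (j - k₀)) : ℝ) : ℂ) *
        (I1 + ((2 * n * j * Real.log q : ℝ) : ℂ) * I0) := fun j => by
      have hae' : ∀ᵐ p ∂νL j, p.2 ∈ levelC τ a v n j :=
        (ae_restrict_mem (measurableSet_sliceSet.inter (hL j))).mono fun p hp => hp.2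
      obtain ⟨h1i, h1v⟩ := integral_levelC h hd hN hv hw j hG1m hG1i hG1A
      obtain ⟨-, h0v⟩ := integral_levelC h hd hN hv hw j hGm hGi hG0A
      rw [integral_congr_ae (hae'.mono fun p hp => hterm1 J j p hp), integral_const_mul,
        integral_add h1i ((hG0L j).const_mul _), integral_const_mul, h1v, h0v, ← cardLevel_cast]
      simp only [I0, I1, νA, q]
      push_cast
      ring
    show ∫ p, f p ∂ν = _
    rw [integral_congr_ae (ae_of_all _ hsum), integral_finsetSum _ fun j _ =>
      ((hint J).2.indicator (hL j))]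
    simp only [integral_indicator (hL _), hνL]
    rw [Finset.sum_congr rfl fun j _ => hpiece j]
    rw [tsum_eq_sum (s := Finset.range K) fun j hj => by
        rw [hzero j (by simpa using hj), mul_zero],
      tsum_eq_sum (s := Finset.range K) fun j hj => by
        rw [hzero j (by simpa using hj), mul_zero, mul_zero], Finset.mul_sum]
    push_cast
    rw [Finset.sum_mul, Finset.sum_mul, ← Finset.sum_add_distrib]
    exact Finset.sum_congr rfl fun j _ => by ring
  obtain ⟨hA, hB⟩ := tendsto_levels (one_lt_qv v) m k₀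
  have hlim := (((Complex.continuous_ofReal.tendsto 0).comp hA).mul_const I1).add
    (((Complex.continuous_ofReal.tendsto 0).comp
      (by simpa using hB.const_mul (2 * n * Real.log q))).mul_const I0)
  simp only [Complex.ofReal_zero, zero_mul, add_zero] at hlim
  exact hlim.congr fun J => (hvalue J).symm

end FLTAgent.LT.HypTree
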