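import Fermat.Agent.LT.TF.Hyp.Main
import Fermat.Agent.LT.TF.Hyp.Value

/-!
The non elliptic parts of damped tests tend to zero: for single tests and for finite combinations,
over the trivial map and over a map of order three moving the place.
-/

set_option autoImplicit false
set_option linter.style.haveILetI false
set_option linter.unusedSectionVars false
set_option synthInstance.maxHeartbeats 200000

noncomputable section

namespace FLTAgent.LT.HypTree

open NumberField IsDedekindDomain MeasureTheory Filter
open scoped Topology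

variable {F : Type*} [Field F] [NumberField F]

/-- Finite combinations of damped tests. -/
theorem tendsto_integral_damped [IsTotallyComplex F] {τ : F →+* F} {n : ℕ} (h : Cyc τ n) {N : ℕ}
    (hN : 0 < N) {v : HeightOneSpectrum (𝓞 F)} (hv : (N : 𝓞 F) ∉ v.asIdeal)
    (hd : ∀ k, 0 < k → k < n → (placeBelow τ)^[k] v ≠ v) {ι : Type*} [Fintype ι] (coef : ι → ℂ)
    (t : ι → Test F) (ht : ∀ i, (t i).Ok N) (h1 : ∀ i k, (t i).OneAt ((placeBelow τ)^[k] v))
    (hns : ∀ i J, NoSing τ n N ((t i).dampPow v J)) {w : Pt F N → ENNReal} (hw : IsPtWeight w)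
    (hint : ∀ J, Integrable (fun p => ∑ i, coef i *
      (kernTw τ ((t i).dampPow v J) p - ellTw τ n ((t i).dampPow v J) p)) (quotMeasure w)) :
    Tendsto (fun J => ∫ p, ∑ i, coef i *
      (kernTw τ ((t i).dampPow v J) p - ellTw τ n ((t i).dampPow v J) p) ∂quotMeasure w) atTop (𝓝 0) :=
  tendsto_integral_restTw h hN hv coef t ht (fun i => h1 i 0) hns hw
    (fun i s => tendsto_sliceW h hd hN hv (ht i) (h1 i) (hns i) hw s) hint

lemma placeBelow_id (v : HeightOneSpectrum (𝓞 F)) : placeBelow (RingHom.id F) v = v :=
  HeightOneSpectrum.ext (Ideal.ext fun x => by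
    show RingOfIntegers.mapRingHom (RingHom.id F) x ∈ v.asIdeal ↔ _
    rw [show RingOfIntegers.mapRingHom (RingHom.id F) x = x from RingOfIntegers.ext rfl])

/-- A map of order dividing three which moves `v`. -/
lemma cyc_three {τ : F →+* F} (h3 : ∀ x, (⇑τ)^[3] x = x) {v : HeightOneSpectrum (𝓞 F)}
    (hv : placeBelow τ v ≠ v) :
    Cyc τ 3 ∧ ∀ k, 0 < k → k < 3 → (placeBelow τ)^[k] v ≠ v := by
  have hne : ∃ x, τ x ≠ x := by
    by_contra hall
    push Not at hall
    exact hv (by rw [show τ = RingHom.id F from RingHom.ext hall, placeBelow_id])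
  obtain ⟨x, hx⟩ := hne
  have h3' : Cyc τ 3 := by
    refine ⟨by decide, h3, fun k hk hk3 => ⟨x, fun e => hx ?_⟩⟩
    interval_cases k
    · exact e
    · have := h3 x
      rw [Function.iterate_succ_apply', e] at this
      exact this
  refine ⟨h3', fun k hk hk3 e => hv ?_⟩
  interval_cases k
  · exact e
  · conv_rhs => rw [← placeBelow_iterate_n (τ := τ) h3' v, Function.iterate_succ_apply', e]

/-- Piece B3b for the trivial map. -/
theorem hypVanish_one [IsTotallyComplex F] : HypVanish (RingHom.id F) 1 := by
  intro N t v hN ht hv _ h1 hns w hw hint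
  have := tendsto_integral_damped Cyc.one hN hv (fun k hk hk1 => absurd hk1 (by omega))
    (fun _ : Unit => (1 : ℂ)) (fun _ => t) (fun _ => ht) (fun _ => h1) (fun _ => hns) hw
    (fun J => by simpa using hint J)
  simpa using this

/-- Piece B3b for a map of order three. -/
theorem hypVanish_three [IsTotallyComplex F] {τ : F →+* F} (h3 : ∀ x, (⇑τ)^[3] x = x) :
    HypVanish τ 3 := by
  intro N t v hN ht hv hmove h1 hns w hw hint
  obtain ⟨h, hd⟩ := cyc_three h3 (hmove.resolve_right (by omega))
  have := tendsto_integral_damped h hN hv hd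
    (fun _ : Unit => (1 : ℂ)) (fun _ => t) (fun _ => ht) (fun _ => h1) (fun _ => hns) hw
    (fun J => by simpa using hint J)
  simpa using this

end FLTAgent.LT.HypTree
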