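import Fermat.Agent.LT.TF.Hyp.Local
import Fermat.Agent.LT.TF.Hyp.Classes
import Fermat.Agent.LT.RS.Conductor

/-!
The geometry at the orbit of `v` of a diagonal twisted class: linked points, the translations which
move them along their fibres, and the axis.
-/

set_option autoImplicit false
set_option linter.style.haveILetI false
set_option linter.unusedSectionVars false
set_option synthInstance.maxHeartbeats 200000

noncomputable section

namespace FLTAgent.LT.HypTree

attribute [local instance] Classical.propDecidable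

open NumberField IsDedekindDomain Matrix
open FLTAgent.LT.Ht (vMax mMax detNorm locBound locHt rowNorm rowAt)
open FLTAgent.LT.Ell (nrm)

variable {F : Type*} [Field F] [NumberField F]

local notation "HS" => HeightOneSpectrum (𝓞 F)
local notation "M2" => Matrix (Fin 2) (Fin 2) (Af F)
local notation "M2F" => Matrix (Fin 2) (Fin 2) F
local notation "nm" => fun (x : F) (w : HS) => ‖(algebraMap F (Af F) x) w‖

/-! ### Generalities at one place -/

/-- The two axis rows. -/
def axRow0 : Fin 2 → F := ![1, 0]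

/-- The second axis row. -/
def axRow1 : Fin 2 → F := ![0, 1]

lemma axRow0_ne : (axRow0 : Fin 2 → F) ≠ 0 := fun h => one_ne_zero (congrFun h 0)
lemma axRow1_ne : (axRow1 : Fin 2 → F) ≠ 0 := fun h => one_ne_zero (congrFun h 1)

lemma norm_alg_pos {x : F} (hx : x ≠ 0) (w : HS) : 0 < ‖(algebraMap F (Af F) x) w‖ := by
  rw [Ht.norm_algebraMap]; exact FinitePlace.pos_iff.2 hx

lemma alg_apply (x : F) (w : HS) : (algebraMap F (Af F) x) w = (x : w.adicCompletion F) := rfl

lemma af_mul_app (x y : Af F) (w : HS) : (x * y) w = x w * y w := rfl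

lemma af_add_app (x y : Af F) (w : HS) : (x + y) w = x w + y w := rfl

lemma af_sub_app (x y : Af F) (w : HS) : (x - y) w = x w - y w := rfl

lemma af_zero_app (w : HS) : (0 : Af F) w = 0 := rfl

lemma af_one_app (w : HS) : (1 : Af F) w = 1 := rfl

lemma locHt_congr (w : HS) (r : Fin 2 → F) {g h : GF F}
    (e : Red.loc w (g : M2) = Red.loc w (h : M2)) : locHt w r g = locHt w r h := by
  rw [locHt, locHt, rowNorm, rowNorm, Ht.detNorm_eq_det, Ht.detNorm_eq_det, e]

lemma rowAt_axRow (w : HS) : rowAt w (axRow0 : Fin 2 → F) = ![1, 0] ∧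
    rowAt w (axRow1 : Fin 2 → F) = ![0, 1] := by
  constructor <;> funext i <;> fin_cases i
  · show (algebraMap F (Af F) 1) w = 1; rw [map_one]; rfl
  · show (algebraMap F (Af F) 0) w = 0; rw [map_zero]; rfl
  · show (algebraMap F (Af F) 0) w = 0; rw [map_zero]; rfl
  · show (algebraMap F (Af F) 1) w = 1; rw [map_one]; rfl

lemma not_one_mem (w : HS) : ((1 : ℕ) : 𝓞 F) ∉ w.asIdeal := by
  rw [Nat.cast_one]; exact fun h => w.isPrime.ne_top ((Ideal.eq_top_iff_one _).2 h)

lemma locHt_mul_zero {w : HS} (r : Fin 2 → F) {B : GF F} (hB : treeDist w B = 0) (g : GF F) :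
    locHt w r (g * B) = locHt w r g := by
  rw [locHt_congr w r (h := g * atV w B) (by rw [Units.val_mul, Units.val_mul, Red.loc_mul,
    Red.loc_mul, loc_atV_self]), Ht.locHt_mul_of_mem_UZ w r (atV_mem_UZ (not_one_mem w) hB) g]

lemma treeDist_mul_zero {w : HS} {B : GF F} (hB : treeDist w B = 0) (g : GF F) :
    treeDist w (g * B) = treeDist w g ∧ treeDist w (B * g) = treeDist w g := by
  have hu := atV_mem_UZ (N := 1) (not_one_mem w) hB
  constructor
  · rw [treeDist_congr w (h := g * atV w B) (by rw [Units.val_mul, Units.val_mul, Red.loc_mul,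
      Red.loc_mul, loc_atV_self]), treeDist_mul_UZ w hu]
  · rw [treeDist_congr w (h := atV w B * g) (by rw [Units.val_mul, Units.val_mul, Red.loc_mul,
      Red.loc_mul, loc_atV_self]), treeDist_UZ_mul w hu]

lemma treeDist_inv_zero {w : HS} {B : GF F} (hB : treeDist w B = 0) : treeDist w B⁻¹ = 0 := by
  rw [treeDist_inv, hB]

lemma locBound_gfMap (τ : F →+* F) (w : HS) (g : GF F) :
    locBound w (gfMap τ g) = locBound (placeBelow τ w) g := by
  have e : ∀ i j, ‖Red.loc w (gfMap τ g : M2) i j‖ =
      ‖Red.loc (placeBelow τ w) (g : M2) i j‖ := fun i j => norm_afMap τ ((g : M2) i j) w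
  have hd : detNorm w (gfMap τ g) = detNorm (placeBelow τ w) g := by
    rw [detNorm, detNorm, ← norm_afMap τ]
    congr 2
    simp [gfMap, Matrix.det_fin_two]
  rw [locBound, locBound, hd, mMax, mMax, vMax, vMax, vMax, vMax, e 0 0, e 0 1, e 1 0, e 1 1]

lemma treeDist_gfMap (τ : F →+* F) (w : HS) (g : GF F) :
    treeDist w (gfMap τ g) = treeDist (placeBelow τ w) g := by
  have h := locBound_gfMap τ w g
  refine treeDist_eq w (h.trans ?_)
  rw [locBound_eq_pow]
  congr 1
  rw [qv, qv, ← absNorm_eq, ← absNorm_eq, absNorm_placeBelow]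

lemma locHt_one (w : HS) (r : Fin 2 → F) : locHt w r 1 = (vMax (rowAt w r) ^ 2)⁻¹ := by
  rw [locHt, Ht.detNorm_eq_det, rowNorm, Units.val_one, Red.loc_one, Matrix.det_one, norm_one,
    Matrix.vecMul_one, one_div]

lemma exists_norm_eq_locHt (w : HS) (g : GF F) :
    ∃ b : Fˣ, ‖(algebraMap F (Af F) (b : F)) w‖ = locHt w axRow1 g := by
  obtain ⟨i, hi⟩ : ∃ i, ‖(rowAt w (axRow1 : Fin 2 → F) ᵥ* Red.loc w (g : M2)) i‖ =
      rowNorm w axRow1 g := by
    rcases max_choice ‖(rowAt w (axRow1 : Fin 2 → F) ᵥ* Red.loc w (g : M2)) 0‖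
      ‖(rowAt w (axRow1 : Fin 2 → F) ᵥ* Red.loc w (g : M2)) 1‖ with h | h
    · exact ⟨0, h.symm⟩
    · exact ⟨1, h.symm⟩
  have hpos := Ht.rowNorm_pos w axRow1_ne g
  have h0 : (rowAt w (axRow1 : Fin 2 → F) ᵥ* Red.loc w (g : M2)) i ≠ 0 := fun h => by
    rw [h, norm_zero] at hi
    exact hpos.ne hi
  obtain ⟨a, ha⟩ := exists_norm_eq_zpow h0
  obtain ⟨d, hd⟩ := exists_norm_eq_zpow (Red.unit_apply_ne_zero (GeneralLinearGroup.det g) w)
  refine ⟨(Units.mk0 _ (unif_ne_zero w)) ^ (-(d - 2 * a)), ?_⟩
  have hq := (qv_pos w).ne'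
  rw [Ht.norm_algebraMap, Units.val_zpow_eq_zpow_val, map_zpow₀, Units.val_mk0,
    ← Ht.norm_algebraMap, show (algebraMap F (Af F) (unif w)) w = Aleph.piV w from rfl, norm_piV,
    _root_.inv_zpow', neg_neg, locHt, ← hi, ha, show detNorm w g = qv w ^ d from hd, zpow_sub₀ hq,
    mul_comm 2 a, _root_.zpow_mul]
  rfl

/-- The product of the two axis heights. -/
def pHt (w : HS) (g : GF F) : ℝ := locHt w axRow0 g * locHt w axRow1 g

lemma pHt_pos (w : HS) (g : GF F) : 0 < pHt w g :=
  mul_pos (Ht.locHt_pos w axRow0_ne g) (Ht.locHt_pos w axRow1_ne g)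

lemma pHt_mul_of_mem_UZ (w : HS) {N : ℕ} {u : GF F} (hu : u ∈ UZ F N) (g : GF F) :
    pHt w (g * u) = pHt w g := by
  rw [pHt, pHt, Ht.locHt_mul_of_mem_UZ w _ hu, Ht.locHt_mul_of_mem_UZ w _ hu]

lemma axRow_vecMul_diagU (x : Fˣ) : (axRow1 : Fin 2 → F) ᵥ* (diagU x : M2F) = axRow1 ∧
    (axRow0 : Fin 2 → F) ᵥ* (diagU x : M2F) = (x : F) • axRow0 := by
  constructor <;> funext i <;> fin_cases i <;>
    simp [axRow0, axRow1, coe_diagU, Matrix.vecMul, dotProduct, Fin.sum_univ_two]

lemma det_diagU (x : Fˣ) : (GeneralLinearGroup.det (diagU x) : F) = x := by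
  rw [GeneralLinearGroup.val_det_apply, coe_diagU, Matrix.det_fin_two]; simp

lemma locHt_diagU_mul (w : HS) (x : Fˣ) (g : GF F) :
    locHt w axRow1 (toFin (diagU x) * g) = ‖(algebraMap F (Af F) (x : F)) w‖ * locHt w axRow1 g ∧
      locHt w axRow0 (toFin (diagU x) * g) = locHt w axRow0 g / ‖(algebraMap F (Af F) (x : F)) w‖ := by
  obtain ⟨e1, e0⟩ := axRow_vecMul_diagU x
  constructor
  · rw [Ht.locHt_toFin_mul, e1, det_diagU]
  · rw [Ht.locHt_toFin_mul, e0, det_diagU, Ht.locHt_smul_row]
    have := (norm_alg_pos x.ne_zero w).ne'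
    field_simp

lemma pHt_diagU_mul (w : HS) (x : Fˣ) (g : GF F) : pHt w (toFin (diagU x) * g) = pHt w g := by
  obtain ⟨e1, e0⟩ := locHt_diagU_mul w x g
  rw [pHt, pHt, e1, e0]
  have := (norm_alg_pos x.ne_zero w).ne'
  field_simp

/-- On the axis a point is diagonal up to the maximal compact subgroup and the centre. -/
lemma treeDist_axis {w : HS} {g : GF F} (hP : pHt w g = 1) {b : Fˣ}
    (hb : ‖(algebraMap F (Af F) (b : F)) w‖ = locHt w axRow1 g) :
    treeDist w ((toFin (diagU b))⁻¹ * g) = 0 := by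
  rw [← map_inv, show (diagU b)⁻¹ = diagU b⁻¹ from (eq_inv_of_mul_eq_one_left (by
    rw [diagU_mul, inv_mul_cancel, diagU_one])).symm]
  set M := toFin (diagU b⁻¹) * g
  obtain ⟨e1, e0⟩ := locHt_diagU_mul w b⁻¹ g
  have hρ := Ht.locHt_pos w axRow1_ne g
  have hbi : ‖(algebraMap F (Af F) ((b⁻¹ : Fˣ) : F)) w‖ = (locHt w axRow1 g)⁻¹ := by
    rw [← hb, Units.val_inv_eq_inv_val, Ht.norm_algebraMap, Ht.norm_algebraMap, map_inv₀]
  rw [hbi, inv_mul_cancel₀ hρ.ne'] at e1
  rw [hbi, div_inv_eq_mul, show locHt w axRow0 g * locHt w axRow1 g = 1 from hP] at e0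
  have hrow : ∀ i : Fin 2, rowNorm w ((![axRow0, axRow1] : Fin 2 → Fin 2 → F) i) M =
      vMax (Red.loc w (M : M2) i) := fun i => by
    rw [rowNorm]
    congr 1
    funext j
    fin_cases i <;> simp [rowAt_axRow, Matrix.vecMul, dotProduct, Fin.sum_univ_two]
  have h : ∀ r : Fin 2 → F, r ≠ 0 → locHt w r M = 1 → rowNorm w r M ^ 2 = detNorm w M := fun r hr h => by
    rw [locHt, div_eq_one_iff_eq (pow_pos (Ht.rowNorm_pos w hr M) 2).ne'] at h
    exact h.symm
  have h0 := h _ axRow0_ne e0
  have h1 := h _ axRow1_ne e1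
  have r0 := hrow 0
  have r1 := hrow 1
  simp only [Matrix.cons_val_zero, Matrix.cons_val_one, Matrix.cons_val_fin_one] at r0 r1
  rw [r0] at h0
  rw [r1] at h1
  refine treeDist_eq w ?_
  rw [pow_zero, locBound, div_eq_one_iff_eq (Ht.detNorm_pos w M).ne', mMax]
  rcases max_choice (vMax (Red.loc w (M : M2) 0)) (vMax (Red.loc w (M : M2) 1)) with hh | hh <;>
    rw [hh] <;> assumption

/-! ### The twisted translations -/

variable (τ : F →+* F) (a : Fˣ)

/-- `X ↦ a · τX`. -/
def twAlpha (X : Af F) : Af F := algebraMap F (Af F) (a : F) * afMap τ X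

/-- `y ↦ a · τy`. -/
def twAlphaF (y : F) : F := (a : F) * τ y

lemma twAlphaF_iterate (y : F) : ∀ k, (twAlphaF τ a)^[k] y = (nrm τ k a : F) * (⇑τ)^[k] y
  | 0 => by simp [nrm]
  | k + 1 => by
    rw [Function.iterate_succ_apply', twAlphaF_iterate y k, twAlphaF, map_mul,
      Function.iterate_succ_apply', show (nrm τ (k + 1) a : F) = (a : F) * τ (nrm τ k a : F) from rfl,
      mul_assoc]

variable (v : HeightOneSpectrum (𝓞 F))

/-- The spread of `y` at `v`. -/
def spread (y : F) (k : ℕ) : Af F := (twAlpha τ a)^[k] (adeleSingle v (y : v.adicCompletion F))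

lemma spread_apply (y : F) : ∀ (k : ℕ) (w : HS), spread τ a v y k w =
    if (placeBelow τ)^[k] w = v then (algebraMap F (Af F) ((twAlphaF τ a)^[k] y)) w else 0
  | 0, w => by
    rw [spread, Function.iterate_zero, id_eq, Function.iterate_zero, id_eq]
    split_ifs with h
    · subst h; exact Aleph.adeleSingle_apply_self _ _
    · exact Aleph.adeleSingle_apply_ne v _ h
  | k + 1, w => by
    rw [spread, Function.iterate_succ_apply', twAlpha, af_mul_app, afMap_apply,
      show (twAlpha τ a)^[k] (adeleSingle v (y : v.adicCompletion F)) = spread τ a v y k from rfl,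
      spread_apply y k, Function.iterate_succ_apply (placeBelow τ)]
    split_ifs with h
    · rw [Function.iterate_succ_apply' (twAlphaF τ a), twAlphaF, map_mul, af_mul_app]
      congr 1
      exact complMap_coe τ w _
    · rw [map_zero, mul_zero]

variable (n : ℕ)

/-- The linked translation. -/
def uTrans (y : F) : Af F := ∑ k ∈ Finset.range n, spread τ a v y k

lemma af_sum_app {ι : Type*} (s : Finset ι) (f : ι → Af F) (w : HS) :
    (∑ i ∈ s, f i) w = ∑ i ∈ s, f i w := by
  classical
  induction s using Finset.induction with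
  | empty => rfl
  | insert i s hi ih => rw [Finset.sum_insert hi, Finset.sum_insert hi, ← ih]; rfl

lemma uTrans_apply (y : F) (w : HS) : uTrans τ a v n y w = ∑ k ∈ Finset.range n,
    if (placeBelow τ)^[k] w = v then (algebraMap F (Af F) ((twAlphaF τ a)^[k] y)) w else 0 := by
  rw [uTrans, af_sum_app]
  exact Finset.sum_congr rfl fun k _ => spread_apply τ a v y k w

lemma uTrans_eq_zero {w : HS} (hw : ∀ k < n, (placeBelow τ)^[k] w ≠ v) (y : F) :
    uTrans τ a v n y w = 0 := by
  rw [uTrans_apply]
  exact Finset.sum_eq_zero fun k hk => if_neg (hw k (Finset.mem_range.1 hk))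

lemma af_ext' {x y : Af F} (h : ∀ w : HS, x w = y w) : x = y := Red.af_ext h

lemma uTrans_add (y z : F) : uTrans τ a v n (y + z) = uTrans τ a v n y + uTrans τ a v n z :=
  af_ext' fun w => by
    show _ = uTrans τ a v n y w + uTrans τ a v n z w
    rw [uTrans_apply, uTrans_apply, uTrans_apply, ← Finset.sum_add_distrib]
    refine Finset.sum_congr rfl fun k _ => ?_
    split_ifs
    · rw [twAlphaF_iterate, twAlphaF_iterate, twAlphaF_iterate, ← RingHom.coe_pow, map_add, mul_add,
        map_add]
      rfl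
    · rw [add_zero]

lemma uTrans_fixed_mul {x : F} (hx : τ x = x) (y : F) :
    uTrans τ a v n (x * y) = algebraMap F (Af F) x * uTrans τ a v n y :=
  af_ext' fun w => by
    rw [af_mul_app, uTrans_apply, uTrans_apply, Finset.mul_sum]
    refine Finset.sum_congr rfl fun k _ => ?_
    have hk : (⇑τ)^[k] x = x := Function.iterate_fixed hx k
    split_ifs
    · rw [twAlphaF_iterate, twAlphaF_iterate,
        show (⇑τ)^[k] (x * y) = (⇑τ)^[k] x * (⇑τ)^[k] y by rw [← RingHom.coe_pow, map_mul], hk,
        ← af_mul_app, ← map_mul]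
      congr 2
      ring
    · rw [mul_zero]

/-- The translation as a matrix. -/
def transGF (y : F) : GF F := upperGF 1 (uTrans τ a v n y)

lemma transGF_add (y z : F) : transGF τ a v n (y + z) = transGF τ a v n y * transGF τ a v n z := by
  rw [transGF, transGF, transGF, Red.upperGF_mul, uTrans_add, Units.val_one, one_mul, one_mul, add_comm]

lemma transGF_zero : transGF τ a v n 0 = 1 :=
  mul_left_cancel (a := transGF τ a v n 0) (by rw [← transGF_add, add_zero, mul_one])

lemma transGF_neg (y : F) : transGF τ a v n (-y) = (transGF τ a v n y)⁻¹ :=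
  eq_inv_of_mul_eq_one_left (by rw [← transGF_add, neg_add_cancel, transGF_zero])

lemma diagU_mul_transGF {x : Fˣ} (hx : τ (x : F) = x) (y : F) :
    toFin (diagU x) * transGF τ a v n y = transGF τ a v n ((x : F) * y) * toFin (diagU x) := by
  rw [transGF, transGF, diagU, Red.toFin_upperF, Red.upperGF_mul, Red.upperGF_mul, uTrans_fixed_mul τ a v n hx]
  simp [mul_comm]

lemma loc_upperGF_one (w : HS) (X : Af F) :
    Red.loc w (upperGF 1 X : M2) = !![1, X w; 0, 1] := by
  refine Matrix.ext fun i j => ?_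
  fin_cases i <;> fin_cases j <;> rfl

lemma loc_transGF_eq_one {w : HS} (hw : ∀ k < n, (placeBelow τ)^[k] w ≠ v) (y : F) :
    Red.loc w (transGF τ a v n y : M2) = 1 := by
  rw [transGF, loc_upperGF_one, uTrans_eq_zero τ a v n hw]
  ext i j; fin_cases i <;> fin_cases j <;> rfl

lemma locHt_transGF_row1 (w : HS) (y : F) (g : GF F) :
    locHt w axRow1 (transGF τ a v n y * g) = locHt w axRow1 g := by
  have hd : detNorm w (transGF τ a v n y) = 1 := by
    rw [Ht.detNorm_eq_det, transGF, loc_upperGF_one, Matrix.det_fin_two]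
    simp
  have hr : rowAt w (axRow1 : Fin 2 → F) ᵥ* Red.loc w (transGF τ a v n y : M2) =
      rowAt w axRow1 := by
    rw [transGF, loc_upperGF_one]
    funext j
    fin_cases j <;> simp [rowAt_axRow, Matrix.vecMul, dotProduct, Fin.sum_univ_two]
  rw [locHt, locHt, Ht.detNorm_mul, hd, one_mul, rowNorm, rowNorm, Units.val_mul, Red.loc_mul,
    ← Matrix.vecMul_vecMul, hr]

/-- The element carried by a point. -/
def yOf (g : GF F) : GF F := g⁻¹ * toFin (diagU a) * gfMap τ g

lemma gamma_mul_gfMap (g : GF F) : toFin (diagU a) * gfMap τ g = g * yOf τ a g := by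
  rw [yOf, ← mul_assoc, ← mul_assoc, mul_inv_cancel, one_mul]

/-- Linked: trivial at the other places of the orbit. -/
def Linked (g : GF F) : Prop :=
  ∀ k, 0 < k → k < n → treeDist ((placeBelow τ)^[k] v) (yOf τ a g) = 0

lemma toFin_gfMap_transGF (y : F) :
    toFin (diagU a) * gfMap τ (transGF τ a v n y) =
      upperGF 1 (twAlpha τ a (uTrans τ a v n y)) * toFin (diagU a) := by
  refine Units.ext (Matrix.ext fun i j => ?_)
  rw [transGF, diagU, Red.toFin_upperF]
  fin_cases i <;> fin_cases j <;>
    simp [gfMap, upperGF, twAlpha, Matrix.mul_apply, Fin.sum_univ_two, mul_comm]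

variable {τ a v n} (h : Cyc τ n) (hd : ∀ k, 0 < k → k < n → (placeBelow τ)^[k] v ≠ v)

include h in
lemma placeBelow_iterate_n (w : HS) : (placeBelow τ)^[n] w = w := by
  have key : ∀ (k : ℕ) (x : 𝓞 F), x ∈ ((placeBelow τ)^[k] w).asIdeal ↔
      (RingOfIntegers.mapRingHom τ)^[k] x ∈ w.asIdeal := fun k => by
    induction k with
    | zero => exact fun x => Iff.rfl
    | succ k ih =>
      intro x
      rw [Function.iterate_succ_apply', show x ∈ (placeBelow τ ((placeBelow τ)^[k] w)).asIdeal ↔
        RingOfIntegers.mapRingHom τ x ∈ ((placeBelow τ)^[k] w).asIdeal from Iff.rfl, ih,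
        ← Function.iterate_succ_apply]
  refine HeightOneSpectrum.ext (Ideal.ext fun x => ?_)
  rw [key]
  have hx : ∀ k, (((RingOfIntegers.mapRingHom τ)^[k] x : 𝓞 F) : F) = (⇑τ)^[k] (x : F) := fun k => by
    induction k with
    | zero => rfl
    | succ k ih =>
      rw [Function.iterate_succ_apply', Function.iterate_succ_apply', ← ih]
      rfl
  rw [show (RingOfIntegers.mapRingHom τ)^[n] x = x from RingOfIntegers.ext (by
    rw [hx n, h.pow])]

include h hd

lemma orbit_inj {i j : ℕ} (hi : i < n) (hj : j < n)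
    (e : (placeBelow τ)^[i] v = (placeBelow τ)^[j] v) : i = j := by
  wlog hij : i ≤ j generalizing i j
  · exact (this hj hi e.symm (le_of_not_ge hij)).symm
  by_contra hne
  refine hd (j - i) (by omega) (by omega) ?_
  conv_rhs => rw [← placeBelow_iterate_n h v]
  rw [show n = (n - i) + i by omega, Function.iterate_add_apply, e, ← Function.iterate_add_apply,
    show n - i + j = (j - i) + n by omega, Function.iterate_add_apply, placeBelow_iterate_n h]

omit hd in
lemma orbit_return {i k : ℕ} (hi : i < n) (hk : k < n) {w : HS}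
    (hw : (placeBelow τ)^[k] w = v) : w = (placeBelow τ)^[(n - k) % n] v := by
  rw [← hw, ← Function.iterate_add_apply]
  rcases Nat.eq_zero_or_pos k with rfl | hk0
  · simp
  · rw [Nat.mod_eq_of_lt (by omega), Nat.sub_add_cancel hk.le, placeBelow_iterate_n h]

lemma uTrans_at (y : F) : uTrans τ a v n y v = (algebraMap F (Af F) y) v := by
  rw [uTrans_apply, Finset.sum_eq_single 0 (fun k hk hk0 => if_neg
    (hd k (Nat.pos_of_ne_zero hk0) (Finset.mem_range.1 hk)))
    (fun h0 => absurd (Finset.mem_range.2 h.odd.pos) h0), if_pos (Function.iterate_zero_apply _ _)]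
  rfl

omit hd in
/-- The defect of the translation is supported at `v`. -/
lemma twAlpha_uTrans (y : F) : twAlpha τ a (uTrans τ a v n y) = uTrans τ a v n y +
    adeleSingle v ((((nrm τ n a : F) - 1) * y : F) : v.adicCompletion F) := by
  have hlast : spread τ a v y n =
      adeleSingle v (((nrm τ n a : F) * y : F) : v.adicCompletion F) := af_ext' fun w => by
    rw [spread_apply, placeBelow_iterate_n h, twAlphaF_iterate, h.pow]
    split_ifs with hw
    · subst hw; rw [Aleph.adeleSingle_apply_self]; rfl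
    · rw [Aleph.adeleSingle_apply_ne v _ hw]
  have h0 : spread τ a v y 0 = adeleSingle v ((y : F) : v.adicCompletion F) := rfl
  have hsum : twAlpha τ a (uTrans τ a v n y) = ∑ k ∈ Finset.range n, spread τ a v y (k + 1) := by
    rw [uTrans, twAlpha, map_sum, Finset.mul_sum]
    exact Finset.sum_congr rfl fun k _ => (Function.iterate_succ_apply' (twAlpha τ a) k _).symm
  have key := (Finset.sum_range_succ' (spread τ a v y) n).symm.trans
    (Finset.sum_range_succ (spread τ a v y) n)
  rw [hsum, eq_sub_of_add_eq key, hlast, h0, ← uTrans]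
  refine af_ext' fun w => ?_
  rw [af_sub_app, af_add_app, af_add_app]
  rcases eq_or_ne w v with rfl | hw
  · rw [Aleph.adeleSingle_apply_self, Aleph.adeleSingle_apply_self, Aleph.adeleSingle_apply_self,
      ← alg_apply, ← alg_apply, ← alg_apply, sub_mul, one_mul, map_sub, af_sub_app]
    ring
  · rw [Aleph.adeleSingle_apply_ne v _ hw, Aleph.adeleSingle_apply_ne v _ hw,
      Aleph.adeleSingle_apply_ne v _ hw, sub_zero]

omit hd in
/-- Moving a point along its fibre changes the element only at `v`. -/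
lemma yOf_transGF (y : F) (g : GF F) : yOf τ a (transGF τ a v n y * g) =
    g⁻¹ * upperGF 1 (adeleSingle v ((((nrm τ n a : F) - 1) * y : F) : v.adicCompletion F)) * g *
      yOf τ a g := by
  have e : (transGF τ a v n y)⁻¹ * upperGF 1 (twAlpha τ a (uTrans τ a v n y)) =
      upperGF 1 (adeleSingle v ((((nrm τ n a : F) - 1) * y : F) : v.adicCompletion F)) := by
    rw [inv_mul_eq_iff_eq_mul, transGF, Red.upperGF_mul, twAlpha_uTrans h]
    simp [add_comm]
  rw [← e]
  simp only [yOf, map_mul, _root_.mul_inv_rev, mul_assoc]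
  rw [← mul_assoc (toFin (diagU a)), toFin_gfMap_transGF]
  simp only [mul_assoc, mul_inv_cancel_left]

omit hd in
lemma loc_defect_ne (y : F) {w : HS} (hw : w ≠ v) :
    Red.loc w (upperGF 1 (adeleSingle v
      ((((nrm τ n a : F) - 1) * y : F) : v.adicCompletion F)) : M2) = 1 := by
  rw [loc_upperGF_one, Aleph.adeleSingle_apply_ne v _ hw]
  ext i j; fin_cases i <;> fin_cases j <;> rfl

omit hd in
lemma loc_yOf_transGF (y : F) (g : GF F) {w : HS} (hw : w ≠ v) :
    Red.loc w (yOf τ a (transGF τ a v n y * g) : M2) = Red.loc w (yOf τ a g : M2) := by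
  rw [yOf_transGF h, Units.val_mul, Units.val_mul, Units.val_mul, Red.loc_mul, Red.loc_mul,
    Red.loc_mul, loc_defect_ne h y hw, mul_one, ← Red.loc_mul, ← Units.val_mul, inv_mul_cancel,
    Units.val_one, Red.loc_one, one_mul]

lemma linked_transGF (y : F) (g : GF F) :
    Linked τ a v n (transGF τ a v n y * g) ↔ Linked τ a v n g := by
  refine forall_congr' fun k => forall_congr' fun hk => forall_congr' fun hk' => ?_
  rw [treeDist_congr _ (loc_yOf_transGF h y g (hd k hk hk'))]

omit hd in
lemma away_yOf_transGF (y : F) (g : GF F) :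
    away v (yOf τ a (transGF τ a v n y * g)) = away v (yOf τ a g) := by
  refine gf_ext fun w => ?_
  rcases eq_or_ne w v with rfl | hw
  · rw [loc_away_self, loc_away_self]
  · rw [loc_away_ne v _ hw, loc_away_ne v _ hw, loc_yOf_transGF h y g hw]

omit hd in
/-- One step along the orbit. -/
lemma step_of_linked {w : HS} {g : GF F} (hw : treeDist w (yOf τ a g) = 0) :
    locHt w axRow1 g = ‖(algebraMap F (Af F) (a : F)) w‖ * locHt (placeBelow τ w) axRow1 g ∧
      pHt w g = pHt (placeBelow τ w) g := by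
  have e : ∀ r : Fin 2 → F, locHt w r g = locHt w r (toFin (diagU a) * gfMap τ g) := fun r => by
    rw [gamma_mul_gfMap, locHt_mul_zero r hw]
  have m : ∀ r : Fin 2 → F, (fun i => τ (r i)) = r → locHt w r (gfMap τ g) =
      locHt (placeBelow τ w) r g := fun r hr => by
    conv_lhs => rw [← hr]
    exact Ht.locHt_afMap τ w r g
  have m1 := m axRow1 (funext fun i => by fin_cases i <;> simp [axRow1])
  have m0 := m axRow0 (funext fun i => by fin_cases i <;> simp [axRow0])
  obtain ⟨e1, e0⟩ := locHt_diagU_mul w a (gfMap τ g)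
  refine ⟨by rw [e, e1, m1], ?_⟩
  rw [pHt, pHt, e axRow0, e axRow1, e1, e0, m0, m1]
  have := (norm_alg_pos a.ne_zero w).ne'
  field_simp

omit hd in
lemma pHt_orbit {g : GF F} (hg : Linked τ a v n g) {k : ℕ} (hk : k < n) :
    pHt ((placeBelow τ)^[k] v) g = pHt v g := by
  have key : ∀ d k, 0 < k → k + d = n → pHt ((placeBelow τ)^[k] v) g = pHt v g := by
    intro d
    induction d with
    | zero => intro k _ hk; rw [show k = n by omega, placeBelow_iterate_n h]
    | succ d ih =>
      intro k hk hkd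
      rw [(step_of_linked h (hg k hk (by omega))).2, ← Function.iterate_succ_apply' (placeBelow τ)]
      exact ih (k + 1) (by omega) (by omega)
  rcases Nat.eq_zero_or_pos k with rfl | hk0
  · rfl
  · exact key (n - k) k hk0 (by omega)

omit hd in
/-- The height of the image at `v`. -/
lemma locHt_image {g : GF F} (hg : Linked τ a v n g) :
    locHt v axRow1 (toFin (diagU a) * gfMap τ g) =
      ‖(algebraMap F (Af F) (nrm τ n a : F)) v‖ * locHt v axRow1 g := by
  have hn := h.odd.pos
  have hmap : locHt v axRow1 (gfMap τ g) = locHt (placeBelow τ v) axRow1 g := by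
    conv_lhs => rw [show (axRow1 : Fin 2 → F) = fun i => τ (axRow1 i) from
      funext fun i => by fin_cases i <;> simp [axRow1]]
    exact Ht.locHt_afMap τ v _ g
  have hit : ∀ (k : ℕ) (x : F) (w : HS), ‖(algebraMap F (Af F) ((⇑τ)^[k] x)) w‖ =
      ‖(algebraMap F (Af F) x) ((placeBelow τ)^[k] w)‖ := fun k x => by
    induction k generalizing x with
    | zero => exact fun w => rfl
    | succ k ih =>
      intro w
      rw [Function.iterate_succ_apply' (⇑τ), ← afMap_algebraMap, norm_afMap, ih,
        ← Function.iterate_succ_apply]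
  have key : ∀ k, 0 < k → k ≤ n → ‖(algebraMap F (Af F) (a : F)) v‖ *
      locHt (placeBelow τ v) axRow1 g =
        ‖(algebraMap F (Af F) (nrm τ k a : F)) v‖ * locHt ((placeBelow τ)^[k] v) axRow1 g := by
    intro k
    induction k with
    | zero => intro h0; omega
    | succ k ih =>
      intro _ hk
      rcases Nat.eq_zero_or_pos k with rfl | hk0
      · simp [nrm]
      rw [ih hk0 (by omega), (step_of_linked h (hg k hk0 (by omega))).1, coe_nrm_succ', map_mul,
        af_mul_app, norm_mul, hit, ← Function.iterate_succ_apply' (placeBelow τ)]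
      ring
  rw [(locHt_diagU_mul v a _).1, hmap, key n hn le_rfl, placeBelow_iterate_n h]

/-- Fibres: the translated points lie over the same point exactly for small translations. -/
lemma treeDist_conj_transGF {g : GF F} (hg : Linked τ a v n g) (hP : pHt v g = 1) {b : Fˣ}
    (hb : ‖(algebraMap F (Af F) (b : F)) v‖ = locHt v axRow1 g) {y : F}
    (hy : ‖(algebraMap F (Af F) y) v‖ ≤ ‖(algebraMap F (Af F) (b : F)) v‖) :
    ∀ w : HS, treeDist w (g⁻¹ * transGF τ a v n y * g) = 0 := by
  set B := (toFin (diagU b))⁻¹ * g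
  have hB : treeDist v B = 0 := treeDist_axis hP hb
  set δ := g⁻¹ * transGF τ a v n y * g
  have hv0 : treeDist v δ = 0 := by
    have e : Red.loc v (δ : M2) = Red.loc v
        ((B⁻¹ * toFin (Red.upperF 1 (y / b)) * B : GF F) : M2) := by
      have hu : Red.loc v (transGF τ a v n y : M2) =
          Red.loc v (upperGF 1 (algebraMap F (Af F) y) : M2) := by
        rw [transGF, loc_upperGF_one, loc_upperGF_one, uTrans_at h hd]
      have hconj : toFin (diagU b) * toFin (Red.upperF 1 (y / b)) * (toFin (diagU b))⁻¹ =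
          upperGF 1 (algebraMap F (Af F) y) := by
        rw [mul_inv_eq_iff_eq_mul, ← map_mul]
        rw [show upperGF 1 (algebraMap F (Af F) y) = toFin (Red.upperF 1 y) by
          rw [Red.toFin_upperF, map_one], ← map_mul, diagU, Red.upperF_mul, Red.upperF_mul]
        congr 2
        · rw [mul_comm]
        · simp [mul_div_cancel₀ y b.ne_zero]
      have hB' : B⁻¹ * toFin (Red.upperF 1 (y / b)) * B =
          g⁻¹ * upperGF 1 (algebraMap F (Af F) y) * g := by
        rw [← hconj]; simp only [B]; group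
      rw [hB']
      simp only [δ, Units.val_mul, Red.loc_mul, hu]
    rw [treeDist_congr v e, (treeDist_mul_zero hB _).1, (treeDist_mul_zero (treeDist_inv_zero hB) _).2]
    refine treeDist_eq v ?_
    have hz : ‖(algebraMap F (Af F) (y / b)) v‖ ≤ 1 := by
      rw [Ht.norm_algebraMap, map_div₀, ← Ht.norm_algebraMap, ← Ht.norm_algebraMap]
      exact (div_le_one (norm_alg_pos b.ne_zero v)).2 hy
    rw [pow_zero, locBound, Ht.detNorm_eq_det, Red.toFin_upperF, map_one, loc_upperGF_one,
      Matrix.det_fin_two]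
    generalize (algebraMap F (Af F) (y / b)) v = Z at hz ⊢
    simp [mMax, vMax, hz]
  have hstep : ∀ k, 0 < k → k < n →
      treeDist ((placeBelow τ)^[k] v) δ = treeDist ((placeBelow τ)^[k + 1] v) δ := by
    intro k hk hkn
    set w := (placeBelow τ)^[k] v
    have hw : w ≠ v := hd k hk hkn
    set y1 := yOf τ a g
    have hy1 : treeDist w y1 = 0 := hg k hk hkn
    have e : Red.loc w ((y1 * gfMap τ δ : GF F) : M2) = Red.loc w ((δ * y1 : GF F) : M2) := by
      have e1 : y1 * gfMap τ δ = g⁻¹ *
          upperGF 1 (twAlpha τ a (uTrans τ a v n y)) * g * y1 := by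
        simp only [y1, δ, yOf, map_mul, map_inv, mul_assoc, mul_inv_cancel_left]
        rw [← mul_assoc (toFin (diagU a)), toFin_gfMap_transGF]
        simp only [mul_assoc]
      have hU : (twAlpha τ a (uTrans τ a v n y)) w = uTrans τ a v n y w := by
        rw [twAlpha_uTrans h]
        rw [af_add_app, Aleph.adeleSingle_apply_ne v _ hw, add_zero]
      rw [e1]
      simp only [δ, Units.val_mul, Red.loc_mul]
      rw [transGF, loc_upperGF_one, loc_upperGF_one, hU]
    have := treeDist_congr w e
    rw [(treeDist_mul_zero hy1 _).2, (treeDist_mul_zero hy1 _).1, treeDist_gfMap,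
      ← Function.iterate_succ_apply' (placeBelow τ)] at this
    exact this.symm
  intro w
  by_cases hw : ∃ k < n, (placeBelow τ)^[k] v = w
  · obtain ⟨k, hk, rfl⟩ := hw
    have key : ∀ d k, 0 < k → k + d = n → treeDist ((placeBelow τ)^[k] v) δ = 0 := by
      intro d
      induction d with
      | zero => intro k _ hk; rw [show k = n by omega, placeBelow_iterate_n h]; exact hv0
      | succ d ih =>
        intro k hk hkd
        rw [hstep k hk (by omega)]
        exact ih (k + 1) (by omega) (by omega)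
    rcases Nat.eq_zero_or_pos k with rfl | hk0
    · exact hv0
    · exact key (n - k) k hk0 (by omega)
  · have hno : ∀ k < n, (placeBelow τ)^[k] w ≠ v := fun k hk e => hw
      ⟨(n - k) % n, Nat.mod_lt _ h.odd.pos, (orbit_return h h.odd.pos hk e).symm⟩
    refine (treeDist_congr w (h := (1 : GF F)) ?_).trans (treeDist_eq w (by
      rw [pow_zero, locBound_UZ w (one_mem (UZ F 1))]))
    simp only [δ, Units.val_mul, Red.loc_mul, loc_transGF_eq_one τ a v n hno, mul_one, Units.val_one,
      Red.loc_one]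
    rw [← Red.loc_mul, ← Units.val_mul, inv_mul_cancel, Units.val_one, Red.loc_one]

/-- The profile of the product of the heights along a fibre. -/
lemma pHt_transGF {g : GF F} (hP : pHt v g = 1) {b : Fˣ}
    (hb : ‖(algebraMap F (Af F) (b : F)) v‖ = locHt v axRow1 g) (y : F) :
    pHt v (transGF τ a v n y * g) =
      (‖(algebraMap F (Af F) (b : F)) v‖ /
        max ‖(algebraMap F (Af F) (b : F)) v‖ ‖(algebraMap F (Af F) y) v‖) ^ 2 := by
  set B := (toFin (diagU b))⁻¹ * g
  have hB : treeDist v B = 0 := treeDist_axis hP hb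
  set γ := Red.upperF b y
  have hloc : Red.loc v ((transGF τ a v n y * g : GF F) : M2) =
      Red.loc v ((toFin γ * B : GF F) : M2) := by
    have e : toFin γ * B = upperGF 1 (algebraMap F (Af F) y) * g := by
      rw [show γ = Red.upperF 1 y * diagU b by rw [diagU, Red.upperF_mul]; simp [γ], map_mul,
        show toFin (Red.upperF 1 y) = upperGF 1 (algebraMap F (Af F) y) by
          rw [Red.toFin_upperF, map_one]]
      simp only [B, mul_assoc, mul_inv_cancel_left]
    rw [e, Units.val_mul, Units.val_mul, Red.loc_mul, Red.loc_mul, transGF, loc_upperGF_one,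
      loc_upperGF_one, uTrans_at h hd]
  have hr : ∀ r, locHt v r (transGF τ a v n y * g) =
      ‖(algebraMap F (Af F) (b : F)) v‖ / vMax (rowAt v (r ᵥ* (γ : M2F))) ^ 2 := fun r => by
    rw [locHt_congr v r hloc, locHt_mul_zero r hB, ← mul_one (toFin γ), Ht.locHt_toFin_mul,
      locHt_one, GeneralLinearGroup.val_det_apply, ← div_eq_mul_inv]
    congr 3
    simp [γ, Red.upperF, Matrix.det_fin_two]
  rw [pHt, hr, hr,
    show (axRow0 : Fin 2 → F) ᵥ* (γ : M2F) = ![(b : F), y] from funext fun i => by
      fin_cases i <;> simp [γ, Red.upperF, axRow0, Matrix.vecMul, dotProduct, Fin.sum_univ_two],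
    show (axRow1 : Fin 2 → F) ᵥ* (γ : M2F) = ![0, 1] from funext fun i => by
      fin_cases i <;> simp [γ, Red.upperF, axRow1, Matrix.vecMul, dotProduct, Fin.sum_univ_two]]
  have hv1 : vMax (rowAt v (![0, 1] : Fin 2 → F)) = 1 := by
    simp [vMax, show (![0, 1] : Fin 2 → F) = axRow1 from rfl, rowAt_axRow]
  rw [hv1, one_pow, div_one, div_pow, vMax, rowAt, rowAt]
  simp only [Matrix.cons_val_zero, Matrix.cons_val_one, Matrix.cons_val_fin_one]
  ring

/-- The distance at `v` along a fibre. -/
lemma treeDist_yOf_transGF {g : GF F} (hg : Linked τ a v n g) (hP : pHt v g = 1) {b : Fˣ}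
    (hb : ‖(algebraMap F (Af F) (b : F)) v‖ = locHt v axRow1 g) (y : F) :
    treeDist v (yOf τ a (transGF τ a v n y * g)) =
      treeDist v (toFin (Red.upperF (nrm τ n a) (((nrm τ n a : F) - 1) * y / b))) := by
  set t := nrm τ n a
  set B := (toFin (diagU b))⁻¹ * g
  have hB : treeDist v B = 0 := treeDist_axis hP hb
  set B' := (toFin (diagU (b * t)))⁻¹ * (toFin (diagU a) * gfMap τ g)
  have hP' : pHt v (toFin (diagU a) * gfMap τ g) = 1 := by
    rw [pHt_diagU_mul]
    have e : ∀ r : Fin 2 → F, (fun i => τ (r i)) = r →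
        locHt v r (gfMap τ g) = locHt (placeBelow τ v) r g := fun r hr => by
      conv_lhs => rw [← hr]
      exact Ht.locHt_afMap τ v r g
    rw [pHt, e axRow0 (funext fun i => by fin_cases i <;> simp [axRow0]),
      e axRow1 (funext fun i => by fin_cases i <;> simp [axRow1])]
    rcases eq_or_lt_of_le (Nat.one_le_iff_ne_zero.2 h.odd.pos.ne') with h1 | h1
    · have := placeBelow_iterate_n h v
      rw [← h1, Function.iterate_one] at this
      rw [this]; exact hP
    · have := pHt_orbit h hg h1
      rw [Function.iterate_one] at this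
      exact this.trans hP
  have hB' : treeDist v B' = 0 := treeDist_axis hP' (by
    rw [Units.val_mul, map_mul, af_mul_app, norm_mul, hb, locHt_image h hg, mul_comm])
  have e : Red.loc v (yOf τ a (transGF τ a v n y * g) : M2) = Red.loc v
      ((B⁻¹ * toFin (Red.upperF t (((t : F) - 1) * y / b)) * B' : GF F) : M2) := by
    have hy : yOf τ a g = g⁻¹ * toFin (diagU (b * t)) * B' := by
      simp only [B', yOf, mul_assoc, mul_inv_cancel_left]
    have hmid : (toFin (diagU b))⁻¹ * upperGF 1 (algebraMap F (Af F) (((t : F) - 1) * y)) *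
        toFin (diagU (b * t)) = toFin (Red.upperF t (((t : F) - 1) * y / b)) := by
      rw [mul_assoc, inv_mul_eq_iff_eq_mul,
        show upperGF 1 (algebraMap F (Af F) (((t : F) - 1) * y)) =
          toFin (Red.upperF 1 (((t : F) - 1) * y)) by rw [Red.toFin_upperF, map_one],
        ← map_mul, ← map_mul, diagU, diagU, Red.upperF_mul, Red.upperF_mul]
      congr 2
      · rw [one_mul]
      · simp [mul_div_cancel₀ _ b.ne_zero]
    have hB2 : B⁻¹ * toFin (Red.upperF t (((t : F) - 1) * y / b)) * B' =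
        g⁻¹ * upperGF 1 (algebraMap F (Af F) (((t : F) - 1) * y)) * g * yOf τ a g := by
      rw [← hmid, hy]; simp only [B]; group
    rw [hB2, yOf_transGF h]
    simp only [Units.val_mul, Red.loc_mul, loc_upperGF_one, Aleph.adeleSingle_apply_self]
    rfl
  rw [treeDist_congr v e, (treeDist_mul_zero hB' _).1, (treeDist_mul_zero (treeDist_inv_zero hB) _).2]

/-- Every linked point moves to the axis. -/
lemma exists_axis (g : GF F) : ∃ y : F, pHt v (transGF τ a v n y * g) = 1 := by
  set A := Red.loc v (g : M2)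
  have hdet : 0 < ‖A.det‖ := Ht.detNorm_eq_det v g ▸ Ht.detNorm_pos v g
  obtain ⟨j, hj⟩ : ∃ j, ‖A 1 j‖ = vMax (A 1) := by
    rcases max_choice ‖A 1 0‖ ‖A 1 1‖ with hh | hh
    · exact ⟨0, hh.symm⟩
    · exact ⟨1, hh.symm⟩
  have hpos : 0 < vMax (A 1) := by
    by_contra h0
    have := (Ht.norm_det_le A).trans (mul_nonpos_of_nonneg_of_nonpos (Ht.vMax_nonneg _) (not_lt.1 h0))
    exact this.not_gt hdet
  have hj0 : A 1 j ≠ 0 := fun h0 => by rw [h0, norm_zero] at hj; exact hpos.ne hj
  set z := -(A 0 j) / A 1 j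
  have hdense : DenseRange (fun x : F => (x : v.adicCompletion F)) :=
    HeightOneSpectrum.denseRange_algebraMap F _
  obtain ⟨y, hy⟩ := hdense.exists_dist_lt z (div_pos hdet (pow_pos hpos 2))
  rw [dist_eq_norm] at hy
  refine ⟨y, ?_⟩
  set M := Red.loc v ((transGF τ a v n y * g : GF F) : M2)
  have hM0 : ∀ i, M 0 i = A 0 i + (y : v.adicCompletion F) * A 1 i := fun i => by
    simp only [M, A, transGF, Units.val_mul, Red.loc_mul, loc_upperGF_one, uTrans_at h hd, alg_apply]
    rw [Matrix.mul_apply, Fin.sum_univ_two]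
    simp only [Matrix.of_apply, Matrix.cons_val_zero, Matrix.cons_val_one, Matrix.cons_val_fin_one, one_mul]
  have hM1 : ∀ i, M 1 i = A 1 i := fun i => by
    simp only [M, A, transGF, Units.val_mul, Red.loc_mul, loc_upperGF_one]
    rw [Matrix.mul_apply, Fin.sum_univ_two]
    simp only [Matrix.of_apply, Matrix.cons_val_zero, Matrix.cons_val_one, Matrix.cons_val_fin_one, zero_mul, one_mul, zero_add]
  have hMdet : ‖M.det‖ = ‖A.det‖ := by
    rw [Matrix.det_fin_two, Matrix.det_fin_two, hM0, hM0, hM1, hM1]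
    congr 1; ring
  have hle : vMax (M 0) * vMax (A 1) ≤ ‖A.det‖ := by
    have hi : ∀ i, ‖M 0 i‖ * vMax (A 1) ≤ ‖A.det‖ := fun i => by
      have e : M 0 i = (A 0 i + z * A 1 i) + ((y : v.adicCompletion F) - z) * A 1 i := by
        rw [hM0]; ring
      have h1 : ‖A 0 i + z * A 1 i‖ * vMax (A 1) ≤ ‖A.det‖ := by
        rw [← hj, ← norm_mul]
        have : (A 0 i + z * A 1 i) * A 1 j = A 0 i * A 1 j - A 0 j * A 1 i := by
          simp only [z]; field_simp; ring
        rw [this]
        fin_cases i <;> fin_cases j <;> simp [Matrix.det_fin_two, norm_sub_rev, mul_comm]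
      have h2 : ‖((y : v.adicCompletion F) - z) * A 1 i‖ * vMax (A 1) ≤ ‖A.det‖ := by
        rw [norm_mul, norm_sub_rev, mul_assoc]
        calc ‖z - (y : v.adicCompletion F)‖ * (‖A 1 i‖ * vMax (A 1))
            ≤ ‖A.det‖ / vMax (A 1) ^ 2 * (vMax (A 1) * vMax (A 1)) :=
              mul_le_mul hy.le (mul_le_mul_of_nonneg_right (Ht.norm_le_vMax _ _) hpos.le)
                (mul_nonneg (norm_nonneg _) hpos.le) (div_nonneg hdet.le (sq_nonneg _))
          _ = ‖A.det‖ := by field_simp
      rw [e]
      refine (mul_le_mul_of_nonneg_right (Ht.norm_add_le_max _ _) hpos.le).trans ?_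
      rw [max_mul_of_nonneg _ _ hpos.le]
      exact max_le h1 h2
    rw [vMax, max_mul_of_nonneg _ _ hpos.le]
    exact max_le (hi 0) (hi 1)
  have hge := Ht.norm_det_le M
  rw [hMdet, show vMax (M 1) = vMax (A 1) from congrArg vMax (funext hM1)] at hge
  have hrow : ∀ (r : Fin 2 → F) (i : Fin 2), (∀ k, r k = if k = i then 1 else 0) →
      locHt v r (transGF τ a v n y * g) = ‖A.det‖ / vMax (M i) ^ 2 := fun r i hr => by
    rw [locHt, rowNorm, Ht.detNorm_eq_det, hMdet]
    congr 3
    funext k
    fin_cases i <;>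
      simp [rowAt, hr, M, Matrix.vecMul, dotProduct, Fin.sum_univ_two, af_one_app, af_zero_app, map_one, map_zero]
  rw [pHt, hrow axRow0 0 (fun k => by fin_cases k <;> simp [axRow0]),
    hrow axRow1 1 (fun k => by fin_cases k <;> simp [axRow1]),
    show vMax (M 1) = vMax (A 1) from congrArg vMax (funext hM1)]
  have heq : vMax (M 0) * vMax (A 1) = ‖A.det‖ := le_antisymm hle hge
  have h0 : vMax (M 0) ≠ 0 := fun h0 => by rw [h0, zero_mul] at heq; exact hdet.ne heq
  rw [← heq]
  field_simp

end FLTAgent.LT.HypTree
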