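import Mathlib

/-!
Radial functions on the regular tree of valency `q + 1`: damping by `1 - (T / (q + 1))²` tends to
zero in the two sums met by the hyperbolic terms. The change of variables
`F m = (√q)^m (G m - G (m + 2))`, `G m = Σ q^l h (m + 2 l)` turns `T` into a random walk on `ℤ`.
-/

set_option autoImplicit false
set_option linter.style.haveILetI false
set_option linter.unusedSectionVars false

noncomputable section

namespace FLTAgent.LT.HypTree

open Filter MeasureTheory
open scoped Topology Real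

/-- The adjacency operator on radial functions. -/
def hop (q : ℝ) (h : ℕ → ℝ) : ℕ → ℝ
  | 0 => (q + 1) * h 1
  | D + 1 => q * h (D + 2) + h D

/-- The radial profile after damping `J` times. -/
def profile (q : ℝ) : ℕ → ℕ → ℝ
  | 0 => fun D => if D = 0 then 1 else 0
  | J + 1 => fun D => profile q J D - hop q (hop q (profile q J)) D / (q + 1) ^ 2

variable {q : ℝ}

lemma profile_eq_zero (q : ℝ) : ∀ J D : ℕ, 2 * J < D → profile q J D = 0
  | 0, D, h => if_neg (by omega)
  | J + 1, D, h => by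
    obtain ⟨D, rfl⟩ : ∃ D', D = D' + 2 := ⟨D - 2, by omega⟩
    simp only [profile, hop]
    rw [profile_eq_zero q J (D + 2) (by omega), profile_eq_zero q J (D + 2 + 2) (by omega),
      profile_eq_zero q J D (by omega)]
    ring

/-- `G m = Σ q^l h (m + 2 l)`. -/
def gSum (q : ℝ) (h : ℕ → ℝ) (m : ℕ) : ℝ := ∑' l : ℕ, q ^ l * h (m + 2 * l)

/-- `F m = (√q)^m (G m - G (m + 2))`. -/
def fTr (q : ℝ) (h : ℕ → ℝ) (m : ℕ) : ℝ := Real.sqrt q ^ m * (gSum q h m - gSum q h (m + 2))

lemma summable_of_bound {f : ℕ → ℝ} {K : ℕ} (hf : ∀ l, K ≤ l → f l = 0) : Summable f :=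
  summable_of_ne_finset_zero (s := Finset.range K) fun l hl => hf l (not_lt.1 (by simpa using hl))

lemma gSum_eq {h : ℕ → ℝ} {K : ℕ} (hK : ∀ D, K < D → h D = 0) (m : ℕ) :
    gSum q h m = h m + q * gSum q h (m + 2) := by
  rw [gSum, (summable_of_bound (K := K + 1) fun l hl => by
    rw [hK _ (by omega), mul_zero]).tsum_eq_zero_add, gSum, ← tsum_mul_left]
  simp only [pow_zero, one_mul, mul_zero, add_zero]
  congr 1
  refine tsum_congr fun l => ?_
  rw [show m + 2 * (l + 1) = m + 2 + 2 * l by omega, pow_succ]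
  ring

lemma gSum_hop {h : ℕ → ℝ} {K : ℕ} (hK : ∀ D, K < D → h D = 0) (m : ℕ) :
    gSum q (hop q h) (m + 1) = q * gSum q h (m + 2) + gSum q h m := by
  have hs : ∀ a : ℕ, Summable fun l => q ^ l * h (a + 2 * l) := fun a =>
    summable_of_bound (K := K + 1) fun l hl => by rw [hK _ (by omega), mul_zero]
  rw [gSum, gSum, gSum, ← tsum_mul_left, ← ((hs (m + 2)).mul_left q).tsum_add (hs m)]
  refine tsum_congr fun l => ?_
  rw [show m + 1 + 2 * l = m + 2 * l + 1 by omega, hop, show m + 2 * l + 2 = m + 2 + 2 * l by omega]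
  ring

lemma gSum_hop_zero {h : ℕ → ℝ} {K : ℕ} (hK : ∀ D, K < D → h D = 0) :
    gSum q (hop q h) 0 = h 1 + 2 * q * gSum q h 1 := by
  have h' : ∀ D, K + 1 < D → hop q h D = 0 := fun D hD => by
    obtain ⟨D, rfl⟩ : ∃ D', D = D' + 1 := ⟨D - 1, by omega⟩
    rw [hop, hK _ (by omega), hK _ (by omega), mul_zero, add_zero]
  rw [gSum_eq h', zero_add, gSum_hop hK, gSum_eq hK 1, hop]
  ring

lemma fTr_hop (hq : 0 ≤ q) {h : ℕ → ℝ} {K : ℕ} (hK : ∀ D, K < D → h D = 0) (m : ℕ) :
    fTr q (hop q h) (m + 1) = Real.sqrt q * (fTr q h (m + 2) + fTr q h m) := by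
  simp only [fTr]
  rw [gSum_hop hK m, show m + 1 + 2 = (m + 2) + 1 by omega, gSum_hop hK (m + 2)]
  have hs := Real.mul_self_sqrt hq
  linear_combination (-(Real.sqrt q ^ (m + 1) * (gSum q h (m + 2) - gSum q h (m + 2 + 2)))) * hs

lemma fTr_hop_zero (hq : 0 ≤ q) {h : ℕ → ℝ} {K : ℕ} (hK : ∀ D, K < D → h D = 0) :
    fTr q (hop q h) 0 = 2 * Real.sqrt q * fTr q h 1 := by
  simp only [fTr]
  rw [gSum_hop_zero hK, show 0 + 2 = 1 + 1 from rfl, gSum_hop hK 1, gSum_eq hK 1]
  have hs := Real.mul_self_sqrt hq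
  linear_combination (-(2 * (h 1 + q * gSum q h (1 + 2) - gSum q h (1 + 2)))) * hs

/-- The walk on `ℤ`. -/
def walk (q : ℝ) : ℕ → ℤ → ℝ
  | 0 => fun i => if i = 0 then 1 else 0
  | J + 1 => fun i =>
    walk q J i - q / (q + 1) ^ 2 * (walk q J (i + 2) + 2 * walk q J i + walk q J (i - 2))

lemma walk_neg (q : ℝ) : ∀ (J : ℕ) (i : ℤ), walk q J (-i) = walk q J i
  | 0, i => by simp [walk]
  | J + 1, i => by
    simp only [walk]
    rw [show -i + 2 = -(i - 2) by ring, show -i - 2 = -(i + 2) by ring, walk_neg q J, walk_neg q J,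
      walk_neg q J]
    ring

lemma walk_eq_zero (q : ℝ) : ∀ (J : ℕ) (i : ℤ), 2 * J < i.natAbs → walk q J i = 0
  | 0, i, h => if_neg (by rintro rfl; simp at h)
  | J + 1, i, h => by
    simp only [walk]
    rw [walk_eq_zero q J i (by omega), walk_eq_zero q J (i + 2) (by omega),
      walk_eq_zero q J (i - 2) (by omega)]
    ring

lemma hop_eq_zero (q : ℝ) {h : ℕ → ℝ} {K : ℕ} (hK : ∀ D, K < D → h D = 0) :
    ∀ D, K + 1 < D → hop q h D = 0 := fun D hD => by
  obtain ⟨D, rfl⟩ : ∃ D', D = D' + 1 := ⟨D - 1, by omega⟩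
  rw [hop, hK _ (by omega), hK _ (by omega), mul_zero, add_zero]

lemma fTr_sub {h g : ℕ → ℝ} {K : ℕ} (hK : ∀ D, K < D → h D = 0) (hK' : ∀ D, K < D → g D = 0)
    (c : ℝ) (m : ℕ) : fTr q (fun D => h D - g D * c) m = fTr q h m - fTr q g m * c := by
  have e : ∀ a, gSum q (fun D => h D - g D * c) a = gSum q h a - gSum q g a * c := fun a => by
    have h1 : Summable fun l => q ^ l * h (a + 2 * l) :=
      summable_of_bound (K := K + 1) fun l hl => by rw [hK _ (by omega), mul_zero]
    have h2 : Summable fun l => q ^ l * g (a + 2 * l) :=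
      summable_of_bound (K := K + 1) fun l hl => by rw [hK' _ (by omega), mul_zero]
    rw [gSum, gSum, gSum, ← tsum_mul_right, ← h1.tsum_sub (h2.mul_right c)]
    exact tsum_congr fun l => by ring
  simp only [fTr, e]
  ring

/-- The transform of the profile is the walk. -/
lemma fTr_profile (hq : 0 < q) : ∀ J m : ℕ, fTr q (profile q J) m = walk q J m
  | 0, m => by
    have e : ∀ a, gSum q (profile q 0) a = if a = 0 then 1 else 0 := fun a => by
      rw [gSum, tsum_eq_single 0 fun l hl => by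
        rw [show profile q 0 (a + 2 * l) = 0 from if_neg (by omega), mul_zero]]
      simp [profile]
    simp only [fTr, e, walk]
    rcases eq_or_ne m 0 with rfl | hm
    · simp
    · simp [hm]
  | J + 1, m => by
    set h := profile q J with hdef
    have hK : ∀ D, 2 * J + 2 < D → h D = 0 := fun D hD => profile_eq_zero q J D (by omega)
    have h1 : ∀ D, 2 * J + 3 < D → hop q h D = 0 := hop_eq_zero q hK
    have h2 : ∀ D, 2 * J + 4 < D → hop q (hop q h) D = 0 := hop_eq_zero q h1
    have e : profile q (J + 1) = fun D => h D - hop q (hop q h) D * ((q + 1) ^ 2)⁻¹ :=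
      funext fun D => by simp only [profile, div_eq_mul_inv]; rfl
    rw [e, fTr_sub (K := 2 * J + 4) (fun D hD => hK D (by omega)) h2]
    have key : fTr q (hop q (hop q h)) m =
        q * (walk q J ((m : ℤ) + 2) + 2 * walk q J m + walk q J ((m : ℤ) - 2)) := by
      have hs := Real.mul_self_sqrt hq.le
      match m with
      | 0 =>
        rw [fTr_hop_zero hq.le h1, fTr_hop hq.le hK, hdef, fTr_profile hq J, fTr_profile hq J]
        have := walk_neg q J 2
        norm_num at this ⊢
        rw [this]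
        linear_combination (2 * (walk q J 2 + walk q J 0)) * hs
      | 1 =>
        rw [fTr_hop hq.le h1, fTr_hop hq.le hK, fTr_hop_zero hq.le hK, hdef, fTr_profile hq J,
          fTr_profile hq J]
        have := walk_neg q J 1
        norm_num at this ⊢
        rw [this]
        linear_combination (walk q J 3 + 3 * walk q J 1) * hs
      | m + 2 =>
        rw [fTr_hop hq.le h1, fTr_hop hq.le hK, fTr_hop hq.le hK, hdef, fTr_profile hq J,
          fTr_profile hq J, fTr_profile hq J]
        push_cast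
        rw [show (m : ℤ) + 2 + 2 = m + 4 by ring, show (m : ℤ) + 2 - 2 = m by ring]
        linear_combination (walk q J (m + 4) + 2 * walk q J (m + 2) + walk q J m) * hs
    rw [key, hdef, fTr_profile hq J]
    simp only [walk]
    ring

lemma ratio_mem (hq : 1 < q) : 0 < q / (q + 1) ^ 2 ∧ 4 * (q / (q + 1) ^ 2) < 1 := by
  refine ⟨by positivity, ?_⟩
  rw [mul_div_assoc', div_lt_one (by positivity)]
  nlinarith [sq_pos_of_pos (sub_pos.2 hq)]

/-- The symbol of one step. -/
def symbolFn (q : ℝ) (θ : ℝ) : ℝ := 1 - 4 * (q / (q + 1) ^ 2) * Real.cos θ ^ 2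

lemma walk_eq_integral (q : ℝ) : ∀ (J : ℕ) (i : ℤ),
    2 * π * walk q J i = ∫ θ in (0 : ℝ)..(2 * π), symbolFn q θ ^ J * Real.cos (i * θ)
  | 0, i => by
    rcases eq_or_ne i 0 with rfl | hi
    · simp [walk]
    · simp only [walk, if_neg hi, mul_zero, pow_zero, one_mul]
      rw [intervalIntegral.integral_comp_mul_left Real.cos (Int.cast_ne_zero.2 hi), integral_cos]
      have : Real.sin ((i : ℝ) * (2 * π)) = 0 := by
        rw [show (i : ℝ) * (2 * π) = ((2 * i : ℤ) : ℝ) * π by push_cast; ring]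
        exact Real.sin_int_mul_pi _
      simp [this]
  | J + 1, i => by
    have hi : ∀ k : ℤ, IntervalIntegrable (fun θ => symbolFn q θ ^ J * Real.cos (k * θ)) volume 0
        (2 * π) := fun k => Continuous.intervalIntegrable (by unfold symbolFn; fun_prop) _ _
    set c := q / (q + 1) ^ 2
    have e : ∀ θ, symbolFn q θ ^ (J + 1) * Real.cos (i * θ) =
        symbolFn q θ ^ J * Real.cos (i * θ) - c * (symbolFn q θ ^ J * Real.cos (((i + 2 : ℤ) : ℝ) * θ)
          + 2 * (symbolFn q θ ^ J * Real.cos (i * θ)) +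
            symbolFn q θ ^ J * Real.cos (((i - 2 : ℤ) : ℝ) * θ)) := fun θ => by
      push_cast
      rw [add_mul, sub_mul, Real.cos_add, Real.cos_sub, Real.cos_two_mul, pow_succ]
      simp only [symbolFn, c]
      ring
    simp_rw [e]
    rw [intervalIntegral.integral_sub (hi i) ((((hi _).add ((hi i).const_mul 2)).add (hi _)).const_mul c),
      intervalIntegral.integral_const_mul, intervalIntegral.integral_add ((hi _).add ((hi i).const_mul 2))
      (hi _), intervalIntegral.integral_add (hi _) ((hi i).const_mul 2),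
      intervalIntegral.integral_const_mul, ← walk_eq_integral q J, ← walk_eq_integral q J,
      ← walk_eq_integral q J]
    simp only [walk, c]
    ring

lemma abs_symbolFn_le (hq : 1 < q) (θ : ℝ) : |symbolFn q θ| ≤ 1 := by
  obtain ⟨h0, h1⟩ := ratio_mem hq
  have := Real.cos_sq_le_one θ
  rw [abs_le, symbolFn]
  constructor <;> nlinarith [sq_nonneg (Real.cos θ)]

/-- The walk tends to zero uniformly. -/
lemma exists_walk_bound (hq : 1 < q) :
    ∃ ε : ℕ → ℝ, Tendsto ε atTop (𝓝 0) ∧ ∀ J i, |walk q J i| ≤ ε J := by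
  refine ⟨fun J => (2 * π)⁻¹ * ∫ θ in (0 : ℝ)..(2 * π), |symbolFn q θ| ^ J, ?_, fun J i => ?_⟩
  · suffices h : Tendsto (fun J : ℕ => ∫ θ in (0 : ℝ)..(2 * π), |symbolFn q θ| ^ J) atTop
        (𝓝 (∫ _θ in (0 : ℝ)..(2 * π), (0 : ℝ))) by
      simpa using h.const_mul (2 * π)⁻¹
    refine intervalIntegral.tendsto_integral_filter_of_dominated_convergence (fun _ => 1)
      (Eventually.of_forall fun J => (Continuous.aestronglyMeasurable (by unfold symbolFn; fun_prop)))
      (Eventually.of_forall fun J => ae_of_all _ fun θ _ => ?_) intervalIntegrable_const ?_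
    · rw [Real.norm_eq_abs, abs_pow, abs_abs]
      exact pow_le_one₀ (abs_nonneg _) (abs_symbolFn_le hq θ)
    · have hnull : ∀ᵐ θ : ℝ, Real.cos θ ≠ 0 := by
        refine (Set.Countable.ae_notMem ?_ volume).mono fun θ h => h
        exact (Set.countable_range fun k : ℤ => (2 * k + 1 : ℝ) * π / 2).mono fun θ hθ => by
          obtain ⟨k, hk⟩ := Real.cos_eq_zero_iff.1 hθ
          exact ⟨k, hk.symm⟩
      filter_upwards [hnull] with θ hθ _
      refine tendsto_pow_atTop_nhds_zero_of_lt_one (abs_nonneg _) ?_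
      obtain ⟨h0, h1⟩ := ratio_mem hq
      have := Real.cos_sq_le_one θ
      have hpos : 0 < Real.cos θ ^ 2 := by positivity
      rw [abs_lt, symbolFn]
      constructor <;> nlinarith
  · rw [← mul_le_mul_iff_of_pos_left Real.two_pi_pos, mul_inv_cancel_left₀ Real.two_pi_pos.ne',
      ← abs_of_pos Real.two_pi_pos, ← abs_mul, walk_eq_integral, abs_of_pos Real.two_pi_pos]
    refine (intervalIntegral.abs_integral_le_integral_abs Real.two_pi_pos.le).trans
      (intervalIntegral.integral_mono_on Real.two_pi_pos.le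
        (Continuous.intervalIntegrable (by unfold symbolFn; fun_prop) _ _)
        (Continuous.intervalIntegrable (by unfold symbolFn; fun_prop) _ _) fun θ _ => ?_)
    rw [abs_mul, abs_pow]
    exact mul_le_of_le_one_right (pow_nonneg (abs_nonneg _) _) (Real.abs_cos_le_one _)

lemma summable_walk (q : ℝ) (J : ℕ) (a : ℤ) : Summable fun k : ℤ => walk q J (a + 2 * k) := by
  refine summable_of_ne_finset_zero (s := Finset.Icc (-((a.natAbs : ℤ) + 2 * J)) (a.natAbs + 2 * J)) fun k hk => ?_
  refine walk_eq_zero q J _ ?_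
  simp only [Finset.mem_Icc, not_and_or, not_le] at hk
  omega

/-- The sum over a parity class. -/
lemma tsum_walk (q : ℝ) (a : ℤ) : ∀ J : ℕ, ∑' k : ℤ, walk q J (a + 2 * k) =
    (1 - 4 * (q / (q + 1) ^ 2)) ^ J * ∑' k : ℤ, walk q 0 (a + 2 * k)
  | 0 => by simp
  | J + 1 => by
    set c := q / (q + 1) ^ 2
    set f := fun k : ℤ => walk q J (a + 2 * k)
    have hf : Summable f := summable_walk q J a
    have hshift : ∀ d : ℤ, (Summable fun k => f (k + d)) ∧ ∑' k, f (k + d) = ∑' k, f k :=
      fun d => ⟨hf.comp_injective (add_left_injective d), (Equiv.addRight d).tsum_eq f⟩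
    have e : ∀ k, walk q (J + 1) (a + 2 * k) = f k - c * (f (k + 1) + 2 * f k + f (k + -1)) :=
      fun k => by
      simp only [walk, f, c]
      ring_nf
    simp_rw [e]
    have hA := ((hshift 1).1.add (hf.mul_left 2))
    have hB := (hA.add (hshift (-1)).1).mul_left c
    rw [hf.tsum_sub hB, tsum_mul_left, hA.tsum_add (hshift (-1)).1,
      (hshift 1).1.tsum_add (hf.mul_left 2), (hshift 1).2, (hshift (-1)).2, tsum_mul_left,
      pow_succ, show (1 - 4 * c) ^ J * (1 - 4 * c) * ∑' k : ℤ, walk q 0 (a + 2 * k) =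
        (1 - 4 * c) * ((1 - 4 * c) ^ J * ∑' k : ℤ, walk q 0 (a + 2 * k)) by ring,
      ← tsum_walk q a J]
    ring

/-- The sum of one side of a parity class tends to zero. -/
lemma tendsto_walk_side (hq : 1 < q) (m : ℕ) :
    Tendsto (fun J => ∑' k : ℕ, walk q J ((m : ℤ) + 2 * (k + 1))) atTop (𝓝 0) := by
  obtain ⟨ε, hε, hbd⟩ := exists_walk_bound hq
  have hsplit : ∀ J, ∑' k : ℕ, walk q J ((m : ℤ) + 2 * (k + 1)) =
      (∑' k : ℤ, walk q J ((m : ℤ) + 2 * k) -
        ∑ i ∈ Finset.range (m + 1), walk q J ((m : ℤ) - 2 * i)) / 2 := by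
    intro J
    set g := fun k : ℤ => walk q J ((m : ℤ) + 2 * k)
    have hs : Summable g := summable_walk q J m
    have hp : Summable fun k : ℕ => g (k + 1) := hs.comp_injective (fun a b h => by simpa using h)
    have hn : Summable fun k : ℕ => g (-(k + 1)) := hs.comp_injective (fun a b h => by simpa using h)
    rw [tsum_of_add_one_of_neg_add_one (f := g) hp hn]
    have e : ∑' k : ℕ, g (-(k + 1)) = ∑ i ∈ Finset.range m, g (-((i : ℕ) + 1)) +
        ∑' k : ℕ, g (k + 1) := by
      rw [← hn.sum_add_tsum_nat_add m]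
      congr 1
      refine tsum_congr fun k => ?_
      simp only [g]
      rw [← walk_neg]
      push_cast
      ring_nf
    rw [e, Finset.sum_range_succ']
    simp only [g]
    push_cast
    ring_nf
  simp_rw [hsplit]
  obtain ⟨h0, h1⟩ := ratio_mem hq
  have ht : Tendsto (fun J => ∑' k : ℤ, walk q J ((m : ℤ) + 2 * k)) atTop (𝓝 0) := by
    refine Tendsto.congr (fun J => (tsum_walk q (m : ℤ) J).symm) ?_
    have := (tendsto_pow_atTop_nhds_zero_of_lt_one (r := 1 - 4 * (q / (q + 1) ^ 2)) (by linarith)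
      (by linarith)).mul_const (∑' k : ℤ, walk q 0 ((m : ℤ) + 2 * k))
    rwa [zero_mul] at this
  have hsum : Tendsto (fun J => ∑ i ∈ Finset.range (m + 1), walk q J ((m : ℤ) - 2 * i)) atTop
      (𝓝 0) := by
    rw [← Finset.sum_const_zero (s := Finset.range (m + 1))]
    exact tendsto_finsetSum _ fun i _ => squeeze_zero_norm (fun J => hbd J _) hε
  simpa using (ht.sub hsum).div_const 2

lemma gSum_eq_tsum (hq : 0 < q) (J m : ℕ) :
    gSum q (profile q J) m = ∑' i : ℕ, walk q J ((m + 2 * i : ℕ) : ℤ) / Real.sqrt q ^ (m + 2 * i) := by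
  set h := profile q J
  have hz : ∀ a, 2 * J < a → gSum q h a = 0 := fun a ha => by
    rw [gSum]
    refine (tsum_congr fun l => ?_).trans tsum_zero
    rw [show h (a + 2 * l) = 0 from profile_eq_zero q J _ (by omega), mul_zero]
  have e : ∀ i, walk q J ((m + 2 * i : ℕ) : ℤ) / Real.sqrt q ^ (m + 2 * i) =
      gSum q h (m + 2 * i) - gSum q h (m + 2 * (i + 1)) := fun i => by
    rw [← fTr_profile hq, fTr, mul_div_cancel_left₀ _ (pow_ne_zero _ (Real.sqrt_pos.2 hq).ne')]
    rfl
  rw [tsum_congr e, tsum_eq_sum (s := Finset.range (J + 1)) fun i hi => by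
    rw [Finset.mem_range, not_lt] at hi
    rw [hz _ (by omega), hz _ (by omega), sub_zero], Finset.sum_range_sub',
    hz (m + 2 * (J + 1)) (by omega), sub_zero]
  rfl

/-- The first sum tends to zero. -/
theorem tendsto_gSum (hq : 1 < q) (m : ℕ) :
    Tendsto (fun J => gSum q (profile q J) m) atTop (𝓝 0) := by
  obtain ⟨ε, hε, hbd⟩ := exists_walk_bound hq
  have h0 : 0 < q := zero_lt_one.trans hq
  have hs : 0 < Real.sqrt q := Real.sqrt_pos.2 h0
  have hgeom : Summable fun i : ℕ => ((Real.sqrt q)⁻¹ ^ m) * (q⁻¹) ^ i :=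
    (summable_geometric_of_lt_one (inv_nonneg.2 h0.le) (inv_lt_one_of_one_lt₀ hq)).mul_left _
  have hlim := hε.mul_const (∑' i : ℕ, ((Real.sqrt q)⁻¹ ^ m) * (q⁻¹) ^ i)
  rw [zero_mul] at hlim
  refine squeeze_zero_norm (fun J => ?_) hlim
  rw [gSum_eq_tsum h0, ← tsum_mul_left]
  refine tsum_of_norm_bounded (hgeom.mul_left (ε J)).hasSum fun i => ?_
  rw [Real.norm_eq_abs, abs_div, abs_of_pos (pow_pos hs _), div_eq_mul_inv]
  have e : (Real.sqrt q ^ (m + 2 * i))⁻¹ = (Real.sqrt q)⁻¹ ^ m * q⁻¹ ^ i := by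
    rw [← inv_pow, pow_add, pow_mul, inv_pow (Real.sqrt q) 2, Real.sq_sqrt h0.le]
  rw [e]
  exact mul_le_mul_of_nonneg_right (hbd J _) (by positivity)

/-- The second sum tends to zero. -/
theorem tendsto_lSum (hq : 1 < q) (m : ℕ) :
    Tendsto (fun J => ∑' l : ℕ, (l : ℝ) * (q ^ l * profile q J (m + 2 * l))) atTop (𝓝 0) := by
  have h0 : 0 < q := zero_lt_one.trans hq
  have hs : 0 < Real.sqrt q := Real.sqrt_pos.2 h0
  have key : ∀ J, (q - 1) * ∑' l : ℕ, (l : ℝ) * (q ^ l * profile q J (m + 2 * l)) =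
      q * ((Real.sqrt q ^ m)⁻¹ * ∑' k : ℕ, walk q J ((m : ℤ) + 2 * (k + 1))) -
        q * gSum q (profile q J) (m + 2) := by
    intro J
    set h := profile q J
    set G := gSum q h
    have hK : ∀ D, 2 * J < D → h D = 0 := profile_eq_zero q J
    have hz : ∀ a, 2 * J < a → G a = 0 := fun a ha => by
      show gSum q h a = 0
      rw [gSum]
      refine (tsum_congr fun l => ?_).trans tsum_zero
      rw [hK _ (by omega), mul_zero]
    have hA : ∀ k : ℕ, (Real.sqrt q ^ m)⁻¹ * walk q J ((m : ℤ) + 2 * (k + 1)) =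
        q ^ (k + 1) * (G (m + 2 * (k + 1)) - G (m + 2 * (k + 2))) := fun k => by
      rw [show ((m : ℤ) + 2 * (k + 1)) = ((m + 2 * (k + 1) : ℕ) : ℤ) by push_cast; rfl,
        ← fTr_profile h0, fTr, pow_add, pow_mul, Real.sq_sqrt h0.le, ← mul_assoc, ← mul_assoc,
        inv_mul_cancel₀ (pow_ne_zero _ hs.ne'), one_mul]
      rfl
    rw [← tsum_mul_left (a := (Real.sqrt q ^ m)⁻¹), tsum_congr hA]
    rw [tsum_eq_sum (s := Finset.range (J + 1)) (f := fun l : ℕ => (l : ℝ) * (q ^ l * h (m + 2 * l)))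
        fun l hl => by
        rw [Finset.mem_range, not_lt] at hl; rw [hK _ (by omega), mul_zero, mul_zero],
      tsum_eq_sum (s := Finset.range (J + 1)) fun k hk => by
        rw [Finset.mem_range, not_lt] at hk; rw [hz _ (by omega), hz _ (by omega), sub_zero, mul_zero]]
    -- finite telescoping
    have step : ∀ K : ℕ, (q - 1) * ∑ l ∈ Finset.range (K + 1), (l : ℝ) * (q ^ l * h (m + 2 * l)) =
        q * ∑ k ∈ Finset.range (K + 1), q ^ (k + 1) * (G (m + 2 * (k + 1)) - G (m + 2 * (k + 2))) -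
          q * G (m + 2) - (q - 1) * (K : ℝ) * q ^ (K + 1) * G (m + 2 * (K + 1)) +
            q * q ^ (K + 1) * G (m + 2 * (K + 2)) - (q ^ (K + 2) - q ^ (K + 1)) * G (m + 2 * (K + 1)) := by
      intro K
      induction K with
      | zero => simp; ring
      | succ K ih =>
        rw [Finset.sum_range_succ, Finset.sum_range_succ _ (K + 1), mul_add, ih,
          show h (m + 2 * (K + 1)) = G (m + 2 * (K + 1)) - q * G (m + 2 * (K + 2)) from
            eq_sub_of_add_eq (gSum_eq hK _).symm]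
        push_cast
        ring
    rw [step J, hz (m + 2 * (J + 1)) (by omega), hz (m + 2 * (J + 2)) (by omega)]
    ring
  have hlim := (((tendsto_walk_side hq m).const_mul (Real.sqrt q ^ m)⁻¹).const_mul q).sub
    ((tendsto_gSum hq (m + 2)).const_mul q)
  simp_rw [← key] at hlim
  simpa [(sub_pos.2 hq).ne'] using hlim.const_mul (q - 1)⁻¹

/-- The profile itself tends to zero. -/
theorem tendsto_profile (hq : 1 < q) (m : ℕ) :
    Tendsto (fun J => profile q J m) atTop (𝓝 0) := by
  have h := (tendsto_gSum hq m).sub ((tendsto_gSum hq (m + 2)).const_mul q)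
  rw [mul_zero, sub_zero] at h
  exact h.congr fun J => by rw [gSum_eq (profile_eq_zero q J) m]; ring

end FLTAgent.LT.HypTree
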