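import Fermat.Agent.LT.TF.Hyp.Local
import Fermat.Agent.LT.TF.Hyp.Seq
import Fermat.Agent.LT.RS.Conductor

/-!
The levels along the unipotent line at a place: representatives of the balls, the distance in the
tree met at each level, and the two sums over the levels of a damped profile.
-/

set_option autoImplicit false
set_option linter.style.haveILetI false
set_option linter.unusedSectionVars false
set_option synthInstance.maxHeartbeats 200000

noncomputable section

namespace FLTAgent.LT.HypTree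

open Filter NumberField IsDedekindDomain Matrix
open scoped Topology
open FLTAgent.LT.Ht (mMax vMax locBound detNorm)

/-- The number of classes at a level. -/
def levelCard (q : ℝ) (j : ℕ) : ℝ := if j = 0 then 1 else q ^ j - q ^ (j - 1)

lemma levelCard_succ (q : ℝ) (k l : ℕ) :
    levelCard q (l + (k + 1)) = (q - 1) * q ^ k * q ^ l := by
  rw [levelCard, if_neg (by omega), show l + (k + 1) - 1 = k + l by omega,
    show l + (k + 1) = k + l + 1 by omega, pow_succ, pow_add]
  ring

/-- Both sums over the levels of the damped profile tend to zero. -/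
theorem tendsto_levels {q : ℝ} (hq : 1 < q) (m k₀ : ℕ) :
    Tendsto (fun J => ∑' j : ℕ, levelCard q j * profile q J (m + 2 * (j - k₀))) atTop (𝓝 0) ∧
      Tendsto (fun J => ∑' j : ℕ, (j : ℝ) * (levelCard q j * profile q J (m + 2 * (j - k₀))))
        atTop (𝓝 0) := by
  set c := (q - 1) * q ^ k₀
  have hzero : ∀ J j, J + k₀ < j → profile q J (m + 2 * (j - k₀)) = 0 := fun J j hj =>
    profile_eq_zero q J _ (by omega)
  have hsum : ∀ (a : ℕ → ℝ) J, Summable fun j => a j * (levelCard q j * profile q J (m + 2 * (j - k₀))) :=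
    fun a J => summable_of_bound (K := J + k₀ + 1) fun j hj => by
      rw [hzero J j (by omega), mul_zero, mul_zero]
  have hlow : ∀ J j, j ∈ Finset.range (k₀ + 1) →
      profile q J (m + 2 * (j - k₀)) = profile q J m := fun J j hj => by
    rw [Finset.mem_range] at hj
    rw [show j - k₀ = 0 by omega, mul_zero, add_zero]
  have htail : ∀ J l : ℕ, levelCard q (l + (k₀ + 1)) * profile q J (m + 2 * (l + (k₀ + 1) - k₀)) =
      c * (q ^ l * profile q J (m + 2 + 2 * l)) := fun J l => by
    rw [levelCard_succ, show m + 2 * (l + (k₀ + 1) - k₀) = m + 2 + 2 * l by omega]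
    ring
  refine ⟨?_, ?_⟩
  · have e : ∀ J, ∑' j : ℕ, levelCard q j * profile q J (m + 2 * (j - k₀)) =
        (∑ j ∈ Finset.range (k₀ + 1), levelCard q j) * profile q J m +
          c * gSum q (profile q J) (m + 2) := fun J => by
      have hs := hsum (fun _ => 1) J
      simp only [one_mul] at hs
      rw [← hs.sum_add_tsum_nat_add (k₀ + 1), Finset.sum_mul, gSum, ← tsum_mul_left]
      exact congrArg₂ _ (Finset.sum_congr rfl fun j hj => by rw [hlow J j hj]) (tsum_congr (htail J))
    rw [tendsto_congr e]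
    simpa using ((tendsto_profile hq m).const_mul _).add ((tendsto_gSum hq (m + 2)).const_mul c)
  · have e : ∀ J, ∑' j : ℕ, (j : ℝ) * (levelCard q j * profile q J (m + 2 * (j - k₀))) =
        (∑ j ∈ Finset.range (k₀ + 1), (j : ℝ) * levelCard q j) * profile q J m +
          c * ((∑' l : ℕ, (l : ℝ) * (q ^ l * profile q J (m + 2 + 2 * l))) +
            ((k₀ : ℝ) + 1) * gSum q (profile q J) (m + 2)) := fun J => by
      have h1 : Summable fun l : ℕ => (l : ℝ) * (q ^ l * profile q J (m + 2 + 2 * l)) :=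
        summable_of_bound (K := J + 1) fun l hl => by
          rw [profile_eq_zero q J _ (by omega), mul_zero, mul_zero]
      have h2 : Summable fun l : ℕ => q ^ l * profile q J (m + 2 + 2 * l) :=
        summable_of_bound (K := J + 1) fun l hl => by
          rw [profile_eq_zero q J _ (by omega), mul_zero]
      rw [← (hsum (fun j => (j : ℝ)) J).sum_add_tsum_nat_add (k₀ + 1), Finset.sum_mul, gSum,
        ← tsum_mul_left (a := (k₀ : ℝ) + 1), ← h1.tsum_add (h2.mul_left _), ← tsum_mul_left]
      refine congrArg₂ _ (Finset.sum_congr rfl fun j hj => by rw [hlow J j hj]; ring)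
        (tsum_congr fun l => ?_)
      rw [htail]
      push_cast
      ring
    rw [tendsto_congr e]
    simpa using ((tendsto_profile hq m).const_mul _).add
      (((tendsto_lSum hq (m + 2)).add ((tendsto_gSum hq (m + 2)).const_mul ((k₀ : ℝ) + 1))).const_mul c)

variable {F : Type*} [Field F] [NumberField F]

local notation "HS" => HeightOneSpectrum (𝓞 F)
local notation "M2" => Matrix (Fin 2) (Fin 2) (Af F)

/-- The norm at a place of a global element. -/
def normV (v : HS) (x : F) : ℝ := ‖(x : v.adicCompletion F)‖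

lemma norm_algebraMap_eq (v : HS) (x : F) : ‖(algebraMap F (Af F) x) v‖ = normV v x := rfl

lemma normV_zero (v : HS) : normV v (0 : F) = 0 := by
  rw [← norm_algebraMap_eq, Ht.norm_algebraMap, map_zero]

lemma normV_one (v : HS) : normV v (1 : F) = 1 := by
  rw [← norm_algebraMap_eq, Ht.norm_algebraMap, map_one]

lemma normV_mul (v : HS) (x y : F) : normV v (x * y) = normV v x * normV v y := by
  rw [← norm_algebraMap_eq, ← norm_algebraMap_eq, ← norm_algebraMap_eq, Ht.norm_algebraMap,
    Ht.norm_algebraMap, Ht.norm_algebraMap, map_mul]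

lemma normV_pow (v : HS) (x : F) (k : ℕ) : normV v (x ^ k) = normV v x ^ k := by
  rw [← norm_algebraMap_eq, ← norm_algebraMap_eq, Ht.norm_algebraMap, Ht.norm_algebraMap, map_pow]

lemma normV_div (v : HS) (x y : F) : normV v (x / y) = normV v x / normV v y := by
  rw [← norm_algebraMap_eq, ← norm_algebraMap_eq, ← norm_algebraMap_eq, Ht.norm_algebraMap,
    Ht.norm_algebraMap, Ht.norm_algebraMap, map_div₀]

lemma normV_sub_le (v : HS) (x y : F) : normV v (x - y) ≤ max (normV v x) (normV v y) := by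
  rw [normV, Red.coe_sub_completion, sub_eq_add_neg]
  refine (Ht.norm_add_le_max _ _).trans ?_
  rw [norm_neg]
  exact le_rfl

lemma normV_add_le (v : HS) (x y : F) : normV v (x + y) ≤ max (normV v x) (normV v y) := by
  have hn : normV v (0 - y) = normV v y := by
    rw [zero_sub, ← norm_algebraMap_eq, ← norm_algebraMap_eq, map_neg]
    exact norm_neg _
  have h := normV_sub_le v x (0 - y)
  rwa [hn, zero_sub, sub_neg_eq_add] at h

lemma normV_pos (v : HS) {x : F} (hx : x ≠ 0) : 0 < normV v x := by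
  rw [← norm_algebraMap_eq, Ht.norm_algebraMap]; exact FinitePlace.pos_iff.2 hx

lemma exists_normV_qv (v : HS) : ∃ π : F, normV v π = qv v := by
  refine ⟨(unif v : F)⁻¹, ?_⟩
  rw [← one_div, normV_div, normV_one, one_div,
    show normV v (unif v : F) = ‖Aleph.piV v‖ from rfl, norm_piV, inv_inv]

lemma exists_normV_eq_zpow (v : HS) {x : F} (hx : x ≠ 0) : ∃ k : ℤ, normV v x = qv v ^ k :=
  exists_norm_eq_zpow fun h0 => (normV_pos v hx).ne' (by rw [normV, h0, norm_zero])

/-- Representatives of the ball of radius `q ^ j` modulo the unit ball. -/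
lemma exists_unit_ball_reps (v : HS) : ∀ j : ℕ, ∃ R : Finset F,
    R.card = Nat.card (𝓞 F ⧸ v.asIdeal) ^ j ∧ (∀ r ∈ R, normV v r ≤ qv v ^ j) ∧
      (∀ r ∈ R, ∀ r' ∈ R, normV v (r - r') ≤ 1 → r = r') ∧
        ∀ y : F, normV v y ≤ qv v ^ j → ∃ r ∈ R, normV v (y - r) ≤ 1
  | 0 => ⟨{0}, by simp, fun r hr => by
      rw [Finset.mem_singleton.1 hr, normV_zero, pow_zero]; exact zero_le_one,
      fun r hr r' hr' _ => (Finset.mem_singleton.1 hr).trans (Finset.mem_singleton.1 hr').symm,
      fun y hy => ⟨0, Finset.mem_singleton_self 0, by rwa [sub_zero, ← pow_zero (qv v)]⟩⟩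
  | j + 1 => by
    classical
    obtain ⟨R, hcard, hle, hinj, hcov⟩ := exists_unit_ball_reps v j
    obtain ⟨π, hπ⟩ := exists_normV_qv v
    haveI : Finite (𝓞 F ⧸ v.asIdeal) := Ideal.finiteQuotientOfFreeOfNeBot _ v.ne_bot
    haveI := Fintype.ofFinite (𝓞 F ⧸ v.asIdeal)
    set rep : 𝓞 F ⧸ v.asIdeal → F := fun u => ((Quotient.out u : 𝓞 F) : F)
    have hrep : ∀ u, normV v (rep u) ≤ 1 := fun u =>
      Ht.norm_le_one_iff_valued.2 (Aleph.valued_int_le_one v _)
    have hπj : normV v (π ^ (j + 1)) = qv v ^ (j + 1) := by rw [normV_pow, hπ]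
    have hq := qv_pos v
    have hstep : qv v ^ j ≤ qv v ^ (j + 1) := pow_le_pow_right₀ (one_lt_qv v).le (Nat.le_succ j)
    have h1j : (1 : ℝ) ≤ qv v ^ j := one_le_pow₀ (one_lt_qv v).le
    set f : F × (𝓞 F ⧸ v.asIdeal) → F := fun p => p.1 + π ^ (j + 1) * rep p.2
    have hf : ∀ p ∈ R ×ˢ Finset.univ, ∀ p' ∈ R ×ˢ Finset.univ, normV v (f p - f p') ≤ 1 → p = p' := by
      rintro ⟨r, u⟩ hp ⟨r', u'⟩ hp' h
      have hr := (Finset.mem_product.1 hp).1
      have hr' := (Finset.mem_product.1 hp').1
      have e : π ^ (j + 1) * (rep u - rep u') = (f (r, u) - f (r', u')) - (r - r') := by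
        simp only [f]; ring
      have h1 : qv v ^ (j + 1) * normV v (rep u - rep u') ≤ qv v ^ j := by
        rw [← hπj, ← normV_mul, e]
        exact (normV_sub_le v _ _).trans (max_le (h.trans h1j)
          ((normV_sub_le v _ _).trans (max_le (hle r hr) (hle r' hr'))))
      have hu : u = u' := by
        refine eq_of_norm_sub_lt_one ?_
        rw [← Red.coe_sub_completion]
        show normV v (rep u - rep u') < 1
        by_contra hlt
        have h2 := mul_le_mul_of_nonneg_left (not_lt.1 hlt) (pow_pos hq (j + 1)).le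
        rw [mul_one] at h2
        exact (pow_lt_pow_right₀ (one_lt_qv v) (Nat.lt_succ_self j)).not_ge (h2.trans h1)
      subst hu
      refine Prod.ext (hinj r hr r' hr' ?_) rfl
      simpa [f] using h
    refine ⟨(R ×ˢ Finset.univ).image f, ?_, ?_, ?_, fun y hy => ?_⟩
    · rw [Finset.card_image_of_injOn, Finset.card_product, hcard, Finset.card_univ,
        ← Nat.card_eq_fintype_card, pow_succ]
      exact fun p hp p' hp' e => hf p hp p' hp' (by rw [e, sub_self, normV_zero]; exact zero_le_one)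
    · intro r hr
      obtain ⟨p, hp, rfl⟩ := Finset.mem_image.1 hr
      refine (normV_add_le v _ _).trans (max_le ((hle _ (Finset.mem_product.1 hp).1).trans hstep) ?_)
      rw [normV_mul, hπj]
      exact mul_le_of_le_one_right (pow_pos hq _).le (hrep _)
    · intro r hr r' hr' h
      obtain ⟨p, hp, rfl⟩ := Finset.mem_image.1 hr
      obtain ⟨p', hp', rfl⟩ := Finset.mem_image.1 hr'
      rw [hf p hp p' hp' h]
    · have hπ0 : π ^ (j + 1) ≠ 0 := fun h0 => by
        rw [h0, normV_zero] at hπj; exact (pow_pos hq _).ne hπj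
      have hz : normV v (y / π ^ (j + 1)) ≤ 1 := by
        rw [normV_div, hπj, div_le_one (pow_pos hq _)]; exact hy
      obtain ⟨u, hu⟩ := Aleph.exists_res v (Ht.norm_le_one_iff_valued.1 hz)
      have hlt : normV v (y / π ^ (j + 1) - rep u) < 1 := by
        rw [normV, Red.coe_sub_completion, FinitePlace.norm_def, ← NNReal.coe_one, NNReal.coe_lt_coe,
          ← (WithZeroMulInt.toNNReal (HeightOneSpectrum.absNorm_ne_zero v)).map_one,
          (WithZeroMulInt.toNNReal_strictMono (HeightOneSpectrum.one_lt_absNorm_nnreal v)).lt_iff_lt]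
        exact hu
      have hy' : normV v (y - π ^ (j + 1) * rep u) ≤ qv v ^ j := by
        rw [show y - π ^ (j + 1) * rep u = π ^ (j + 1) * (y / π ^ (j + 1) - rep u) by field_simp,
          normV_mul, hπj]
        refine (mul_le_mul_of_nonneg_left (norm_le_inv_of_lt_one (x :=
          ((y / π ^ (j + 1) - rep u : F) : v.adicCompletion F)) hlt) (pow_pos hq _).le).trans_eq ?_
        rw [pow_succ, mul_assoc, mul_inv_cancel₀ hq.ne', mul_one]
      obtain ⟨r, hr, hr'⟩ := hcov _ hy'
      refine ⟨f (r, u), Finset.mem_image_of_mem _ (Finset.mem_product.2 ⟨hr, Finset.mem_univ u⟩), ?_⟩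
      rwa [show y - f (r, u) = y - π ^ (j + 1) * rep u - r by simp only [f]; ring]

/-- Representatives of a ball modulo a smaller one. -/
theorem exists_ball_reps (v : HeightOneSpectrum (𝓞 F)) (b : Fˣ) (j : ℕ) :
    ∃ R : Finset F, R.card = Nat.card (𝓞 F ⧸ v.asIdeal) ^ j ∧
      (∀ r ∈ R, ‖(algebraMap F (Af F) r) v‖ ≤ qv v ^ j * ‖(algebraMap F (Af F) (b : F)) v‖) ∧
      (∀ r ∈ R, ∀ r' ∈ R,
        ‖(algebraMap F (Af F) (r - r')) v‖ ≤ ‖(algebraMap F (Af F) (b : F)) v‖ → r = r') ∧
      ∀ y : F, ‖(algebraMap F (Af F) y) v‖ ≤ qv v ^ j * ‖(algebraMap F (Af F) (b : F)) v‖ →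
        ∃ r ∈ R, ‖(algebraMap F (Af F) (y - r)) v‖ ≤ ‖(algebraMap F (Af F) (b : F)) v‖ := by
  classical
  simp only [norm_algebraMap_eq]
  obtain ⟨R, hcard, hle, hinj, hcov⟩ := exists_unit_ball_reps v j
  have hb : 0 < normV v (b : F) := normV_pos v b.ne_zero
  refine ⟨R.image ((b : F) * ·), ?_, ?_, ?_, fun y hy => ?_⟩
  · rw [Finset.card_image_of_injective _ (mul_right_injective₀ b.ne_zero), hcard]
  · intro r hr
    obtain ⟨x, hx, rfl⟩ := Finset.mem_image.1 hr
    rw [normV_mul, mul_comm]
    exact mul_le_mul_of_nonneg_right (hle x hx) hb.le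
  · intro r hr r' hr' h
    obtain ⟨x, hx, rfl⟩ := Finset.mem_image.1 hr
    obtain ⟨x', hx', rfl⟩ := Finset.mem_image.1 hr'
    rw [← mul_sub, normV_mul, mul_le_iff_le_one_right hb] at h
    rw [hinj x hx x' hx' h]
  · obtain ⟨r, hr, h⟩ := hcov (y / b) (by rw [normV_div, div_le_iff₀ hb]; exact hy)
    refine ⟨(b : F) * r, Finset.mem_image_of_mem _ hr, ?_⟩
    rw [show y - (b : F) * r = (b : F) * (y / b - r) by field_simp, normV_mul]
    exact mul_le_of_le_one_right hb.le h

/-- The distance at each level. -/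
theorem exists_treeDist_levels (v : HeightOneSpectrum (𝓞 F)) (t : Fˣ) (ht : (t : F) ≠ 1) :
    ∃ m k₀ : ℕ, ∀ (j : ℕ) (z : F), (j = 0 → ‖(algebraMap F (Af F) z) v‖ ≤ 1) →
      (0 < j → ‖(algebraMap F (Af F) z) v‖ = qv v ^ j) →
        treeDist v (toFin (Red.upperF t (((t : F) - 1) * z))) = m + 2 * (j - k₀) := by
  obtain ⟨e, he⟩ := exists_normV_eq_zpow v t.ne_zero
  obtain ⟨d, hd⟩ := exists_normV_eq_zpow v (sub_ne_zero.2 ht)
  have hmono : Monotone fun k : ℤ => qv v ^ k := fun _ _ h => zpow_le_zpow_right₀ (one_lt_qv v).le h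
  have hde : d ≤ max e 0 := by
    have h := normV_sub_le v (t : F) 1
    rw [normV_one, hd, he, ← zpow_zero (qv v), ← hmono.map_max] at h
    exact (zpow_le_zpow_iff_right₀ (one_lt_qv v)).1 h
  refine ⟨e.natAbs, (max e 0 - d).toNat, fun j z h0 hpos => ?_⟩
  set g : GF F := toFin (Red.upperF t (((t : F) - 1) * z))
  have hloc : ∀ a b : Fin 2, ‖Red.loc v (g : M2) a b‖ =
      normV v (!![(t : F), ((t : F) - 1) * z; 0, 1] a b) := fun a b => rfl
  have hM : mMax (Red.loc v (g : M2)) = qv v ^ max (max e 0) (d + j) := by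
    simp only [mMax, vMax, hloc, Matrix.of_apply, Matrix.cons_val_zero, Matrix.cons_val_one,
      Matrix.cons_val_fin_one, normV_zero, normV_one, normV_mul, he, hd]
    rw [max_eq_right (zero_le_one' ℝ), max_right_comm, ← zpow_zero (qv v), ← hmono.map_max]
    rcases Nat.eq_zero_or_pos j with rfl | hj
    · rw [show (max (max e 0) (d + ((0 : ℕ) : ℤ))) = max e 0 by simp [hde]]
      refine max_eq_left ((mul_le_of_le_one_right (zpow_pos (qv_pos v) d).le (h0 rfl)).trans
        (hmono hde))
    · rw [show normV v z = qv v ^ j from hpos hj, ← zpow_natCast, ← zpow_add₀ (qv_pos v).ne',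
        ← hmono.map_max]
  have hdet : detNorm v g = qv v ^ e := by
    rw [Ht.detNorm_eq_det, ← he, Matrix.det_fin_two]
    have : Red.loc v (g : M2) 1 0 = 0 := by
      show (algebraMap F (Af F) (0 : F)) v = 0
      rw [map_zero]; rfl
    rw [this, mul_zero, sub_zero, norm_mul, hloc, hloc]
    simp [normV_one]
  refine treeDist_eq v ?_
  rw [locBound, hM, hdet, ← zpow_natCast, ← _root_.zpow_mul, ← zpow_sub₀ (qv_pos v).ne',
    ← zpow_natCast]
  congr 1
  omega

end FLTAgent.LT.HypTree
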