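import Fermat.Agent.LT.TF.Hyp.Axis
import Fermat.Agent.LT.TF.Hyp.Levels
import Fermat.Agent.LT.TF.EllipticTerm

/-!
The cosets over the axis: each linked coset lies over exactly one axis coset, and the fibre splits
into levels of known cardinality.
-/

set_option autoImplicit false
set_option linter.style.haveILetI false
set_option linter.unusedSectionVars false
set_option synthInstance.maxHeartbeats 200000

noncomputable section

namespace FLTAgent.LT.HypTree

open NumberField IsDedekindDomain Matrix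
open scoped ENNReal
open FLTAgent.LT.Ht (locBound locHt)
open FLTAgent.LT.Ell (nrm)

attribute [local instance] Classical.propDecidable

variable {F : Type*} [Field F] [NumberField F]

local notation "HS" => HeightOneSpectrum (𝓞 F)
local notation "M2" => Matrix (Fin 2) (Fin 2) (Af F)

/-- Trivial distance at finitely many places prime to the level and trivial elsewhere. -/
lemma mem_UZ_of_treeDist {N : ℕ} (S : Finset HS) :
    (∀ w ∈ S, (N : 𝓞 F) ∉ w.asIdeal) → ∀ δ : GF F, (∀ w ∈ S, treeDist w δ = 0) →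
      (∀ w ∉ S, Red.loc w (δ : M2) = 1) → δ ∈ UZ F N := by
  classical
  induction S using Finset.induction with
  | empty =>
    intro _ δ _ h1
    rw [show δ = 1 from gf_ext fun w => by
      rw [h1 w (Finset.notMem_empty w), Units.val_one, Red.loc_one]]
    exact one_mem _
  | insert x S hx ih =>
    intro hS δ h0 h1
    rw [← away_mul_atV x δ]
    refine mul_mem (ih (fun w hw => hS w (Finset.mem_insert_of_mem hw)) _ (fun w hw => ?_)
      fun w hw => ?_) (atV_mem_UZ (hS x (Finset.mem_insert_self x S)) (h0 x (Finset.mem_insert_self x S)))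
    · rw [treeDist_congr w (loc_away_ne x δ (fun e => hx (e ▸ hw)))]
      exact h0 w (Finset.mem_insert_of_mem hw)
    · rcases eq_or_ne w x with rfl | hwx
      · exact loc_away_self w δ
      · rw [loc_away_ne x δ hwx]
        exact h1 w (fun hh => (Finset.mem_insert.1 hh).elim hwx hw)

lemma natCast_mem_orbit (τ : F →+* F) {v : HS} {N : ℕ} (hv : (N : 𝓞 F) ∉ v.asIdeal) :
    ∀ k, (N : 𝓞 F) ∉ ((placeBelow τ)^[k] v).asIdeal
  | 0 => hv
  | k + 1 => fun h => natCast_mem_orbit τ hv k (by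
      rw [Function.iterate_succ_apply'] at h
      have : RingOfIntegers.mapRingHom τ (N : 𝓞 F) ∈ ((placeBelow τ)^[k] v).asIdeal := h
      rwa [map_natCast] at this)

lemma treeDist_UZ {w : HS} {N : ℕ} {u : GF F} (hu : u ∈ UZ F N) : treeDist w u = 0 :=
  treeDist_eq w (by rw [locBound_UZ w hu, pow_zero])

/-- A point of the orbit of a coset. -/
lemma exists_mul_out {N : ℕ} (g : GF F) :
    ∃ u ∈ UZ F N, (QuotientGroup.mk g : Cos F N).out = g * u := by
  obtain ⟨u, hu⟩ := QuotientGroup.mk_out_eq_mul (UZ F N) g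
  exact ⟨u, u.2, hu⟩

variable {τ : F →+* F} {a : Fˣ} {v : HeightOneSpectrum (𝓞 F)} {n N : ℕ}

lemma yOf_mul (g u : GF F) : yOf τ a (g * u) = u⁻¹ * yOf τ a g * gfMap τ u := by
  simp only [yOf, map_mul, _root_.mul_inv_rev, mul_assoc]

lemma linked_mul {u : GF F} (hu : u ∈ UZ F N) (g : GF F) :
    Linked τ a v n (g * u) ↔ Linked τ a v n g := by
  refine forall_congr' fun k => forall_congr' fun _ => forall_congr' fun _ => ?_
  rw [yOf_mul, (treeDist_mul_zero (by rw [treeDist_gfMap]; exact treeDist_UZ hu) _).1,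
    treeDist_UZ_mul _ (inv_mem hu)]

lemma treeDist_yOf_mul {u : GF F} (hu : u ∈ UZ F N) (g : GF F) :
    treeDist v (yOf τ a (g * u)) = treeDist v (yOf τ a g) := by
  rw [yOf_mul, (treeDist_mul_zero (by rw [treeDist_gfMap]; exact treeDist_UZ hu) _).1,
    treeDist_UZ_mul _ (inv_mem hu)]

variable (τ a v n) in
/-- A linked coset. -/
def LinkedC (c : Cos F N) : Prop := Linked τ a v n c.out

variable (v) in
/-- The product of the heights of a coset at `v`. -/
def pC (c : Cos F N) : ℝ := pHt v c.out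

lemma linkedC_mk (g : GF F) :
    LinkedC τ a v n (QuotientGroup.mk g : Cos F N) ↔ Linked τ a v n g := by
  obtain ⟨u, hu, e⟩ := exists_mul_out (N := N) g
  rw [LinkedC, e, linked_mul hu]

lemma pC_mk (g : GF F) : pC v (QuotientGroup.mk g : Cos F N) = pHt v g := by
  obtain ⟨u, hu, e⟩ := exists_mul_out (N := N) g
  rw [pC, e, pHt_mul_of_mem_UZ v hu]

lemma diagU_inv (x : Fˣ) : (diagU x)⁻¹ = diagU x⁻¹ :=
  (eq_inv_of_mul_eq_one_left (by rw [diagU_mul, inv_mul_cancel, diagU_one])).symm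

lemma yOf_diagU_mul {x : Fˣ} (hx : τ (x : F) = x) (g : GF F) :
    yOf τ a (toFin (diagU x) * g) = yOf τ a g := by
  have e : gfMap τ (toFin (diagU x)) = toFin (diagU x) := by
    rw [gfMap_toFin]
    congr 1
    refine Units.ext (Matrix.ext fun i j => ?_)
    fin_cases i <;> fin_cases j <;> simp [coe_diagU, hx]
  rw [yOf, yOf, map_mul, e, _root_.mul_inv_rev, ← map_inv, diagU_inv]
  simp only [mul_assoc]
  rw [← mul_assoc (toFin (diagU a)), ← map_mul, diagU_mul, mul_comm a x, ← diagU_mul, map_mul,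
    mul_assoc (toFin (diagU x)), ← mul_assoc (toFin (diagU x⁻¹)), ← map_mul, diagU_mul,
    inv_mul_cancel, diagU_one, map_one, one_mul]

variable (τ a v n) in
/-- The translated coset. -/
def trC (y : F) (c : Cos F N) : Cos F N := transGF τ a v n y • c

lemma trC_mk (y : F) (g : GF F) :
    trC τ a v n y (QuotientGroup.mk g : Cos F N) = QuotientGroup.mk (transGF τ a v n y * g) := rfl

lemma trC_trC (y z : F) (c : Cos F N) :
    trC τ a v n y (trC τ a v n z c) = trC τ a v n (y + z) c := by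
  rw [trC, trC, trC, transGF_add, mul_smul]

lemma trC_zero (c : Cos F N) : trC τ a v n 0 c = c := by rw [trC, transGF_zero, one_smul]

lemma diagU_smul_trC {x : Fˣ} (hx : τ (x : F) = x) (y : F) (c : Cos F N) :
    toFin (diagU x) • trC τ a v n y c = trC τ a v n ((x : F) * y) (toFin (diagU x) • c) := by
  rw [trC, trC, ← mul_smul, ← mul_smul, diagU_mul_transGF τ a v n hx]

lemma linkedC_diagU {x : Fˣ} (hx : τ (x : F) = x) (c : Cos F N) :
    LinkedC τ a v n (toFin (diagU x) • c) ↔ LinkedC τ a v n c := by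
  obtain ⟨g, rfl⟩ := QuotientGroup.mk_surjective c
  rw [MulAction.Quotient.smul_mk, smul_eq_mul, linkedC_mk, linkedC_mk]
  refine forall_congr' fun k => forall_congr' fun _ => forall_congr' fun _ => ?_
  rw [yOf_diagU_mul hx]

lemma pC_diagU (x : Fˣ) (c : Cos F N) : pC v (toFin (diagU x) • c) = pC v c := by
  obtain ⟨g, rfl⟩ := QuotientGroup.mk_surjective c
  rw [MulAction.Quotient.smul_mk, smul_eq_mul, pC_mk, pC_mk, pHt_diagU_mul]

variable (τ a v n) in
/-- The axis. -/
def IsAxis (c : Cos F N) : Prop := LinkedC τ a v n c ∧ pC v c = 1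

lemma isAxis_diagU {x : Fˣ} (hx : τ (x : F) = x) {c : Cos F N} (hc : IsAxis τ a v n c) :
    IsAxis τ a v n (toFin (diagU x) • c) :=
  ⟨(linkedC_diagU hx c).2 hc.1, (pC_diagU x c).trans hc.2⟩

/-- The radius of the fibre over an axis coset. -/
def radC (v : HS) (c : Cos F N) : Fˣ := (exists_norm_eq_locHt v c.out).choose

lemma norm_radC (c : Cos F N) :
    ‖(algebraMap F (Af F) (radC v c : F)) v‖ = locHt v axRow1 c.out :=
  (exists_norm_eq_locHt v c.out).choose_spec

variable (h : Cyc τ n) (hd : ∀ k, 0 < k → k < n → (placeBelow τ)^[k] v ≠ v)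
include h hd

omit hd in
lemma loc_transGF_off {w : HS} (hw : ∀ k < n, (placeBelow τ)^[k] v ≠ w) (y : F) :
    Red.loc w (transGF τ a v n y : M2) = 1 :=
  loc_transGF_eq_one τ a v n (fun k hk e => hw _ (Nat.mod_lt (n - k) h.odd.pos)
    (orbit_return h h.odd.pos hk e).symm) y

lemma linkedC_trC (y : F) (c : Cos F N) : LinkedC τ a v n (trC τ a v n y c) ↔ LinkedC τ a v n c := by
  obtain ⟨g, rfl⟩ := QuotientGroup.mk_surjective c
  rw [trC_mk, linkedC_mk, linkedC_mk, linked_transGF h hd]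

/-- The product of the heights along a fibre. -/
lemma pC_trC {c : Cos F N} (hc : IsAxis τ a v n c) (y : F) :
    pC v (trC τ a v n y c) = (‖(algebraMap F (Af F) (radC v c : F)) v‖ /
      max ‖(algebraMap F (Af F) (radC v c : F)) v‖ ‖(algebraMap F (Af F) y) v‖) ^ 2 := by
  conv_lhs => rw [← QuotientGroup.out_eq' c, trC_mk, pC_mk]
  exact pHt_transGF h hd hc.2 (norm_radC c) y

lemma trC_eq_self (hv : (N : 𝓞 F) ∉ v.asIdeal) {c : Cos F N} (hc : IsAxis τ a v n c) {y : F}
    (hy : ‖(algebraMap F (Af F) y) v‖ ≤ ‖(algebraMap F (Af F) (radC v c : F)) v‖) :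
    trC τ a v n y c = c := by
  conv_lhs => rw [← QuotientGroup.out_eq' c, trC_mk]
  conv_rhs => rw [← QuotientGroup.out_eq' c]
  refine QuotientGroup.eq.2 ?_
  rw [_root_.mul_inv_rev, ← transGF_neg]
  refine mem_UZ_of_treeDist ((Finset.range n).image fun k => (placeBelow τ)^[k] v) ?_ _ ?_ ?_
  · intro w hw
    obtain ⟨k, -, rfl⟩ := Finset.mem_image.1 hw
    exact natCast_mem_orbit τ hv k
  · intro w _
    refine treeDist_conj_transGF h hd hc.1 hc.2 (norm_radC c) ?_ w
    rwa [map_neg, show ∀ X : Af F, (-X) v = -(X v) from fun _ => rfl, norm_neg]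
  · intro w hw
    have hno : ∀ k < n, (placeBelow τ)^[k] v ≠ w := fun k hk e =>
      hw (Finset.mem_image.2 ⟨k, Finset.mem_range.2 hk, e⟩)
    rw [Units.val_mul, Units.val_mul, Red.loc_mul, Red.loc_mul, loc_transGF_off h hno, mul_one,
      ← Red.loc_mul, ← Units.val_mul, inv_mul_cancel, Units.val_one, Red.loc_one]

lemma norm_le_of_pC_eq_one {c : Cos F N} (hc : IsAxis τ a v n c) {y : F}
    (hy : pC v (trC τ a v n y c) = 1) :
    ‖(algebraMap F (Af F) y) v‖ ≤ ‖(algebraMap F (Af F) (radC v c : F)) v‖ := by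
  rw [pC_trC h hd hc] at hy
  set B := ‖(algebraMap F (Af F) (radC v c : F)) v‖
  have hB : 0 < B := norm_alg_pos (radC v c).ne_zero v
  have hm : 0 < max B ‖(algebraMap F (Af F) y) v‖ := lt_max_of_lt_left hB
  have h1 : B / max B ‖(algebraMap F (Af F) y) v‖ = 1 :=
    (pow_eq_one_iff_of_nonneg (div_nonneg hB.le hm.le) two_ne_zero).1 hy
  rw [div_eq_one_iff_eq hm.ne'] at h1
  exact h1 ▸ le_max_right B _

lemma exists_axisC {c : Cos F N} (hc : LinkedC τ a v n c) :
    ∃ y : F, IsAxis τ a v n (trC τ a v n y c) := by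
  obtain ⟨y, hy⟩ := exists_axis (a := a) h hd c.out
  refine ⟨y, (linkedC_trC h hd y c).2 hc, ?_⟩
  rw [← QuotientGroup.out_eq' c, trC_mk, pC_mk, hy]

omit h hd in
variable (τ a v n) in
/-- The axis coset under a coset. -/
def projC (c : Cos F N) : Cos F N :=
  if hc : ∃ y : F, IsAxis τ a v n (trC τ a v n y c) then trC τ a v n hc.choose c else c

lemma projC_trC (hv : (N : 𝓞 F) ∉ v.asIdeal) {c : Cos F N} (hc : IsAxis τ a v n c) (y : F) :
    projC τ a v n (trC τ a v n y c) = c := by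
  have hex : ∃ z : F, IsAxis τ a v n (trC τ a v n z (trC τ a v n y c)) :=
    ⟨-y, by rw [trC_trC, neg_add_cancel, trC_zero]; exact hc⟩
  rw [projC, dif_pos hex, trC_trC]
  refine trC_eq_self h hd hv hc (norm_le_of_pC_eq_one h hd hc ?_)
  have := hex.choose_spec.2
  rwa [trC_trC] at this

lemma isAxis_projC {c : Cos F N} (hc : LinkedC τ a v n c) : IsAxis τ a v n (projC τ a v n c) := by
  rw [projC, dif_pos (exists_axisC h hd hc)]
  exact (exists_axisC h hd hc).choose_spec

lemma exists_eq_trC {c : Cos F N} (hc : LinkedC τ a v n c) :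
    ∃ y : F, c = trC τ a v n y (projC τ a v n c) := by
  rw [projC, dif_pos (exists_axisC h hd hc)]
  exact ⟨-(exists_axisC h hd hc).choose, by rw [trC_trC, neg_add_cancel, trC_zero]⟩

/-- The projection commutes with the fixed torus. -/
lemma projC_diagU (hv : (N : 𝓞 F) ∉ v.asIdeal) {x : Fˣ} (hx : τ (x : F) = x) (c : Cos F N) :
    projC τ a v n (toFin (diagU x) • c) = toFin (diagU x) • projC τ a v n c := by
  by_cases hc : LinkedC τ a v n c
  · obtain ⟨y, hy⟩ := exists_eq_trC h hd hc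
    conv_lhs => rw [hy, diagU_smul_trC hx]
    exact projC_trC h hd hv (isAxis_diagU hx (isAxis_projC h hd hc)) _
  · have hno : ∀ d : Cos F N, ¬ LinkedC τ a v n d → projC τ a v n d = d := fun d hd' => by
      rw [projC, dif_neg]
      rintro ⟨y, hy⟩
      exact hd' ((linkedC_trC h hd y d).1 hy.1)
    rw [hno c hc, hno _ (fun h' => hc ((linkedC_diagU hx c).1 h'))]

/-! ### Levels -/

omit h hd in
variable (τ a v n) in
/-- The level `j` of the fibres. -/
def levelC (j : ℕ) : Set (Cos F N) :=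
  {c | LinkedC τ a v n c ∧ pC v c = ((qv v ^ j) ^ 2)⁻¹}

omit h hd in
lemma levelC_disjoint {i j : ℕ} {c : Cos F N} (hi : c ∈ levelC τ a v n i)
    (hj : c ∈ levelC τ a v n j) : i = j := by
  have e := hi.2.symm.trans hj.2
  rw [_root_.inv_inj, pow_left_inj₀ (pow_nonneg (qv_pos v).le _) (pow_nonneg (qv_pos v).le _) two_ne_zero]
    at e
  exact pow_right_injective₀ (qv_pos v) (one_lt_qv v).ne' e

/-- The level of a translated axis coset. -/
lemma pC_trC_level {c : Cos F N} (hc : IsAxis τ a v n c) (y : F) : ∃ j : ℕ,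
    pC v (trC τ a v n y c) = ((qv v ^ j) ^ 2)⁻¹ ∧
      ((j = 0 ∧ ‖(algebraMap F (Af F) (y / radC v c)) v‖ ≤ 1) ∨
        (0 < j ∧ ‖(algebraMap F (Af F) (y / radC v c)) v‖ = qv v ^ j)) := by
  have hB := norm_alg_pos (radC v c).ne_zero v
  have hdiv : ‖(algebraMap F (Af F) (y / radC v c)) v‖ = ‖(algebraMap F (Af F) y) v‖ /
      ‖(algebraMap F (Af F) (radC v c : F)) v‖ := by
    rw [Ht.norm_algebraMap, map_div₀, ← Ht.norm_algebraMap, ← Ht.norm_algebraMap]
  rw [pC_trC h hd hc, hdiv]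
  set B := ‖(algebraMap F (Af F) (radC v c : F)) v‖
  set Y := ‖(algebraMap F (Af F) y) v‖
  by_cases hy : Y ≤ B
  · refine ⟨0, ?_, Or.inl ⟨rfl, (div_le_one hB).2 hy⟩⟩
    rw [max_eq_left hy, div_self hB.ne']; simp
  · have hy0 : y ≠ 0 := fun h0 => hy (by
      simp only [Y, h0, map_zero]
      exact le_of_eq_of_le (norm_zero) hB.le)
    obtain ⟨ky, hky⟩ := exists_norm_eq_zpow (norm_pos_iff.1 (norm_alg_pos hy0 v))
    obtain ⟨kb, hkb⟩ := exists_norm_eq_zpow (norm_pos_iff.1 hB)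
    have hlt : kb < ky := by
      rw [not_le] at hy
      exact (zpow_lt_zpow_iff_right₀ (one_lt_qv v)).1 (hkb ▸ hky ▸ hy)
    obtain ⟨j, hj⟩ : ∃ j : ℕ, ky - kb = j := ⟨(ky - kb).toNat, (Int.toNat_of_nonneg (by omega)).symm⟩
    have hYB : Y / B = qv v ^ j := by
      rw [show Y = qv v ^ ky from hky, show B = qv v ^ kb from hkb,
        ← zpow_sub₀ (qv_pos v).ne', hj, zpow_natCast]
    refine ⟨j, ?_, Or.inr ⟨by omega, hYB⟩⟩
    rw [max_eq_right (not_le.1 hy).le, ← hYB, ← inv_pow, inv_div]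

lemma exists_mem_levelC {c : Cos F N} (hc : LinkedC τ a v n c) : ∃ j, c ∈ levelC τ a v n j := by
  obtain ⟨y, hy⟩ := exists_eq_trC h hd hc
  obtain ⟨j, hj, -⟩ := pC_trC_level h hd (isAxis_projC h hd hc) y
  exact ⟨j, hc, by rw [hy]; exact hj⟩

/-- The part of a fibre of level at most `j`. -/
lemma encard_fibre_le (hv : (N : 𝓞 F) ∉ v.asIdeal) {c₀ : Cos F N} (hc : IsAxis τ a v n c₀) (j : ℕ) :
    ({c | projC τ a v n c = c₀ ∧ ∃ i ≤ j, c ∈ levelC τ a v n i} : Set (Cos F N)).encard =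
      ((Nat.card (𝓞 F ⧸ v.asIdeal) ^ j : ℕ) : ℕ∞) := by
  obtain ⟨R, hcard, hbound, hinj, hcov⟩ := exists_ball_reps v (radC v c₀) j
  set B := ‖(algebraMap F (Af F) (radC v c₀ : F)) v‖
  have hB : 0 < B := norm_alg_pos (radC v c₀).ne_zero v
  have hdiv : ∀ y : F, ‖(algebraMap F (Af F) (y / radC v c₀)) v‖ =
      ‖(algebraMap F (Af F) y) v‖ / B := fun y => by
    rw [Ht.norm_algebraMap, map_div₀, ← Ht.norm_algebraMap, ← Ht.norm_algebraMap]
  have hlev : ∀ y : F, (∃ i ≤ j, trC τ a v n y c₀ ∈ levelC τ a v n i) ↔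
      ‖(algebraMap F (Af F) y) v‖ ≤ qv v ^ j * B := by
    intro y
    obtain ⟨i, hi, hy⟩ := pC_trC_level h hd hc y
    rw [hdiv y] at hy
    have hmem : trC τ a v n y c₀ ∈ levelC τ a v n i := ⟨(linkedC_trC h hd y c₀).2 hc.1, hi⟩
    have hone : 1 ≤ qv v ^ j := one_le_pow₀ (one_lt_qv v).le
    rw [← div_le_iff₀ hB]
    constructor
    · rintro ⟨i', hi', hm⟩
      obtain rfl := levelC_disjoint hm hmem
      rcases hy with ⟨-, h1⟩ | ⟨-, h1⟩
      · exact h1.trans hone
      · rw [h1]; exact pow_le_pow_right₀ (one_lt_qv v).le hi'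
    · intro hle
      refine ⟨i, ?_, hmem⟩
      rcases hy with ⟨h0, -⟩ | ⟨-, h1⟩
      · omega
      · rw [h1] at hle; exact (pow_le_pow_iff_right₀ (one_lt_qv v)).1 hle
  have hset : {c | projC τ a v n c = c₀ ∧ ∃ i ≤ j, c ∈ levelC τ a v n i} =
      (fun y => trC τ a v n y c₀) '' (R : Set F) := by
    ext c
    constructor
    · rintro ⟨hp, i, hi, hm⟩
      obtain ⟨y, hy⟩ := exists_eq_trC h hd hm.1
      rw [hp] at hy
      obtain ⟨r, hr, hyr⟩ := hcov y ((hlev y).1 ⟨i, hi, hy ▸ hm⟩)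
      refine ⟨r, hr, ?_⟩
      show trC τ a v n r c₀ = c
      conv_rhs => rw [hy, show y = r + (y - r) by ring, ← trC_trC, trC_eq_self h hd hv hc hyr]
    · rintro ⟨r, hr, rfl⟩
      exact ⟨projC_trC h hd hv hc r, (hlev r).2 (hbound r hr)⟩
  rw [hset, Set.InjOn.encard_image, Set.encard_coe_eq_coe_finsetCard, hcard]
  intro r hr r' hr' e
  refine hinj r hr r' hr' (norm_le_of_pC_eq_one h hd hc ?_)
  have e' : trC τ a v n (r - r') c₀ = c₀ := by
    have := congrArg (trC τ a v n (-r')) e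
    simp only [trC_trC, neg_add_cancel, trC_zero] at this
    rwa [show r - r' = -r' + r by ring]
  rw [e', hc.2]

omit h hd in
/-- The number of cosets of level `j` over an axis coset. -/
def cardLevel (v : HS) (j : ℕ) : ℕ :=
  if j = 0 then 1 else Nat.card (𝓞 F ⧸ v.asIdeal) ^ j - Nat.card (𝓞 F ⧸ v.asIdeal) ^ (j - 1)

omit h hd in
lemma cardLevel_cast (v : HS) (j : ℕ) : (cardLevel v j : ℝ) = levelCard (qv v) j := by
  rw [cardLevel, levelCard]
  split_ifs
  · simp
  · rw [Nat.cast_sub (Nat.pow_le_pow_right Nat.card_pos (Nat.sub_le j 1)), qv]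
    push_cast
    rfl

theorem encard_fibre (hv : (N : 𝓞 F) ∉ v.asIdeal) {c₀ : Cos F N} (hc : IsAxis τ a v n c₀) (j : ℕ) :
    ({c | projC τ a v n c = c₀ ∧ c ∈ levelC τ a v n j} : Set (Cos F N)).encard =
      (cardLevel v j : ℕ∞) := by
  rcases Nat.eq_zero_or_pos j with rfl | hj
  · rw [cardLevel, if_pos rfl, ← pow_zero (Nat.card (𝓞 F ⧸ v.asIdeal)), ← encard_fibre_le h hd hv hc 0]
    congr 1
    ext c
    constructor
    · exact fun ⟨h1, h2⟩ => ⟨h1, 0, le_rfl, h2⟩
    · rintro ⟨h1, i, hi, h2⟩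
      obtain rfl : i = 0 := by omega
      exact ⟨h1, h2⟩
  · obtain ⟨k, rfl⟩ : ∃ k, j = k + 1 := ⟨j - 1, by omega⟩
    set A := {c : Cos F N | projC τ a v n c = c₀ ∧ ∃ i ≤ k + 1, c ∈ levelC τ a v n i}
    set B := {c : Cos F N | projC τ a v n c = c₀ ∧ ∃ i ≤ k, c ∈ levelC τ a v n i}
    have hA : A.encard = _ := encard_fibre_le h hd hv hc (k + 1)
    have hB : B.encard = _ := encard_fibre_le h hd hv hc k
    have e : ({c | projC τ a v n c = c₀ ∧ c ∈ levelC τ a v n (k + 1)} : Set (Cos F N)) = A \ B := by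
      ext c
      constructor
      · exact fun ⟨h1, h2⟩ => ⟨⟨h1, k + 1, le_rfl, h2⟩, fun ⟨_, i, hi, h3⟩ => by
          have := levelC_disjoint h2 h3; omega⟩
      · rintro ⟨⟨h1, i, hi, h2⟩, hn⟩
        rcases Nat.lt_or_eq_of_le hi with hlt | rfl
        · exact absurd ⟨h1, i, Nat.le_of_lt_succ hlt, h2⟩ hn
        · exact ⟨h1, h2⟩
    have hsub : B ⊆ A := fun c ⟨h1, i, hi, h2⟩ => ⟨h1, i, hi.trans k.le_succ, h2⟩
    have hfin : A.Finite := Set.finite_of_encard_eq_coe hA
    rw [e, ← (hfin.sdiff).cast_ncard_eq, Set.ncard_sdiff hsub (hfin.subset hsub), cardLevel,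
      if_neg (by omega), Nat.add_sub_cancel, Set.ncard_def, Set.ncard_def, hA, hB,
      ENat.toNat_natCast, ENat.toNat_natCast]

/-! ### The values on a level -/

/-- The distance at `v` on a level. -/
theorem exists_treeDist_levelC (hne : (nrm τ n a : F) ≠ 1) :
    ∃ m k₀ : ℕ, ∀ (j : ℕ) (c : Cos F N), c ∈ levelC τ a v n j →
      treeDist v (yOf τ a c.out) = m + 2 * (j - k₀) := by
  obtain ⟨m, k₀, hmk⟩ := exists_treeDist_levels v (nrm τ n a) hne
  refine ⟨m, k₀, fun j c hc => ?_⟩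
  obtain ⟨y, hy⟩ := exists_eq_trC h hd hc.1
  set c₀ := projC τ a v n c
  have hc₀ : IsAxis τ a v n c₀ := isAxis_projC h hd hc.1
  obtain ⟨u, hu, eu⟩ := exists_mul_out (N := N) (transGF τ a v n y * c₀.out)
  have hco : c = (QuotientGroup.mk (transGF τ a v n y * c₀.out) : Cos F N) := by
    rw [← trC_mk, QuotientGroup.out_eq']; exact hy
  obtain ⟨i, hi, hcase⟩ := pC_trC_level h hd hc₀ y
  have hij : i = j := levelC_disjoint ⟨(linkedC_trC h hd y c₀).2 hc₀.1, hi⟩ (hy ▸ hc)
  subst hij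
  rw [hco, eu, treeDist_yOf_mul hu, treeDist_yOf_transGF h hd hc₀.1 hc₀.2 (norm_radC c₀), mul_div_assoc]
  exact hmk _ _ (fun h0 => by
      rcases hcase with ⟨-, h1⟩ | ⟨h1, -⟩
      · exact h1
      · omega)
    fun h0 => by
      rcases hcase with ⟨h1, -⟩ | ⟨-, h1⟩
      · omega
      · exact h1

/-- The finite value away from `v` is constant along a fibre. -/
theorem fin_away_projC {t : Test F} (ht : t.Ok N) (hN : 0 < N) (hv : (N : 𝓞 F) ∉ v.asIdeal)
    {c : Cos F N} (hc : LinkedC τ a v n c) :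
    t.fin (away v (yOf τ a c.out)) = t.fin (away v (yOf τ a (projC τ a v n c).out)) := by
  obtain ⟨y, hy⟩ := exists_eq_trC h hd hc
  set c₀ := projC τ a v n c
  obtain ⟨u, hu, eu⟩ := exists_mul_out (N := N) (transGF τ a v n y * c₀.out)
  have hco : c = (QuotientGroup.mk (transGF τ a v n y * c₀.out) : Cos F N) := by
    rw [← trC_mk, QuotientGroup.out_eq']; exact hy
  rw [hco, eu, yOf_mul, away_mul, away_mul, ht.right_inv _ (away_mem_UZ hv (Ell.gfMap_mem_UZ τ hN hu)),
    ht.left_inv _ (away_mem_UZ hv (inv_mem hu)), away_yOf_transGF h]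

end FLTAgent.LT.HypTree
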