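import Fermat.Agent.LT.TF.Height.Local
import Fermat.Agent.LT.TF.Aleph.Word
import Fermat.Agent.LT.TF.Hyp.Seq

/-!
Tests which are trivial at `v`, damped: their values are the value away from `v` times the radial
profile at the distance in the tree at `v`.
-/

set_option autoImplicit false
set_option linter.style.haveILetI false
set_option linter.unusedSectionVars false
set_option synthInstance.maxHeartbeats 200000

noncomputable section

namespace FLTAgent.LT.HypTree

open NumberField IsDedekindDomain Matrix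
open FLTAgent.LT.Ht (vMax mMax detNorm locBound)
open FLTAgent.LT.Aleph (hRep lRep lInv RIdx piV)

variable {F : Type*} [Field F] [NumberField F]

local notation "HS" => HeightOneSpectrum (𝓞 F)
local notation "M2" => Matrix (Fin 2) (Fin 2) (Af F)

/-- The residue cardinality, as a real number. -/
def qv (v : HS) : ℝ := (Nat.card (𝓞 F ⧸ v.asIdeal) : ℝ)

lemma absNorm_eq (v : HS) : Ideal.absNorm v.asIdeal = Nat.card (𝓞 F ⧸ v.asIdeal) := by
  rw [Ideal.absNorm_apply, Submodule.cardQuot_apply]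

lemma one_lt_qv (v : HS) : 1 < qv v := by
  rw [qv, ← absNorm_eq]
  exact_mod_cast HeightOneSpectrum.one_lt_absNorm v

lemma qv_pos (v : HS) : 0 < qv v := zero_lt_one.trans (one_lt_qv v)

lemma exists_norm_eq_zpow {v : HS} {x : v.adicCompletion F} (hx : x ≠ 0) :
    ∃ k : ℤ, ‖x‖ = qv v ^ k := by
  have h : Valued.v x ≠ 0 := (map_ne_zero _).2 hx
  refine ⟨(WithZero.unzero h).toAdd, ?_⟩
  rw [FinitePlace.norm_def, WithZeroMulInt.toNNReal_neg_apply _ h, NNReal.coe_zpow, qv, ← absNorm_eq]
  rfl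

lemma norm_le_inv_of_lt_one {v : HS} {x : v.adicCompletion F} (hx : ‖x‖ < 1) : ‖x‖ ≤ (qv v)⁻¹ := by
  rcases eq_or_ne x 0 with rfl | h0
  · rw [norm_zero]; exact inv_nonneg.2 (qv_pos v).le
  · obtain ⟨k, hk⟩ := exists_norm_eq_zpow h0
    rw [hk] at hx ⊢
    rw [← zpow_zero (qv v), zpow_lt_zpow_iff_right₀ (one_lt_qv v)] at hx
    rw [← _root_.zpow_neg_one]
    exact zpow_le_zpow_right₀ (one_lt_qv v).le (by omega)

lemma norm_piV (v : HS) : ‖piV v‖ = (qv v)⁻¹ := by
  obtain ⟨k, hk⟩ := exists_norm_eq_zpow (Aleph.piV_ne_zero v)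
  have h : Valued.v (piV v) ≠ 0 := (map_ne_zero _).2 (Aleph.piV_ne_zero v)
  rw [hk, ← _root_.zpow_neg_one]
  have hk' := hk
  rw [FinitePlace.norm_def, WithZeroMulInt.toNNReal_neg_apply _ h, NNReal.coe_zpow] at hk'
  have h1 : (WithZero.unzero h).toAdd = -1 := by
    have := Aleph.valued_piV v
    rw [← WithZero.coe_unzero h] at this
    exact congrArg Multiplicative.toAdd (WithZero.coe_inj.1 this)
  rw [h1] at hk'
  rw [← hk', qv, ← absNorm_eq]
  rfl

/-! ### Matrices at one place -/

section matrices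

variable {v : HeightOneSpectrum (𝓞 F)}

local notation "KM" => Matrix (Fin 2) (Fin 2) (v.adicCompletion F)

lemma mMax_mul_le (A B : KM) : mMax (A * B) ≤ mMax A * mMax B := by
  have h : ∀ i, vMax ((A * B) i) ≤ mMax A * mMax B := fun i => by
    refine (Ht.vMax_vecMul_le (A i) B).trans (mul_le_mul_of_nonneg_right ?_ (Ht.mMax_nonneg _))
    exact max_le (Ht.norm_le_mMax A i 0) (Ht.norm_le_mMax A i 1)
  exact max_le (h 0) (h 1)

lemma mMax_smul (c : v.adicCompletion F) (A : KM) : mMax (c • A) = ‖c‖ * mMax A := by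
  simp only [mMax, vMax, Matrix.smul_apply, smul_eq_mul, norm_mul,
    mul_max_of_nonneg _ _ (norm_nonneg c)]

lemma mMax_one : mMax (1 : KM) = 1 := by
  simp [mMax, vMax]

lemma mMax_adjugate (A : KM) : mMax A.adjugate = mMax A := by
  simp only [mMax, vMax, Matrix.adjugate_fin_two, Matrix.of_apply, Matrix.cons_val_zero,
    Matrix.cons_val_one, Matrix.cons_val_fin_one, norm_neg]
  simp [max_comm, max_left_comm, max_assoc]

lemma exists_entry_eq_mMax (A : KM) : ∃ i j, ‖A i j‖ = mMax A := by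
  rcases max_choice (vMax (A 0)) (vMax (A 1)) with h | h <;>
    [rcases max_choice ‖A 0 0‖ ‖A 0 1‖ with h' | h'; rcases max_choice ‖A 1 0‖ ‖A 1 1‖ with h' | h']
  · exact ⟨0, 0, (h.trans h').symm⟩
  · exact ⟨0, 1, (h.trans h').symm⟩
  · exact ⟨1, 0, (h.trans h').symm⟩
  · exact ⟨1, 1, (h.trans h').symm⟩

lemma norm_det_le_sq (A : KM) : ‖A.det‖ ≤ mMax A ^ 2 := by
  rw [sq]
  exact (Ht.norm_det_le A).trans (mul_le_mul (le_max_left _ _) (le_max_right _ _) (Ht.vMax_nonneg _)
    (Ht.mMax_nonneg _))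

lemma norm_lRep_le (r : RIdx v) : mMax (lRep v r) ≤ 1 ∧ ‖(lRep v r).det‖ = (qv v)⁻¹ ∧
    mMax (lInv v r) ≤ qv v ∧ lRep v r * lInv v r = 1 := by
  have hp : ‖piV v‖ ≤ 1 := (norm_piV v).le.trans (inv_le_one_of_one_le₀ (one_lt_qv v).le)
  have hi : ‖(piV v)⁻¹‖ = qv v := by rw [norm_inv, norm_piV, inv_inv]
  have h1 := (one_lt_qv v).le
  have h0 := Aleph.piV_ne_zero v
  cases r with
  | none =>
    refine ⟨?_, by simp [lRep, Matrix.det_fin_two, norm_piV], ?_, ?_⟩
    · simp [mMax, vMax, lRep, hp]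
    · simp [mMax, vMax, lInv, norm_piV, h1, (qv_pos v).le]
    · ext i j
      fin_cases i <;> fin_cases j <;> simp [lRep, lInv, Matrix.mul_apply, Fin.sum_univ_two, h0]
  | some u =>
    have hu : ‖((((Quotient.out u : 𝓞 F) : F)) : v.adicCompletion F)‖ ≤ 1 :=
      Ht.norm_le_one_iff_valued.2 (Aleph.valued_int_le_one v _)
    simp only [lRep, lInv]
    generalize ((((Quotient.out u : 𝓞 F) : F)) : v.adicCompletion F) = z at hu ⊢
    refine ⟨?_, by simp [Matrix.det_fin_two, norm_piV], ?_, ?_⟩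
    · simp [mMax, vMax, hp, hu]
    · have : qv v * ‖z‖ ≤ qv v := mul_le_of_le_one_right (qv_pos v).le hu
      simp [mMax, vMax, norm_piV, h1, this]
    · ext i j
      fin_cases i <;> fin_cases j <;> simp [Matrix.mul_apply, Fin.sum_univ_two, h0]

lemma le_mMax_mul_lRep (A : KM) (r : RIdx v) : mMax A * (qv v)⁻¹ ≤ mMax (A * lRep v r) := by
  obtain ⟨-, -, h, e⟩ := norm_lRep_le (v := v) r
  rw [mul_inv_le_iff₀ (qv_pos v)]
  calc mMax A = mMax (A * lRep v r * lInv v r) := by rw [Matrix.mul_assoc, e, Matrix.mul_one]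
    _ ≤ mMax (A * lRep v r) * qv v :=
      (mMax_mul_le _ _).trans (mul_le_mul_of_nonneg_left h (Ht.mMax_nonneg _))

lemma eq_of_norm_sub_lt_one {u u' : 𝓞 F ⧸ v.asIdeal}
    (h : ‖((((Quotient.out u : 𝓞 F) : F)) : v.adicCompletion F) -
      ((((Quotient.out u' : 𝓞 F) : F)) : v.adicCompletion F)‖ < 1) : u = u' := by
  rw [← Red.coe_sub_completion, FinitePlace.norm_def, ← NNReal.coe_one, NNReal.coe_lt_coe,
    ← (WithZeroMulInt.toNNReal (HeightOneSpectrum.absNorm_ne_zero v)).map_one,
    (WithZeroMulInt.toNNReal_strictMono (HeightOneSpectrum.one_lt_absNorm_nnreal v)).lt_iff_lt,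
    HeightOneSpectrum.adicCompletion.valued_coe, ← map_sub] at h
  rw [← Ideal.Quotient.mk_out u, ← Ideal.Quotient.mk_out u', Ideal.Quotient.eq]
  exact (HeightOneSpectrum.valuation_lt_one_iff_mem v _).1 h

/-- The neighbours of a primitive matrix: exactly one goes down, unless it is invertible. -/
lemma existsUnique_down {A : KM} (hA : mMax A = 1) (hd : ‖A.det‖ < 1) :
    ∃! r : RIdx v, mMax (A * lRep v r) < 1 := by
  have hle : ∀ i j, ‖A i j‖ ≤ 1 := fun i j => hA ▸ Ht.norm_le_mMax A i j
  have hp : ‖piV v‖ < 1 := (norm_piV v).le.trans_lt (inv_lt_one_of_one_lt₀ (one_lt_qv v))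
  have hcol : ∀ i, ‖A i 0 * piV v‖ < 1 := fun i => by
    rw [norm_mul]
    exact mul_lt_one_of_nonneg_of_lt_one_right (hle i 0) (norm_nonneg _) hp
  have hcol' : ∀ i, ‖A i 1 * piV v‖ < 1 := fun i => by
    rw [norm_mul]
    exact mul_lt_one_of_nonneg_of_lt_one_right (hle i 1) (norm_nonneg _) hp
  have hsome : ∀ u : 𝓞 F ⧸ v.asIdeal, mMax (A * lRep v (some u)) < 1 ↔ ∀ i,
      ‖A i 0 * ((((Quotient.out u : 𝓞 F) : F)) : v.adicCompletion F) + A i 1‖ < 1 := fun u => by
    simp [mMax, vMax, lRep, Matrix.mul_apply, Fin.sum_univ_two, Fin.forall_fin_two, -norm_mul,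
      hcol 0, hcol 1]
  have hnone : mMax (A * lRep v none) < 1 ↔ ∀ i, ‖A i 0‖ < 1 := by
    simp [mMax, vMax, lRep, Matrix.mul_apply, Fin.sum_univ_two, Fin.forall_fin_two, -norm_mul,
      hcol' 0, hcol' 1]
  have hcross : ∀ i k, ‖A i 0 * A k 1 - A i 1 * A k 0‖ < 1 := fun i k => by
    fin_cases i <;> fin_cases k
    · simp [mul_comm]
    · simpa [Matrix.det_fin_two] using hd
    · rw [← norm_neg]; simpa [Matrix.det_fin_two, mul_comm] using hd
    · simp [mul_comm]
  by_cases hc : ∀ i, ‖A i 0‖ < 1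
  · refine ⟨none, hnone.2 hc, fun r hr => ?_⟩
    cases r with
    | none => rfl
    | some u =>
      exfalso
      obtain ⟨i, j, hij⟩ := exists_entry_eq_mMax A
      rw [hA] at hij
      fin_cases j
      · exact absurd hij (hc i).ne
      · have h1 := (hsome u).1 hr i
        set z := ((((Quotient.out u : 𝓞 F) : F)) : v.adicCompletion F)
        have hz : ‖A i 0 * z‖ < 1 := by
          rw [norm_mul]
          exact (mul_le_of_le_one_right (norm_nonneg _)
            (Ht.norm_le_one_iff_valued.2 (Aleph.valued_int_le_one v _))).trans_lt (hc i)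
        have h2 := (Ht.norm_add_le_max (A i 0 * z + A i 1) (-(A i 0 * z))).trans_lt
          (max_lt h1 (by rwa [norm_neg]))
        rw [show A i 0 * z + A i 1 + -(A i 0 * z) = A i 1 by ring] at h2
        exact h2.ne hij
  · push Not at hc
    obtain ⟨i, hi⟩ := hc
    have hi1 : ‖A i 0‖ = 1 := le_antisymm (hle i 0) hi
    have hi0 : A i 0 ≠ 0 := fun h => by rw [h, norm_zero] at hi1; exact zero_ne_one hi1
    obtain ⟨u, hu⟩ := Aleph.exists_res v (x := -(A i 1) / A i 0)
      (Ht.norm_le_one_iff_valued.1 (by rw [norm_div, hi1, div_one, norm_neg]; exact hle i 1))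
    set z := ((((Quotient.out u : 𝓞 F) : F)) : v.adicCompletion F)
    have hu' : ‖-(A i 1) / A i 0 - z‖ < 1 := by
      rw [FinitePlace.norm_def, ← NNReal.coe_one, NNReal.coe_lt_coe,
        ← (WithZeroMulInt.toNNReal (HeightOneSpectrum.absNorm_ne_zero v)).map_one,
        (WithZeroMulInt.toNNReal_strictMono (HeightOneSpectrum.one_lt_absNorm_nnreal v)).lt_iff_lt]
      exact hu
    have hrow : ‖A i 0 * z + A i 1‖ < 1 := by
      rw [show A i 0 * z + A i 1 = -(A i 0 * (-(A i 1) / A i 0 - z)) by field_simp; ring, norm_neg,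
        norm_mul, hi1, one_mul]
      exact hu'
    refine ⟨some u, (hsome u).2 fun k => ?_, fun r hr => ?_⟩
    · have e : A k 0 * z + A k 1 =
          (A k 0 * (A i 0 * z + A i 1) + (A i 0 * A k 1 - A i 1 * A k 0)) / A i 0 := by
        field_simp; ring
      rw [e, norm_div, hi1, div_one]
      refine (Ht.norm_add_le_max _ _).trans_lt (max_lt ?_ (hcross i k))
      rw [norm_mul]
      exact mul_lt_one_of_nonneg_of_lt_one_right (hle k 0) (norm_nonneg _) hrow
    · cases r with
      | none => exact absurd (hnone.1 hr i) (not_lt.2 hi)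
      | some u' =>
        refine congrArg some (eq_of_norm_sub_lt_one ?_)
        have h1 := (hsome u').1 hr i
        set z' := ((((Quotient.out u' : 𝓞 F) : F)) : v.adicCompletion F)
        have h2 := (Ht.norm_add_le_max (A i 0 * z' + A i 1) (-(A i 0 * z + A i 1))).trans_lt
          (max_lt h1 (by rwa [norm_neg]))
        rwa [show A i 0 * z' + A i 1 + -(A i 0 * z + A i 1) = A i 0 * (z' - z) by ring, norm_mul,
          hi1, one_mul] at h2

end matrices

/-! ### The distance in the tree -/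

variable (v : HeightOneSpectrum (𝓞 F))

lemma mMax_loc_pos (g : GF F) : 0 < mMax (Red.loc v (g : M2)) := by
  by_contra h
  have h1 := norm_det_le_sq (Red.loc v (g : M2))
  rw [← Ht.detNorm_eq_det, le_antisymm (not_lt.1 h) (Ht.mMax_nonneg _)] at h1
  simp at h1
  exact h1.not_gt (Ht.detNorm_pos v g)

lemma one_le_locBound (g : GF F) : 1 ≤ locBound v g := by
  rw [locBound, one_le_div (Ht.detNorm_pos v g), Ht.detNorm_eq_det]
  exact norm_det_le_sq _

lemma exists_locBound_eq (g : GF F) : ∃ D : ℕ, locBound v g = qv v ^ D := by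
  obtain ⟨i, j, hij⟩ := exists_entry_eq_mMax (Red.loc v (g : M2))
  have h0 : Red.loc v (g : M2) i j ≠ 0 := fun h => by
    rw [h, norm_zero] at hij
    exact (mMax_loc_pos v g).ne hij
  obtain ⟨a, ha⟩ := exists_norm_eq_zpow h0
  obtain ⟨b, hb⟩ := exists_norm_eq_zpow (Red.unit_apply_ne_zero (GeneralLinearGroup.det g) v)
  have h1 := one_le_locBound v g
  have e : locBound v g = qv v ^ (2 * a - b) := by
    rw [locBound, ← hij, ha, show detNorm v g = qv v ^ b from hb, zpow_sub₀ (qv_pos v).ne',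
      mul_comm, _root_.zpow_mul]
    rfl
  rw [e, ← zpow_zero (qv v), zpow_le_zpow_iff_right₀ (one_lt_qv v)] at h1
  exact ⟨(2 * a - b).toNat, by rw [e, ← zpow_natCast, Int.toNat_of_nonneg h1]⟩

/-- The distance from the base vertex to its translate. -/
def treeDist (g : GF F) : ℕ := (exists_locBound_eq v g).choose

lemma locBound_eq_pow (g : GF F) : locBound v g = qv v ^ treeDist v g :=
  (exists_locBound_eq v g).choose_spec

lemma treeDist_eq {g : GF F} {D : ℕ} (h : locBound v g = qv v ^ D) : treeDist v g = D :=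
  (pow_right_injective₀ (qv_pos v) (one_lt_qv v).ne') ((locBound_eq_pow v g).symm.trans h)

lemma locBound_congr {g h : GF F} (e : Red.loc v (g : M2) = Red.loc v (h : M2)) :
    locBound v g = locBound v h := by
  rw [locBound, locBound, Ht.detNorm_eq_det, Ht.detNorm_eq_det, e]

lemma treeDist_congr {g h : GF F} (e : Red.loc v (g : M2) = Red.loc v (h : M2)) :
    treeDist v g = treeDist v h :=
  treeDist_eq v ((locBound_congr v e).trans (locBound_eq_pow v h))

lemma locBound_mul_le (g h : GF F) : locBound v (g * h) ≤ locBound v g * locBound v h := by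
  rw [locBound, locBound, locBound, Ht.detNorm_mul, div_mul_div_comm, ← mul_pow, Units.val_mul,
    Red.loc_mul]
  exact div_le_div_of_nonneg_right (pow_le_pow_left₀ (Ht.mMax_nonneg _) (mMax_mul_le _ _) 2)
    (mul_pos (Ht.detNorm_pos v g) (Ht.detNorm_pos v h)).le

lemma locBound_inv (g : GF F) : locBound v g⁻¹ = locBound v g := by
  set A := Red.loc v (g : M2)
  set B := Red.loc v ((g⁻¹ : GF F) : M2)
  have e : A.det • B = A.adjugate := by
    calc A.det • B = (A.adjugate * A) * B := by
          rw [Matrix.adjugate_mul, Matrix.smul_mul, Matrix.one_mul]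
      _ = A.adjugate := by rw [Matrix.mul_assoc, Ht.loc_inv_mul, Matrix.mul_one]
  have h1 := congrArg mMax e
  rw [mMax_smul, mMax_adjugate, ← Ht.detNorm_eq_det] at h1
  have h2 : detNorm v g * detNorm v g⁻¹ = 1 := by
    rw [← Ht.detNorm_mul, mul_inv_cancel, detNorm, map_one, Units.val_one]
    exact norm_one
  have hg := (Ht.detNorm_pos v g).ne'
  rw [locBound, locBound, ← h1, eq_inv_of_mul_eq_one_right h2]
  field_simp
  rfl

lemma treeDist_inv (g : GF F) : treeDist v g⁻¹ = treeDist v g :=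
  treeDist_eq v ((locBound_inv v g).trans (locBound_eq_pow v g))

lemma locBound_UZ {N : ℕ} {u : GF F} (hu : u ∈ UZ F N) : locBound v u = 1 := by
  refine le_antisymm ?_ (one_le_locBound v u)
  obtain ⟨k, hk, c, rfl⟩ := Red.mem_UZ.1 hu
  have hk1 := Red.inLevel_one_of_inLevel hk
  refine (locBound_mul_le v _ _).trans (mul_le_one₀ ?_ (zero_le_one.trans (one_le_locBound v _)) ?_)
  · rw [locBound, Ht.detNorm_eq_one hk1, div_one]
    exact pow_le_one₀ (Ht.mMax_nonneg _) (Ht.mMax_loc_le_one hk1 v)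
  · rw [locBound, Ht.detNorm_eq_det, show Red.loc v ((scalarGF c : GF F) : M2) =
      (c : Af F) v • 1 from Matrix.ext fun i j => by
        rcases eq_or_ne i j with rfl | hij
        · simp [Red.loc, scalarGF]
        · simp [Red.loc, scalarGF, hij, show (0 : Af F) v = 0 from rfl],
      mMax_smul, mMax_one, mul_one, Matrix.det_smul, Matrix.det_one, mul_one, Fintype.card_fin,
      norm_pow, div_self (pow_ne_zero 2 (norm_ne_zero_iff.2 (Red.unit_apply_ne_zero c v)))]

lemma treeDist_mul_UZ {N : ℕ} {u : GF F} (hu : u ∈ UZ F N) (g : GF F) :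
    treeDist v (g * u) = treeDist v g := by
  refine treeDist_eq v ((le_antisymm ((locBound_mul_le v g u).trans (by rw [locBound_UZ v hu, mul_one]))
    ?_).trans (locBound_eq_pow v g))
  have := locBound_mul_le v (g * u) u⁻¹
  rwa [mul_inv_cancel_right, locBound_UZ v (inv_mem hu), mul_one] at this

lemma treeDist_UZ_mul {N : ℕ} {u : GF F} (hu : u ∈ UZ F N) (g : GF F) :
    treeDist v (u * g) = treeDist v g := by
  rw [← treeDist_inv, _root_.mul_inv_rev, treeDist_mul_UZ v (inv_mem hu), treeDist_inv]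

/-! ### The component at the place and away from it -/

/-- The adelic matrix equal to `M` at `v` and to `1` elsewhere. -/
def atMat (M : Matrix (Fin 2) (Fin 2) (v.adicCompletion F)) : M2 :=
  1 + Matrix.of fun i j => adeleSingle v ((M - 1) i j)

lemma loc_atMat (M : Matrix (Fin 2) (Fin 2) (v.adicCompletion F)) :
    Red.loc v (atMat v M) = M ∧ ∀ w, w ≠ v → Red.loc w (atMat v M) = 1 := by
  refine ⟨?_, fun w hw => ?_⟩
  · rw [atMat, Red.loc_add, Red.loc_one]
    refine Matrix.ext fun i j => ?_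
    rw [Matrix.add_apply]
    show _ + adeleSingle v ((M - 1) i j) v = _
    rw [Aleph.adeleSingle_apply_self, Matrix.sub_apply, add_sub_cancel]
  · rw [atMat, Red.loc_add, Red.loc_one]
    refine Matrix.ext fun i j => ?_
    rw [Matrix.add_apply]
    show _ + adeleSingle v ((M - 1) i j) w = _
    rw [Aleph.adeleSingle_apply_ne v _ hw, add_zero]

lemma atMat_mul {A B : Matrix (Fin 2) (Fin 2) (v.adicCompletion F)} (h : A * B = 1) :
    atMat v A * atMat v B = 1 := Red.loc_ext fun w => by
  rw [Red.loc_mul, Red.loc_one]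
  rcases eq_or_ne w v with rfl | hw
  · rw [(loc_atMat w A).1, (loc_atMat w B).1, h]
  · rw [(loc_atMat v A).2 w hw, (loc_atMat v B).2 w hw, one_mul]

/-- The component at `v`. -/
def atV (g : GF F) : GF F where
  val := atMat v (Red.loc v (g : M2))
  inv := atMat v (Red.loc v ((g⁻¹ : GF F) : M2))
  val_inv := atMat_mul v (Ht.loc_inv_mul v g)
  inv_val := atMat_mul v (by
    rw [← Red.loc_mul, ← Units.val_mul, inv_mul_cancel, Units.val_one, Red.loc_one])

lemma loc_atV_self (g : GF F) : Red.loc v (atV v g : M2) = Red.loc v (g : M2) := (loc_atMat v _).1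

lemma loc_atV_ne (g : GF F) {w : HS} (hw : w ≠ v) : Red.loc w (atV v g : M2) = 1 :=
  (loc_atMat v _).2 w hw

lemma gf_ext {g h : GF F} (e : ∀ w : HS, Red.loc w (g : M2) = Red.loc w (h : M2)) : g = h :=
  Units.ext (Red.loc_ext e)

/-- The component away from `v`. -/
def away (g : GF F) : GF F := g * (atV v g)⁻¹

lemma loc_inv_eq {g : GF F} {w : HS} (h : Red.loc w (g : M2) = 1) :
    Red.loc w ((g⁻¹ : GF F) : M2) = 1 := by
  simpa [h] using Ht.loc_inv_mul w g

lemma loc_away_self (g : GF F) : Red.loc v (away v g : M2) = 1 := by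
  rw [away, Units.val_mul, Red.loc_mul, show Red.loc v (((atV v g)⁻¹ : GF F) : M2) =
    Red.loc v ((g⁻¹ : GF F) : M2) from (loc_atMat v _).1, Ht.loc_inv_mul]

lemma loc_away_ne (g : GF F) {w : HS} (hw : w ≠ v) :
    Red.loc w (away v g : M2) = Red.loc w (g : M2) := by
  rw [away, Units.val_mul, Red.loc_mul, loc_inv_eq (loc_atV_ne v g hw), mul_one]

lemma away_mul (g h : GF F) : away v (g * h) = away v g * away v h := gf_ext fun w => by
  rw [Units.val_mul, Red.loc_mul]
  rcases eq_or_ne w v with rfl | hw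
  · rw [loc_away_self, loc_away_self, loc_away_self, one_mul]
  · rw [loc_away_ne v _ hw, loc_away_ne v _ hw, loc_away_ne v _ hw, Units.val_mul, Red.loc_mul]

lemma away_hRep (r : RIdx v) : away v (hRep v r) = 1 := gf_ext fun w => by
  rw [Units.val_one, Red.loc_one]
  rcases eq_or_ne w v with rfl | hw
  · exact loc_away_self _ _
  · rw [loc_away_ne v _ hw, (Aleph.loc_hRep_ne v hw r).1]

lemma away_mul_atV (g : GF F) : away v g * atV v g = g := inv_mul_cancel_right _ _

lemma atV_mul_away (g : GF F) : atV v g * away v g = g := gf_ext fun w => by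
  rw [Units.val_mul, Red.loc_mul]
  rcases eq_or_ne w v with rfl | hw
  · rw [loc_away_self, mul_one, loc_atV_self]
  · rw [loc_atV_ne v _ hw, one_mul, loc_away_ne v _ hw]

variable {N : ℕ} {v}

/-- Distance zero: the component is in the level times the centre. -/
lemma atV_mem_UZ (hv : (N : 𝓞 F) ∉ v.asIdeal) {g : GF F} (h : treeDist v g = 0) :
    atV v g ∈ UZ F N := by
  have hb : locBound v g = 1 := by rw [locBound_eq_pow, h, pow_zero]
  obtain ⟨i, j, hij⟩ := exists_entry_eq_mMax (Red.loc v (g : M2))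
  set x := Red.loc v (g : M2) i j
  have hx : x ≠ 0 := fun h0 => by
    rw [h0, norm_zero] at hij
    exact (mMax_loc_pos v g).ne hij
  have hd : detNorm v g = ‖x‖ ^ 2 := by
    rw [locBound, div_eq_one_iff_eq (Ht.detNorm_pos v g).ne', ← hij] at hb
    exact hb.symm
  set c : (Af F)ˣ := ⟨adeleMulSingle v x⁻¹, adeleMulSingle v x,
    by rw [← adeleMulSingle_mul, inv_mul_cancel₀ hx, adeleMulSingle_one],
    by rw [← adeleMulSingle_mul, mul_inv_cancel₀ hx, adeleMulSingle_one]⟩
  have hcv : (c : Af F) v = x⁻¹ := by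
    classical
    exact RestrictedProduct.mulSingle_eq_same (fun w : HS => w.adicCompletionIntegers F) _ _
  have hcv' : ((c⁻¹ : (Af F)ˣ) : Af F) v = x := by
    classical
    exact RestrictedProduct.mulSingle_eq_same (fun w : HS => w.adicCompletionIntegers F) _ _
  have hcw : ∀ w, w ≠ v → (c : Af F) w = 1 ∧ ((c⁻¹ : (Af F)ˣ) : Af F) w = 1 := fun w hw => by
    classical
    exact ⟨RestrictedProduct.mulSingle_eq_of_ne (fun w : HS => w.adicCompletionIntegers F) _ hw,
      RestrictedProduct.mulSingle_eq_of_ne (fun w : HS => w.adicCompletionIntegers F) _ hw⟩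
  have hsc : ∀ (d : (Af F)ˣ) (w : HS), Red.loc w ((scalarGF d : GF F) : M2) = (d : Af F) w • 1 :=
    fun d w => Matrix.ext fun a b => by
      rcases eq_or_ne a b with rfl | hab
      · simp [Red.loc, scalarGF]
      · simp [Red.loc, scalarGF, hab, show (0 : Af F) w = 0 from rfl]
  refine Red.mem_UZ.2 ⟨atV v g * scalarGF c, ?_, c⁻¹, by
    rw [Red.scalarGF_inv, mul_inv_cancel_right]⟩
  refine Red.inLevel_iff.2 fun w => ?_
  rw [_root_.mul_inv_rev, ← Red.scalarGF_inv, Units.val_mul, Units.val_mul, Red.loc_mul, Red.loc_mul,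
    hsc, hsc, Matrix.mul_smul, Matrix.mul_one, Matrix.smul_mul, Matrix.one_mul]
  rcases eq_or_ne w v with rfl | hw
  · rw [hcv, hcv', loc_atV_self, show Red.loc w (((atV w g)⁻¹ : GF F) : M2) =
      Red.loc w ((g⁻¹ : GF F) : M2) from (loc_atMat w _).1, Red.valued_natCast_eq_one hv]
    have h1 : ∀ A : Matrix (Fin 2) (Fin 2) (w.adicCompletion F), mMax A ≤ 1 →
        Red.EntLe w 1 (A - 1) := fun A hA => by
      rw [sub_eq_add_neg]
      exact Red.EntLe.add (fun a b => Ht.norm_le_one_iff_valued.1 ((Ht.norm_le_mMax A a b).trans hA))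
        (Red.entLe_one w).neg
    refine ⟨h1 _ ?_, h1 _ ?_⟩
    · rw [mMax_smul, norm_inv, ← hij, inv_mul_cancel₀ (norm_ne_zero_iff.2 hx)]
    · have hi := locBound_inv w g
      rw [hb, locBound] at hi
      have hinv : detNorm w g⁻¹ = (‖x‖ ^ 2)⁻¹ := by
        refine eq_inv_of_mul_eq_one_right ?_
        rw [← hd, ← Ht.detNorm_mul, mul_inv_cancel, detNorm, map_one, Units.val_one]
        exact norm_one
      rw [hinv, div_eq_one_iff_eq (inv_ne_zero (pow_ne_zero _ (norm_ne_zero_iff.2 hx))),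
        ← inv_pow] at hi
      rw [mMax_smul, (pow_left_inj₀ (Ht.mMax_nonneg _) (inv_nonneg.2 (norm_nonneg _))
        two_ne_zero).1 hi, mul_inv_cancel₀ (norm_ne_zero_iff.2 hx)]
  · rw [(hcw w hw).1, (hcw w hw).2, one_smul, one_smul, loc_atV_ne v g hw,
      loc_inv_eq (loc_atV_ne v g hw), sub_self]
    exact ⟨fun a b => by simp, fun a b => by simp⟩

lemma away_mem_UZ (hv : (N : 𝓞 F) ∉ v.asIdeal) {u : GF F} (hu : u ∈ UZ F N) : away v u ∈ UZ F N :=
  mul_mem hu (inv_mem (atV_mem_UZ hv (treeDist_eq v (by rw [locBound_UZ v hu, pow_zero]))))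

/-- The distances of the neighbours. -/
lemma sum_neighbours (h : ℕ → ℝ) (g : GF F) :
    ∑ r : RIdx v, h (treeDist v (g * hRep v r)) = hop (qv v) h (treeDist v g) := by
  classical
  obtain ⟨i, j, hij⟩ := exists_entry_eq_mMax (Red.loc v (g : M2))
  set x := Red.loc v (g : M2) i j
  have hx : x ≠ 0 := fun h0 => by
    rw [h0, norm_zero] at hij
    exact (mMax_loc_pos v g).ne hij
  set A := x⁻¹ • Red.loc v (g : M2)
  have hA : mMax A = 1 := by
    rw [mMax_smul, norm_inv, ← hij, inv_mul_cancel₀ (norm_ne_zero_iff.2 hx)]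
  have hdet : ‖A.det‖ = (qv v ^ treeDist v g)⁻¹ := by
    rw [Matrix.det_smul, Fintype.card_fin, norm_mul, norm_pow, norm_inv, ← Ht.detNorm_eq_det,
      ← locBound_eq_pow, locBound, ← hij, inv_div, inv_pow]
    ring
  have hq := qv_pos v
  have hD : ∀ r, treeDist v (g * hRep v r) =
      if mMax (A * lRep v r) < 1 then treeDist v g - 1 else treeDist v g + 1 := by
    intro r
    have hb : locBound v (g * hRep v r) = mMax (A * lRep v r) ^ 2 * qv v ^ (treeDist v g + 1) := by
      rw [locBound, Ht.detNorm_eq_det, Units.val_mul, Red.loc_mul, (Aleph.loc_hRep_self v r).1,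
        show Red.loc v (g : M2) = x • A by rw [smul_inv_smul₀ hx], Matrix.smul_mul,
        Matrix.det_smul, Fintype.card_fin, mMax_smul, norm_mul, norm_pow, Matrix.det_mul, norm_mul,
        hdet, (norm_lRep_le (v := v) r).2.1, pow_succ]
      have := norm_ne_zero_iff.2 hx
      field_simp
      rw [pow_succ]
      ring
    have hle : mMax (A * lRep v r) ≤ 1 := (mMax_mul_le _ _).trans (by
      rw [hA, one_mul]; exact (norm_lRep_le (v := v) r).1)
    refine treeDist_eq v (hb.trans ?_)
    split_ifs with hlt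
    · obtain ⟨a, b, hab⟩ := exists_entry_eq_mMax (A * lRep v r)
      have hge := le_mMax_mul_lRep A r
      rw [hA, one_mul] at hge
      have heq : mMax (A * lRep v r) = (qv v)⁻¹ :=
        le_antisymm (hab ▸ norm_le_inv_of_lt_one (hab.trans_lt hlt)) hge
      have hpos : 0 < treeDist v g := by
        by_contra h0
        have h1 := norm_det_le_sq (A * lRep v r)
        rw [Matrix.det_mul, norm_mul, hdet, show treeDist v g = 0 by omega, pow_zero, inv_one,
          one_mul, (norm_lRep_le (v := v) r).2.1, heq] at h1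
        nlinarith [inv_lt_one_of_one_lt₀ (one_lt_qv v), inv_pos.2 hq]
      obtain ⟨D, hD⟩ := Nat.exists_eq_add_of_le' hpos
      rw [heq, hD, Nat.add_sub_cancel]
      field_simp
      ring
    · rw [le_antisymm hle (not_lt.1 hlt), one_pow, one_mul]
  simp only [hD]
  have hq' : qv v = (Fintype.card (𝓞 F ⧸ v.asIdeal) : ℝ) := by
    rw [qv, Nat.card_eq_fintype_card]
  rcases Nat.eq_zero_or_pos (treeDist v g) with h0 | hpos
  · rw [h0]
    have hall : ∀ r, ¬ mMax (A * lRep v r) < 1 := fun r hr => by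
      have h1 := norm_det_le_sq (A * lRep v r)
      rw [Matrix.det_mul, norm_mul, hdet, h0, pow_zero, inv_one, one_mul,
        (norm_lRep_le (v := v) r).2.1] at h1
      obtain ⟨a, b, hab⟩ := exists_entry_eq_mMax (A * lRep v r)
      have h2 : mMax (A * lRep v r) ≤ (qv v)⁻¹ := hab ▸ norm_le_inv_of_lt_one (hab.trans_lt hr)
      nlinarith [pow_le_pow_left₀ (Ht.mMax_nonneg _) h2 2, inv_lt_one_of_one_lt₀ (one_lt_qv v),
        inv_pos.2 hq]
    simp [hall, hop, hq']
  · obtain ⟨D, hD'⟩ := Nat.exists_eq_add_of_le' hpos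
    have hd1 : ‖A.det‖ < 1 := by
      rw [hdet, hD']
      exact inv_lt_one_of_one_lt₀ (one_lt_pow₀ (one_lt_qv v) (by omega))
    obtain ⟨r₀, hr₀, huniq⟩ := existsUnique_down hA hd1
    have hiff : ∀ r, mMax (A * lRep v r) < 1 ↔ r = r₀ := fun r => ⟨huniq r, fun h => h ▸ hr₀⟩
    simp only [hiff, hD', Nat.add_sub_cancel, apply_ite h, Finset.sum_ite, Finset.filter_eq',
      Finset.mem_univ, if_true, Finset.card_singleton, Nat.cast_one, one_mul, Finset.sum_const, Finset.filter_ne',
      Finset.card_erase_of_mem, Finset.card_univ, Fintype.card_option, Nat.add_sub_cancel,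
      nsmul_eq_mul, hop, hq']
    ring

/-- The operator on functions split at `v`. -/
lemma hOp_split (C : GF F → ℂ) (h : ℕ → ℝ) (y : GF F) :
    Aleph.hOp v (fun y => C (away v y) * (h (treeDist v y) : ℂ)) y =
      C (away v y) * (hop (qv v) h (treeDist v y) : ℂ) := by
  simp only [Aleph.hOp, away_mul, away_hRep, mul_one, ← Finset.mul_sum]
  rw [← Complex.ofReal_sum, sum_neighbours]

lemma mulHecke_fin (t : Test F) (y : GF F) : (t.mulHecke v).fin y = Aleph.hOp v t.fin y := by
  simp only [Test.mulHecke, Aleph.hOp]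
  rw [Fintype.sum_option, finsum_eq_sum_of_fintype, add_comm]
  rfl

lemma treeDist_eq_zero_of_oneAt {t : Test F} (h1 : t.OneAt v) {y : GF F} (hy : t.fin y ≠ 0) :
    treeDist v y = 0 := by
  obtain ⟨c, hc⟩ := h1 y hy
  refine treeDist_eq v ((le_antisymm ?_ (one_le_locBound v y)).trans (pow_zero _).symm)
  have hA : mMax (((c : v.adicCompletion F)) • Red.loc v (y : M2)) ≤ 1 := by
    have h := fun i j => Ht.norm_le_one_iff_valued.2 ((hc i j).1)
    simp only [mMax, vMax, Matrix.smul_apply, smul_eq_mul, mul_comm (c : v.adicCompletion F)]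
    exact max_le (max_le (h 0 0) (h 0 1)) (max_le (h 1 0) (h 1 1))
  have hB : mMax ((((c⁻¹ : (v.adicCompletion F)ˣ)) : v.adicCompletion F) •
      Red.loc v ((y⁻¹ : GF F) : M2)) ≤ 1 := by
    have h := fun i j => Ht.norm_le_one_iff_valued.2 ((hc i j).2)
    simp only [mMax, vMax, Matrix.smul_apply, smul_eq_mul,
      mul_comm ((c⁻¹ : (v.adicCompletion F)ˣ) : v.adicCompletion F)]
    exact max_le (max_le (h 0 0) (h 0 1)) (max_le (h 1 0) (h 1 1))
  have hd := (norm_det_le_sq _).trans (pow_le_one₀ (Ht.mMax_nonneg _) hB)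
  rw [Matrix.det_smul, Fintype.card_fin, norm_mul, norm_pow, ← Ht.detNorm_eq_det,
    Units.val_inv_eq_inv_val, norm_inv, inv_pow,
    inv_mul_le_iff₀ (pow_pos (norm_pos_iff.2 c.ne_zero) 2), mul_one] at hd
  rw [mMax_smul] at hA
  rw [locBound, div_le_one (Ht.detNorm_pos v y)]
  have h2 : detNorm v y * detNorm v y⁻¹ = 1 := by
    rw [← Ht.detNorm_mul, mul_inv_cancel, detNorm, map_one, Units.val_one]
    exact norm_one
  have hc0 : 0 < ‖(c : v.adicCompletion F)‖ := norm_pos_iff.2 c.ne_zero
  have h3 := pow_le_one₀ (n := 2) (mul_nonneg hc0.le (Ht.mMax_nonneg _)) hA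
  rw [mul_pow] at h3
  have h4 : 1 ≤ detNorm v y * ‖(c : v.adicCompletion F)‖ ^ 2 := by
    calc (1 : ℝ) = detNorm v y * detNorm v y⁻¹ := h2.symm
      _ ≤ _ := mul_le_mul_of_nonneg_left hd (Ht.detNorm_pos v y).le
  nlinarith [pow_pos hc0 2]

lemma dampPow_inf (t : Test F) : ∀ J, (t.dampPow v J).inf = t.inf
  | 0 => rfl
  | J + 1 => dampPow_inf t J

variable (hv : (N : 𝓞 F) ∉ v.asIdeal) {t : Test F} (ht : t.Ok N) (h1 : t.OneAt v)
include hv ht h1

/-- The values of the damped test. -/
theorem dampPow_fin : ∀ (J : ℕ) (y : GF F),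
    (t.dampPow v J).fin y = t.fin (away v y) * (profile (qv v) J (treeDist v y) : ℂ)
  | 0, y => by
    simp only [Test.dampPow, profile]
    split_ifs with h
    · rw [Complex.ofReal_one, mul_one]
      conv_lhs => rw [← away_mul_atV v y, ht.right_inv _ (atV_mem_UZ hv h)]
    · rw [Complex.ofReal_zero, mul_zero]
      by_contra hy
      exact h (treeDist_eq_zero_of_oneAt h1 hy)
  | J + 1, y => by
    set s := t.dampPow v J
    have e : s.fin = fun y => t.fin (away v y) * (profile (qv v) J (treeDist v y) : ℂ) :=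
      funext (dampPow_fin J)
    have e1 : ∀ y, (s.mulHecke v).fin y =
        t.fin (away v y) * (hop (qv v) (profile (qv v) J) (treeDist v y) : ℂ) := fun y => by
      rw [mulHecke_fin, e, hOp_split]
    show s.fin y - ((s.mulHecke v).mulHecke v).fin y / _ = _
    rw [mulHecke_fin, funext e1, hOp_split, e]
    simp only [profile, qv]
    push_cast
    ring

omit h1 in
lemma exists_finite_atV : ∀ D : ℕ, ∃ S : Set (GF F), S.Finite ∧
    (∀ s ∈ S, away v s = 1) ∧
      ∀ y : GF F, treeDist v y ≤ D → ∃ s ∈ S, s⁻¹ * atV v y ∈ UZ F N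
  | 0 => ⟨{1}, Set.finite_singleton 1, fun s hs => by
      rw [Set.mem_singleton_iff.1 hs]
      exact mul_left_cancel (a := away v 1) (by rw [← away_mul, mul_one, mul_one]),
      fun y hy => ⟨1, rfl, by rw [inv_one, one_mul]; exact atV_mem_UZ hv (Nat.le_zero.1 hy)⟩⟩
  | D + 1 => by
    obtain ⟨S, hS, haway, hcov⟩ := exists_finite_atV D
    refine ⟨S ∪ Set.image2 (fun r s => hRep v r * s) Set.univ S,
      hS.union (Set.Finite.image2 _ Set.finite_univ hS), ?_, fun y hy => ?_⟩
    · rintro s (hs | ⟨r, -, s', hs', rfl⟩)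
      · exact haway s hs
      · rw [away_mul, away_hRep, haway s' hs', one_mul]
    · rcases Nat.lt_or_eq_of_le hy with hlt | heq
      · obtain ⟨s, hs, hu⟩ := hcov y (Nat.le_of_lt_succ hlt)
        exact ⟨s, Or.inl hs, hu⟩
      · have hsum := sum_neighbours (v := v) (fun k => if k = D then (1 : ℝ) else 0) y⁻¹
        rw [treeDist_inv, heq] at hsum
        obtain ⟨r, -, hr⟩ := Finset.exists_ne_zero_of_sum_ne_zero
          (show (∑ r : RIdx v, if treeDist v (y⁻¹ * hRep v r) = D then (1 : ℝ) else 0) ≠ 0 by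
            rw [hsum, hop]
            simp)
        rw [ne_eq, ite_eq_right_iff, Classical.not_imp] at hr
        have hz : treeDist v ((hRep v r)⁻¹ * y) ≤ D := by
          rw [← treeDist_inv, _root_.mul_inv_rev, inv_inv, hr.1]
        obtain ⟨s, hs, hu⟩ := hcov _ hz
        refine ⟨hRep v r * s, Or.inr ⟨r, trivial, s, hs, rfl⟩, ?_⟩
        have e : atV v ((hRep v r)⁻¹ * y) = (hRep v r)⁻¹ * atV v y := gf_ext fun w => by
          rcases eq_or_ne w v with rfl | hw
          · simp only [loc_atV_self, Units.val_mul, Red.loc_mul]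
          · simp only [loc_atV_ne v _ hw, Units.val_mul, Red.loc_mul, (Aleph.loc_hRep_ne v hw r).2,
              one_mul]
        rw [e, ← mul_assoc] at hu
        rwa [_root_.mul_inv_rev]

/-- The damped test is again a test. -/
theorem dampPow_ok (J : ℕ) : (t.dampPow v J).Ok N where
  left_inv u hu g := by
    rw [dampPow_fin hv ht h1, dampPow_fin hv ht h1, away_mul, ht.left_inv _ (away_mem_UZ hv hu),
      treeDist_UZ_mul v hu]
  right_inv u hu g := by
    rw [dampPow_fin hv ht h1, dampPow_fin hv ht h1, away_mul, ht.right_inv _ (away_mem_UZ hv hu),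
      treeDist_mul_UZ v hu]
  finite := by
    obtain ⟨S, hS, haway, hcov⟩ := exists_finite_atV hv ht (2 * J)
    refine (Set.Finite.image2 (fun (s : GF F) (c : Cos F N) => s • c) hS ht.finite).subset ?_
    rintro _ ⟨y, hy, rfl⟩
    rw [Function.mem_support, dampPow_fin hv ht h1] at hy
    obtain ⟨h2, h3⟩ := ne_zero_and_ne_zero_of_mul hy
    have hD : treeDist v y ≤ 2 * J := by
      by_contra h
      exact h3 (by rw [profile_eq_zero _ _ _ (not_le.1 h), Complex.ofReal_zero])
    obtain ⟨s, hs, hu⟩ := hcov y hD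
    refine ⟨s, hs, _, ⟨away v y, h2, rfl⟩, ?_⟩
    show s • (QuotientGroup.mk (away v y) : Cos F N) = QuotientGroup.mk y
    have hcomm : s * away v y = away v y * s := by
      have hs1 : ∀ w, w ≠ v → Red.loc w (s : M2) = 1 := fun w hw => by
        rw [← loc_away_ne v s hw, haway s hs, Units.val_one, Red.loc_one]
      refine gf_ext fun w => ?_
      rw [Units.val_mul, Units.val_mul, Red.loc_mul, Red.loc_mul]
      rcases eq_or_ne w v with rfl | hw
      · rw [loc_away_self, one_mul, mul_one]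
      · rw [hs1 w hw, one_mul, mul_one]
    rw [MulAction.Quotient.smul_mk, smul_eq_mul, QuotientGroup.eq, hcomm]
    convert hu using 1
    rw [_root_.mul_inv_rev, mul_assoc]
    congr 1
    rw [away, _root_.mul_inv_rev, inv_inv, inv_mul_cancel_right]
  lipschitz := by rw [dampPow_inf]; exact ht.lipschitz
  compact := by rw [dampPow_inf]; exact ht.compact

end FLTAgent.LT.HypTree
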