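import Fermat.Agent.LT.TF.Hyp.Trunc
import Fermat.Agent.LT.TF.Hyp.Finite

/-!
The integral of a finite combination of damped non elliptic kernels: finitely many split classes
occur, the truncated integral is affine in the logarithm of the height, so only the weighted slices
remain and they tend to zero with the number of dampings.
-/

set_option autoImplicit false
set_option linter.style.haveILetI false
set_option linter.unusedSectionVars false
set_option synthInstance.maxHeartbeats 200000

noncomputable section

namespace FLTAgent.LT.HypTree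

open NumberField IsDedekindDomain MeasureTheory Filter
open scoped ENNReal Topology
open FLTAgent.LT.Ht (lowSet)

variable {F : Type*} [Field F] [NumberField F] {N : ℕ}

/-- An integrable function whose truncated integrals are affine in `log T` integrates to the
constant term. -/
lemma integral_eq_of_trunc {w : Pt F N → ℝ≥0∞} {f : Pt F N → ℂ}
    (hf : Integrable f (quotMeasure w)) {T₀ : ℝ} {A B : ℂ}
    (h : ∀ T, T₀ < T → ∫ p, (lowSet F N T).indicator f p ∂quotMeasure w =
      2 * (Real.log T : ℂ) * A + B) :
    ∫ p, f p ∂quotMeasure w = B := by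
  have he : Tendsto (fun k : ℕ => Real.exp (k : ℝ)) atTop atTop :=
    Real.tendsto_exp_atTop.comp tendsto_natCast_atTop_atTop
  have hlim : Tendsto (fun k : ℕ => 2 * ((k : ℝ) : ℂ) * A + B) atTop
      (𝓝 (∫ p, f p ∂quotMeasure w)) := by
    refine (tendsto_integral_of_dominated_convergence
      (F := fun k : ℕ => (lowSet F N (Real.exp (k : ℝ))).indicator f) (fun p => ‖f p‖)
      (fun k => hf.aestronglyMeasurable.indicator (Ht.measurableSet_lowSet _)) hf.norm
      (fun k => ae_of_all _ fun p => norm_indicator_le_norm_self _ _)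
      (ae_of_all _ fun p => ?_)).congr' ?_
    · obtain ⟨T, hT⟩ := exists_mem_lowSet p
      refine tendsto_const_nhds.congr' ?_
      filter_upwards [he.eventually_ge_atTop T] with k hk
      rw [Set.indicator_of_mem (show p ∈ lowSet F N (Real.exp (k : ℝ)) from
        fun r hr => (hT r hr).trans hk)]
    · filter_upwards [he.eventually_gt_atTop T₀] with k hk
      rw [h _ hk, Real.log_exp]
  have hA : A = 0 := by
    have h1 := ((tendsto_add_atTop_iff_nat 1).2 hlim).sub hlim
    rw [sub_self] at h1
    have h2 : Tendsto (fun _ : ℕ => 2 * A) atTop (𝓝 0) := h1.congr fun k => by push_cast; ring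
    exact (mul_eq_zero.1 (tendsto_const_nhds_iff.1 h2)).resolve_left two_ne_zero
  exact tendsto_nhds_unique hlim (tendsto_const_nhds.congr fun k => by rw [hA]; ring)

/-- **The non elliptic part of a damped combination tends to zero.** -/
theorem tendsto_integral_restTw [IsTotallyComplex F] {τ : F →+* F} {n : ℕ} (h : Cyc τ n)
    (hN : 0 < N) {v : HeightOneSpectrum (𝓞 F)} (hv : (N : 𝓞 F) ∉ v.asIdeal) {ι : Type*}
    [Fintype ι] (coef : ι → ℂ) (t : ι → Test F) (ht : ∀ i, (t i).Ok N) (h1 : ∀ i, (t i).OneAt v)
    (hns : ∀ i J, NoSing τ n N ((t i).dampPow v J)) {w : Pt F N → ℝ≥0∞} (hw : IsPtWeight w)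
    (hval : ∀ i (s : SplitIdx τ n),
      Tendsto (fun J => sliceW τ w ((t i).dampPow v J) (repA s)) atTop (𝓝 0))
    (hint : ∀ J, Integrable (fun p => ∑ i, coef i * restTw τ n ((t i).dampPow v J) p)
      (quotMeasure w)) :
    Tendsto (fun J => ∫ p, ∑ i, coef i * restTw τ n ((t i).dampPow v J) p ∂quotMeasure w) atTop
      (𝓝 0) := by
  classical
  set S := fun i => (finite_splitIdx h hN hv (ht i) (h1 i)).toFinset
  suffices key : ∀ J, ∫ p, ∑ i, coef i * restTw τ n ((t i).dampPow v J) p ∂quotMeasure w =
      ∑ i, coef i * ∑ s ∈ S i, sliceW τ w ((t i).dampPow v J) (repA s) by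
    simp only [key]
    simpa using tendsto_finsetSum Finset.univ fun i _ =>
      (tendsto_finsetSum (S i) fun s _ => hval i s).const_mul (coef i)
  intro J
  have H : ∀ i, ∃ T₀, ∀ T, T₀ < T →
      Integrable ((lowSet F N T).indicator (restTw τ n ((t i).dampPow v J))) (quotMeasure w) ∧
        ∫ p, (lowSet F N T).indicator (restTw τ n ((t i).dampPow v J)) p ∂quotMeasure w =
          ∑ s ∈ S i, (2 * (Real.log T : ℂ) * sliceO τ w ((t i).dampPow v J) (repA s) +
            sliceW τ w ((t i).dampPow v J) (repA s)) := fun i =>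
    (exists_trunc h hN (dampPow_ok hv (ht i) (h1 i) J) (hns i J) (fun s hs p => by
      by_contra hp
      exact hs ((Set.Finite.mem_toFinset _).2 ⟨J, p, hp⟩)) hw).2
  choose T₀ hT₀ using H
  obtain ⟨T₁, hT₁⟩ := (Set.finite_range T₀).bddAbove
  refine integral_eq_of_trunc (hint J) (T₀ := T₁)
    (A := ∑ i, coef i * ∑ s ∈ S i, sliceO τ w ((t i).dampPow v J) (repA s)) fun T hT => ?_
  have hi := fun i => hT₀ i T ((hT₁ ⟨i, rfl⟩).trans_lt hT)
  have e : ∀ p, (lowSet F N T).indicator
      (fun p => ∑ i, coef i * restTw τ n ((t i).dampPow v J) p) p =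
        ∑ i, coef i * (lowSet F N T).indicator (restTw τ n ((t i).dampPow v J)) p := fun p => by
    by_cases hp : p ∈ lowSet F N T <;> simp [hp]
  simp only [e]
  rw [integral_finsetSum _ fun i _ => (hi i).1.const_mul _]
  simp only [integral_const_mul, fun i => (hi i).2, Finset.sum_add_distrib, ← Finset.mul_sum,
    mul_add]
  rw [Finset.mul_sum]
  congr 1
  exact Finset.sum_congr rfl fun i _ => by ring

end FLTAgent.LT.HypTree
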